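import Fermat.Agent.ES.G2.Plan
import Fermat.Agent.S24.Defs
import Fermat.Prelude.Def_AlgebraicCurve_Repartitions
import Fermat.Prelude.Def_ModularCurve_X0ModL

/-!
# ES / M — route 2 (`π`-adic approximation) for (INJ): definitions and the input statements

Plan: `NOTES/ES-plan.md` (§3 and §8).  Target: `Fermat.Agent.ES.G2.StmtInjPrime` (for `ℓ ≥ 5`; the
primes `2, 3` go through an auxiliary level).  Everything here is a definition or a `Prop`; the
proofs live in the pieces.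

Notation: `F = FF N = ℚ̄(j(q^d) : d ∣ N) ⊂ ℚ̄((q))`, `A ⊂ ℚ̄` a valuation ring over `ℓ`,
`k = kA A` its residue field, `F_k = modularFunctionFieldFullC k N ⊂ k((q))`.

* `IsCuspInfty N P` : the place `P` of `F` is the cusp `∞` (its order function is the `q`-order).
* `RegOut N x` : `x` is regular at every place except the cusp `∞`.
* `PolesAtCusps N x` : `x` is regular at every place where `j` is regular.
* `GaussRed N A x w` : `x = Y₁ / Y₂` with `Y₁, Y₂ ∈ A((q))` in `F`, `Ȳ₂ ≠ 0`, and `w = Ȳ₁ / Ȳ₂`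
  (the Gauss valuation and its residue map in FRACTION form; `GaussInt` = "Gauss norm `≤ 1`").
* `redR N A` : the reductions of the functions with `A`-integral `q`-expansion regular outside `∞`.
* `Wn N A n` : the elements of `F_k` integral over `k[redR]` with pole order `≤ n` at `q = 0`.
  (For good reduction this is `L(n·∞̄)` of the reduced curve; no places of `F_k` are used.)

Inputs (each a `Prop` for fixed `N`, `A`):
`StmtRedF` (S28), `StmtLRa` (Lemma R, bounded denominators), `StmtQ2` (orthonormal bases),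
`StmtFricke` (the involution `w_N`), `StmtR` (Riemann's inequality with `g = dim S₂(Γ₀(N))`),
`StmtI2` (`dim W_n ≤ n + 1 - g`: this is "good reduction").
Output: `StmtInjAt N A ℓ`; the glue is `StmtGlue`.
-/

set_option autoImplicit false

noncomputable section

namespace Fermat.Agent.ES.M

open ModularCurve AlgebraicCurve HahnSeries Fermat.Agent.ES Fermat.Agent.S24

variable (N : ℕ) [NeZero N] (A : ValuationSubring Kb)

/-- the residue field of `A` -/
abbrev kA : Type := IsLocalRing.ResidueField A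

/-- `g = dim S₂(Γ₀(N))` -/
def gN : ℕ := Module.finrank ℂ (CuspForm (CongruenceSubgroup.Gamma0 N) 2)

/-! ## Places and regularity (characteristic `0`) -/

/-- `P` is the cusp `∞` of `F_N`: its order function is the `q`-order. -/
def IsCuspInfty (P : Place Kb (FF N)) : Prop :=
  ∀ f : FF N, f ≠ 0 → P.ord f = (f : LaurentSeries Kb).order

/-- `x` is regular at every place of `F_N` except the cusp `∞`. -/
def RegOut (x : FF N) : Prop :=
  ∀ P : Place Kb (FF N), ¬ IsCuspInfty N P → 0 ≤ P.ord x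

/-- `x` has poles only at cusps: it is regular wherever `j` is. -/
def PolesAtCusps (x : FF N) : Prop :=
  ∀ P : Place Kb (FF N), 0 ≤ P.ord (jF N) → 0 ≤ P.ord x

/-! ## Gauss valuation and reduction, fraction form -/

/-- `x = Y₁ / Y₂` with integral `Y₁, Y₂ ∈ F`, `Ȳ₂ ≠ 0`, and `w = Ȳ₁ / Ȳ₂`. -/
def GaussRed (x : FF N) (w : LaurentSeries (kA A)) : Prop :=
  ∃ Y₁ Y₂ : LaurentSeries A,
    kronIncl A Y₁ ∈ modularFunctionFieldBar N ∧ kronIncl A Y₂ ∈ modularFunctionFieldBar N ∧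
      kronRed A Y₂ ≠ 0 ∧ (x : LaurentSeries Kb) * kronIncl A Y₂ = kronIncl A Y₁ ∧
        w * kronRed A Y₂ = kronRed A Y₁

/-- Gauss norm `≤ 1` -/
def GaussInt (x : FF N) : Prop := ∃ w : LaurentSeries (kA A), GaussRed N A x w

/-! ## The spaces `W_n` (characteristic `ℓ`) -/

theorem algebraMap_eq_hahnC {k : Type*} [Field k] (c : k) :
    algebraMap k (LaurentSeries k) c = HahnSeries.C c := by
  rw [← LaurentSeries.algebraMap_apply]

theorem hahnC_mem_intermediateField {k : Type*} [Field k] (c : k)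
    (E : IntermediateField k (LaurentSeries k)) : (HahnSeries.C c : LaurentSeries k) ∈ E := by
  have := E.algebraMap_mem c
  rwa [algebraMap_eq_hahnC] at this

/-- reductions of the functions with `A`-integral `q`-expansion that are regular outside `∞` -/
def redR : Set (LaurentSeries (kA A)) :=
  {w | ∃ (Y : LaurentSeries A) (hY : kronIncl A Y ∈ modularFunctionFieldBar N),
    RegOut N ⟨kronIncl A Y, hY⟩ ∧ kronRed A Y = w}

/-- `w ∈ W`: an element of `F_k` integral over the `k`-algebra generated by `redR`. -/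
def InW (w : LaurentSeries (kA A)) : Prop :=
  w ∈ modularFunctionFieldFullC (kA A) N ∧ IsIntegral (Algebra.adjoin (kA A) (redR N A)) w

/-- `W_n`: the elements of `W` with pole order `≤ n` at `q = 0`. -/
def Wn (n : ℕ) : Submodule (kA A) (LaurentSeries (kA A)) where
  carrier := {w | InW N A w ∧ ∀ m : ℤ, m < -(n : ℤ) → w.coeff m = 0}
  zero_mem' := ⟨⟨zero_mem _, isIntegral_zero⟩, fun _ _ => rfl⟩
  add_mem' := by
    rintro a b ⟨⟨ha1, ha2⟩, ha3⟩ ⟨⟨hb1, hb2⟩, hb3⟩
    refine ⟨⟨add_mem ha1 hb1, ha2.add hb2⟩, fun m hm => ?_⟩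
    rw [HahnSeries.coeff_add, ha3 m hm, hb3 m hm, add_zero]
  smul_mem' := by
    rintro c a ⟨⟨ha1, ha2⟩, ha3⟩
    refine ⟨⟨?_, ?_⟩, fun m hm => ?_⟩
    · rw [← HahnSeries.C_mul_eq_smul]
      exact mul_mem (hahnC_mem_intermediateField c _) ha1
    · rw [← HahnSeries.C_mul_eq_smul]
      refine IsIntegral.mul ?_ ha2
      have hc : (HahnSeries.C c : LaurentSeries (kA A)) ∈ Algebra.adjoin (kA A) (redR N A) := by
        have := (Algebra.adjoin (kA A) (redR N A)).algebraMap_mem c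
        rwa [algebraMap_eq_hahnC] at this
      exact isIntegral_algebraMap (R := Algebra.adjoin (kA A) (redR N A))
        (x := ⟨HahnSeries.C c, hc⟩)
    · rw [HahnSeries.coeff_smul, ha3 m hm, smul_zero]

omit [NeZero N] in
theorem mem_Wn {n : ℕ} {w : LaurentSeries (kA A)} :
    w ∈ Wn N A n ↔ InW N A w ∧ ∀ m : ℤ, m < -(n : ℤ) → w.coeff m = 0 := Iff.rfl

/-! ## The inputs -/

/-- **(RedF)** (S28): the reduction of an `A`-integral element of `F` lies in `F_k`. -/
def StmtRedF : Prop :=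
  ∀ Y : LaurentSeries A, kronIncl A Y ∈ modularFunctionFieldBar N →
    kronRed A Y ∈ modularFunctionFieldFullC (kA A) N

/-- **(LR-a)** Lemma R: a function with poles only at cusps and Gauss norm `≤ 1` has an
`A`-integral `q`-expansion (bounded denominators of modular forms, `Θ = Δ(z)^N / Δ(Nz)`). -/
def StmtLRa : Prop :=
  ∀ x : FF N, PolesAtCusps N x → GaussInt N A x → KronInt A (x : LaurentSeries Kb)

/-- **(Q2)** orthonormal bases: a finite-dimensional `ℚ̄`-subspace of `F` has a basis whose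
reductions (fraction form) are `k`-linearly independent. -/
def StmtQ2 : Prop :=
  ∀ (r : ℕ) (a : Fin r → FF N), LinearIndependent Kb a →
    ∃ (b : Fin r → FF N) (w : Fin r → LaurentSeries (kA A)),
      (∀ i, b i ∈ Submodule.span Kb (Set.range a)) ∧ (∀ i, GaussRed N A (b i) (w i)) ∧
        LinearIndependent (kA A) w

/-- **(Fricke)** an involution of `F` preserving `≡ 1`, preserving "poles only at cusps", and
moving the cusp `∞` away (so a function regular outside `∞` becomes regular at `∞`). `N ≥ 2`. -/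
def StmtFricke : Prop :=
  ∃ w : FF N ≃ₐ[Kb] FF N,
    (∀ x, w (w x) = x) ∧
    (∀ x, G2.ReducesToOne A N x → G2.ReducesToOne A N (w x)) ∧
    (∀ x, PolesAtCusps N x → PolesAtCusps N (w x)) ∧
    (∀ x, RegOut N x → ∀ n : ℤ, n < 0 → ((w x : FF N) : LaurentSeries Kb).coeff n = 0)

/-- **(R)** Riemann's inequality for `F_N / ℚ̄` with `g = dim S₂(Γ₀(N))`. -/
def StmtR : Prop :=
  ∀ D : Divisor Kb (FF N),
    Divisor.degree D + 1 - (gN N : ℤ) ≤ (Module.finrank Kb ↥(riemannRochSpace D) : ℤ)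

/-- **(I2)** the upper bound in characteristic `ℓ`: `dim_k W_n ≤ n + 1 - g` for `n ≥ n₀`.
This is where good reduction enters (false for `ℓ ∣ N`). -/
def StmtI2 : Prop :=
  ∃ n₀ : ℕ, ∀ n : ℕ, n₀ ≤ n →
    Module.Finite (kA A) ↥(Wn N A n) ∧ Module.finrank (kA A) ↥(Wn N A n) + gN N ≤ n + 1

/-! ## The output -/

/-- (INJ) at `(N, A)` for all prime exponents `p ≠ ℓ`. -/
def StmtInjAt (ℓ : ℕ) : Prop :=
  ∀ p : ℕ, p.Prime → p ≠ ℓ →
    ∀ u : FF N, u ≠ 0 → G2.ReducesToOne A N u →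
      (∀ P : Place Kb (FF N), (p : ℤ) ∣ P.ord u) → ∃ h : FF N, h ^ p = u

end Fermat.Agent.ES.M

namespace Fermat.Agent.ES.M

open ModularCurve AlgebraicCurve Fermat.Agent.ES Fermat.Agent.S24

/-- **the glue** (Steps 0–4 of `NOTES/ES-plan.md` §3): the inputs at `(N, A)` give (INJ) at `(N, A)`. -/
def StmtGlue : Prop :=
  ∀ (N : ℕ) [NeZero N] (ℓ : ℕ), ℓ.Prime → ¬ ℓ ∣ N → 2 ≤ N →
    ∀ A : ValuationSubring Kb, A.LiesOverPrime ℓ →
      StmtRedF N A → StmtLRa N A → StmtQ2 N A → StmtFricke N A → StmtR N → StmtI2 N A →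
        G2.StmtPrim → StmtInjAt N A ℓ

/-- the modular inputs, for all good `(N, ℓ, A)` with `ℓ ≥ 5` -/
def StmtRedFAll : Prop :=
  ∀ (N : ℕ) [NeZero N] (ℓ : ℕ), ℓ.Prime → ¬ ℓ ∣ N →
    ∀ A : ValuationSubring Kb, A.LiesOverPrime ℓ → StmtRedF N A

def StmtLRaAll : Prop :=
  ∀ (N : ℕ) [NeZero N] (ℓ : ℕ), ℓ.Prime → ¬ ℓ ∣ N →
    ∀ A : ValuationSubring Kb, A.LiesOverPrime ℓ → StmtLRa N A

def StmtQ2All : Prop :=
  ∀ (N : ℕ) [NeZero N] (ℓ : ℕ), ℓ.Prime → ¬ ℓ ∣ N →
    ∀ A : ValuationSubring Kb, A.LiesOverPrime ℓ → StmtQ2 N A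

def StmtFrickeAll : Prop :=
  ∀ (N : ℕ) [NeZero N] (ℓ : ℕ), ℓ.Prime → ¬ ℓ ∣ N → 2 ≤ N →
    ∀ A : ValuationSubring Kb, A.LiesOverPrime ℓ → StmtFricke N A

def StmtRAll : Prop := ∀ (N : ℕ) [NeZero N], StmtR N

def StmtI2All : Prop :=
  ∀ (N : ℕ) [NeZero N] (ℓ : ℕ), ℓ.Prime → 5 ≤ ℓ → ¬ ℓ ∣ N →
    ∀ A : ValuationSubring Kb, A.LiesOverPrime ℓ → StmtI2 N A

end Fermat.Agent.ES.M
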