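import Mathlib.LinearAlgebra.LinearIndependent.Lemmas
import Mathlib.LinearAlgebra.Span.Basic
import Mathlib.Algebra.BigOperators.Fin
import Mathlib.Algebra.Ring.Subring.Basic
import Mathlib.Algebra.Field.Basic
import Mathlib.Algebra.Module.BigOperators

/-!
# ES / M, piece Q2, abstract core: Gaussian elimination with attained Gauss norm

`K` a field, `A ⊆ K` a subring, `X` a `K`-vector space with a family of "coefficient" functionals
`co n : X →ₗ[K] K`.  Let `V ⊆ X` be a subspace in which the Gauss norm is attained: every nonzero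
`x ∈ V` has a coefficient `co n₀ x ≠ 0` dividing (in `A`) all its coefficients.  Then every
linearly independent family `a : Fin r → V` can be replaced by a family `b` in its span with all
coefficients in `A` and pivots `n : Fin r → ι` such that `co (n j) (b i) = δ_{ij}`.
-/

set_option autoImplicit false

namespace Fermat.Agent.ES.M

open Finset

theorem q2_elim {K : Type*} [Field K] (A : Subring K) {X : Type*} [AddCommGroup X] [Module K X]
    {ι : Type*} (co : ι → X →ₗ[K] K) (V : Submodule K X)
    (hH : ∀ x ∈ V, x ≠ 0 → ∃ n₀, co n₀ x ≠ 0 ∧ ∀ n, co n x / co n₀ x ∈ A) :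
    ∀ (r : ℕ) (a : Fin r → X), LinearIndependent K a → (∀ i, a i ∈ V) →
      ∃ (b : Fin r → X) (n : Fin r → ι),
        (∀ i, b i ∈ Submodule.span K (Set.range a)) ∧ (∀ i m, co m (b i) ∈ A) ∧
          ∀ i j, co (n j) (b i) = if i = j then 1 else 0 := by
  classical
  intro r
  induction r with
  | zero =>
    intro a _ _
    exact ⟨fun i => i.elim0, fun i => i.elim0, fun i => i.elim0, fun i => i.elim0,
      fun i => i.elim0⟩
  | succ r ih =>
    intro a ha haV
    -- the pivot vector
    have hx0 : a 0 ≠ 0 := ha.ne_zero 0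
    obtain ⟨n₀, hn₀, hdiv⟩ := hH (a 0) (haV 0) hx0
    set b₀ : X := (co n₀ (a 0))⁻¹ • a 0 with hb₀
    have hb₀span : b₀ ∈ Submodule.span K (Set.range a) :=
      Submodule.smul_mem _ _ (Submodule.subset_span ⟨0, rfl⟩)
    have hb₀n₀ : co n₀ b₀ = 1 := by
      rw [hb₀, map_smul, smul_eq_mul, inv_mul_cancel₀ hn₀]
    have hb₀A : ∀ m, co m b₀ ∈ A := by
      intro m
      rw [hb₀, map_smul, smul_eq_mul, mul_comm, ← div_eq_mul_inv]
      exact hdiv m
    -- the remaining vectors, made to vanish at the pivot
    set a' : Fin r → X := fun i => a i.succ - co n₀ (a i.succ) • b₀ with ha'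
    have ha'span : ∀ i, a' i ∈ Submodule.span K (Set.range a) := fun i =>
      Submodule.sub_mem _ (Submodule.subset_span ⟨i.succ, rfl⟩) (Submodule.smul_mem _ _ hb₀span)
    have hspanV : Submodule.span K (Set.range a) ≤ V := by
      rw [Submodule.span_le]
      rintro _ ⟨i, rfl⟩
      exact haV i
    have ha'V : ∀ i, a' i ∈ V := fun i => hspanV (ha'span i)
    have ha'n₀ : ∀ i, co n₀ (a' i) = 0 := by
      intro i
      rw [ha', map_sub, map_smul, smul_eq_mul, hb₀n₀, mul_one, sub_self]
    have ha'li : LinearIndependent K a' := by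
      rw [Fintype.linearIndependent_iff]
      intro g hg
      rw [Fintype.linearIndependent_iff] at ha
      set c : K := -(∑ i, g i * co n₀ (a i.succ)) * (co n₀ (a 0))⁻¹ with hc
      have key : ∑ j, (Fin.cons c g : Fin (r + 1) → K) j • a j = 0 := by
        rw [Fin.sum_univ_succ]
        simp only [Fin.cons_zero, Fin.cons_succ]
        have h1 : ∑ i, g i • a' i =
            ∑ i, g i • a i.succ - (∑ i, g i * co n₀ (a i.succ)) • b₀ := by
          rw [Finset.sum_smul, ← Finset.sum_sub_distrib]
          refine Finset.sum_congr rfl fun i _ => ?_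
          rw [ha', smul_sub, smul_smul]
        rw [h1, hb₀, smul_smul] at hg
        rw [hc, neg_mul, neg_smul, add_comm, ← sub_eq_add_neg]
        exact hg
      intro i
      have := ha _ key i.succ
      simpa using this
    obtain ⟨b', n', hb'span, hb'A, hb'δ⟩ := ih a' ha'li ha'V
    have hspan' : Submodule.span K (Set.range a') ≤ Submodule.span K (Set.range a) := by
      rw [Submodule.span_le]
      rintro _ ⟨i, rfl⟩
      exact ha'span i
    have hb'n₀ : ∀ i, co n₀ (b' i) = 0 := by
      intro i
      have hle : Submodule.span K (Set.range a') ≤ LinearMap.ker (co n₀) := by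
        rw [Submodule.span_le]
        rintro _ ⟨j, rfl⟩
        exact ha'n₀ j
      exact hle (hb'span i)
    -- back substitution
    set b₁ : X := b₀ - ∑ j, co (n' j) b₀ • b' j with hb₁
    have hb₁span : b₁ ∈ Submodule.span K (Set.range a) :=
      Submodule.sub_mem _ hb₀span
        (Submodule.sum_mem _ fun j _ => Submodule.smul_mem _ _ (hspan' (hb'span j)))
    have hb₁co : ∀ m, co m b₁ = co m b₀ - ∑ j, co (n' j) b₀ * co m (b' j) := by
      intro m
      rw [hb₁, map_sub, map_sum]
      congr 1
      refine Finset.sum_congr rfl fun j _ => ?_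
      rw [map_smul, smul_eq_mul]
    refine ⟨Fin.cons b₁ b', Fin.cons n₀ n', ?_, ?_, ?_⟩
    · intro i
      refine Fin.cases ?_ (fun i => ?_) i
      · simpa using hb₁span
      · simpa using hspan' (hb'span i)
    · intro i m
      refine Fin.cases ?_ (fun i => ?_) i
      · simp only [Fin.cons_zero]
        rw [hb₁co]
        exact A.sub_mem (hb₀A m) (A.sum_mem fun j _ => A.mul_mem (hb₀A _) (hb'A j m))
      · simpa using hb'A i m
    · intro i j
      refine Fin.cases ?_ (fun i => ?_) i <;> refine Fin.cases ?_ (fun j => ?_) j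
      · simp only [Fin.cons_zero, if_true]
        rw [hb₁co, hb₀n₀]
        simp [hb'n₀]
      · simp only [Fin.cons_zero, Fin.cons_succ]
        rw [hb₁co, if_neg (Fin.succ_ne_zero j).symm]
        simp only [hb'δ]
        simp
      · simp only [Fin.cons_zero, Fin.cons_succ]
        rw [hb'n₀, if_neg (Fin.succ_ne_zero i)]
      · simp only [Fin.cons_succ]
        rw [hb'δ]
        simp [Fin.succ_inj]

end Fermat.Agent.ES.M
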