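import Fermat.Agent.ES.M.Plan
import Fermat.Agent.ES.M.Q2Core
import Fermat.Agent.ES.G2.Prim

/-!
# ES / M, piece Q2: orthonormal bases

`stmtQ2 N A : StmtQ2 N A` for every valuation subring `A` of `ℚ̄`: a linearly independent family
`a : Fin r → F_N` can be replaced by a family `b` in its span whose Gauss reductions (fraction
form) are linearly independent over the residue field.

Proof: write `a i · D = ev P_i` with a common denominator `D = ev Q` (`ev` = evaluation of
polynomials at the `j(q^d)`).  In the range of `ev` the Gauss norm is attained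
(`prim_exists_primitive`, helper32), so Gaussian elimination (`q2_elim`) gives integral `b″_i` in
the span of the `ev P_i` with `coeff (n j) (b″ i) = δ_{ij}`.  With `D = s · y`, `y` primitive,
`b i := b″ i / y`.
-/

set_option autoImplicit false

noncomputable section

namespace Fermat.Agent.ES.M

open ModularCurve AlgebraicCurve HahnSeries Fermat.Agent.ES Fermat.Agent.S24

/-- the coefficient functionals on `ℚ̄((q))` -/
def q2Coeff (n : ℤ) : LaurentSeries Kb →ₗ[Kb] Kb where
  toFun x := x.coeff n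
  map_add' x y := HahnSeries.coeff_add' x y ▸ rfl
  map_smul' c x := by
    show (c • x).coeff n = c • x.coeff n
    rw [HahnSeries.coeff_smul]

theorem q2Coeff_apply (n : ℤ) (x : LaurentSeries Kb) : q2Coeff n x = x.coeff n := rfl

end Fermat.Agent.ES.M

namespace Fermat.Agent.ES.M

open ModularCurve AlgebraicCurve HahnSeries Fermat.Agent.ES Fermat.Agent.S24 Fermat.Agent.ES.G2

variable (N : ℕ) [NeZero N] (A : ValuationSubring Kb)

/-- evaluation of polynomials at the `j(q^d)`, `d ∣ N` -/
abbrev q2Ev : MvPolynomial (Dv N) Kb →ₐ[Kb] LaurentSeries Kb := MvPolynomial.aeval (jBfam N)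

/-- the range of `q2Ev` as a `ℚ̄`-subspace of `ℚ̄((q))` -/
def q2Range : Submodule Kb (LaurentSeries Kb) where
  carrier := {x | ∃ P, q2Ev N P = x}
  zero_mem' := ⟨0, map_zero _⟩
  add_mem' := by
    rintro _ _ ⟨P, rfl⟩ ⟨Q, rfl⟩
    exact ⟨P + Q, map_add _ _ _⟩
  smul_mem' := by
    rintro c _ ⟨P, rfl⟩
    refine ⟨MvPolynomial.C c * P, ?_⟩
    rw [map_mul, MvPolynomial.aeval_C, algebraMap_eq_hahnC, HahnSeries.C_mul_eq_smul]

/-- in the range of `q2Ev` the Gauss norm is attained -/
theorem q2_attained (x : LaurentSeries Kb) (hx : x ∈ q2Range N) (h0 : x ≠ 0) :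
    ∃ n₀, q2Coeff n₀ x ≠ 0 ∧ ∀ n, q2Coeff n x / q2Coeff n₀ x ∈ A.toSubring := by
  obtain ⟨P, rfl⟩ := hx
  obtain ⟨s, y, hs, -, ⟨hyI, n₀, hn₀⟩, hPy⟩ := prim_exists_primitive N A P h0
  have hy0 : y.coeff n₀ ≠ 0 := by
    intro h
    apply hn₀
    rw [h, ValuationSubring.mem_nonunits_iff, map_zero]
    exact zero_lt_one
  have hco : ∀ n, q2Coeff n (q2Ev N P) = s * y.coeff n := by
    intro n
    rw [q2Coeff_apply, hPy, HahnSeries.C_mul_eq_smul, HahnSeries.coeff_smul, smul_eq_mul]
  refine ⟨n₀, ?_, fun n => ?_⟩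
  · rw [hco]
    exact mul_ne_zero hs hy0
  · rw [hco, hco, mul_div_mul_left _ _ hs]
    show y.coeff n / y.coeff n₀ ∈ A
    have h1 : A.valuation (y.coeff n₀) = 1 := by
      refine le_antisymm ((ValuationSubring.valuation_le_one_iff A _).2 (hyI n₀)) ?_
      rw [ValuationSubring.mem_nonunits_iff, not_lt] at hn₀
      exact hn₀
    rw [← ValuationSubring.valuation_le_one_iff, map_div₀, h1, div_one]
    exact (ValuationSubring.valuation_le_one_iff A _).2 (hyI n)

omit [NeZero N] in
theorem q2_coe_smul (c : Kb) (x : FF N) :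
    ((c • x : FF N) : LaurentSeries Kb) = c • (x : LaurentSeries Kb) := by
  rw [Algebra.smul_def, ← HahnSeries.C_mul_eq_smul, ← algebraMap_eq_hahnC]
  rfl

omit [NeZero N] in
theorem q2_coe_sum {ι : Type*} (s : Finset ι) (f : ι → FF N) :
    ((∑ i ∈ s, f i : FF N) : LaurentSeries Kb) = ∑ i ∈ s, (f i : LaurentSeries Kb) :=
  map_sum (modularFunctionFieldBar N).val f s

/-- **(Q2)** for every valuation subring `A` of `ℚ̄`. -/
theorem stmtQ2 : StmtQ2 N A := by
  classical
  intro r a ha
  -- fractions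
  have hfrac : ∀ i, ∃ P Q : MvPolynomial (Dv N) Kb,
      ((a i : FF N) : LaurentSeries Kb) = q2Ev N P / q2Ev N Q := by
    intro i
    have hu' : ((a i : FF N) : LaurentSeries Kb) ∈
        IntermediateField.adjoin Kb (Set.range (jBfam N)) := by
      rw [← br_modularFunctionFieldBar_eq_adjoin]; exact (a i).2
    exact (IntermediateField.mem_adjoin_range_iff Kb _ _).1 hu'
  choose P Q hPQ using hfrac
  have ha0 : ∀ i, ((a i : FF N) : LaurentSeries Kb) ≠ 0 := fun i h =>
    ha.ne_zero i (Subtype.ext h)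
  have hQ0 : ∀ i, q2Ev N (Q i) ≠ 0 := by
    intro i h
    apply ha0 i
    rw [hPQ i, h, div_zero]
  -- common denominator
  set D : LaurentSeries Kb := q2Ev N (∏ i, Q i) with hD
  have hDprod : D = ∏ i, q2Ev N (Q i) := map_prod _ _ _
  have hD0 : D ≠ 0 := by
    rw [hDprod]
    exact Finset.prod_ne_zero_iff.2 fun i _ => hQ0 i
  set P' : Fin r → MvPolynomial (Dv N) Kb :=
    fun i => P i * ∏ j ∈ Finset.univ.erase i, Q j with hP'
  have haD : ∀ i, ((a i : FF N) : LaurentSeries Kb) * D = q2Ev N (P' i) := by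
    intro i
    rw [hP', map_mul, map_prod, hDprod,
      ← Finset.mul_prod_erase Finset.univ _ (Finset.mem_univ i), hPQ i, ← mul_assoc,
      div_mul_cancel₀ _ (hQ0 i)]
  set a'' : Fin r → LaurentSeries Kb := fun i => q2Ev N (P' i) with ha''
  have hsum : ∀ g : Fin r → Kb, ∑ i, g i • a'' i =
      ((∑ i, g i • a i : FF N) : LaurentSeries Kb) * D := by
    intro g
    rw [q2_coe_sum, Finset.sum_mul]
    refine Finset.sum_congr rfl fun i _ => ?_
    show g i • q2Ev N (P' i) = _
    rw [q2_coe_smul, ← haD i, ← HahnSeries.C_mul_eq_smul, ← HahnSeries.C_mul_eq_smul, mul_assoc]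
  have ha''li : LinearIndependent Kb a'' := by
    rw [Fintype.linearIndependent_iff]
    intro g hg
    rw [hsum g] at hg
    have h1 : ((∑ i, g i • a i : FF N) : LaurentSeries Kb) = 0 := by
      rcases mul_eq_zero.1 hg with h | h
      · exact h
      · exact absurd h hD0
    exact (Fintype.linearIndependent_iff.1 ha) g (Subtype.ext h1)
  -- elimination
  obtain ⟨b'', n, hb''span, hb''A, hb''δ⟩ := q2_elim A.toSubring q2Coeff (q2Range N)
    (q2_attained N A) r a'' ha''li (fun i => ⟨P' i, rfl⟩)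
  -- the denominator is a constant times a primitive series
  obtain ⟨sD, yD, hsD, hyDm, hyDprim, hDy⟩ := prim_exists_primitive N A (∏ i, Q i) hD0
  have hc : ∀ i, ∃ c : Fin r → Kb, ∑ j, c j • a'' j = b'' i := fun i =>
    (Submodule.mem_span_range_iff_exists_fun Kb).1 (hb''span i)
  choose c hc using hc
  set b : Fin r → FF N := fun i => sD • ∑ j, c i j • a j with hb
  have hby : ∀ i, ((b i : FF N) : LaurentSeries Kb) * yD = b'' i := by
    intro i
    have hDy' : D = HahnSeries.C sD * yD := hDy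
    rw [← hc i, hsum (c i), hDy']
    show ((sD • ∑ j, c i j • a j : FF N) : LaurentSeries Kb) * yD = _
    rw [q2_coe_smul, ← HahnSeries.C_mul_eq_smul]
    ring
  have hb''I : ∀ i, KronInt A (b'' i) := fun i m => hb''A i m
  choose Y₁ hY₁ using fun i => (hb''I i).exists_lift
  obtain ⟨Y₂, hY₂⟩ := hyDprim.1.exists_lift
  have hY₂0 : kronRed A Y₂ ≠ 0 := by
    rw [← kronPrim_kronIncl_iff, hY₂]
    exact hyDprim
  refine ⟨b, fun i => kronRed A (Y₁ i) * (kronRed A Y₂)⁻¹, ?_, ?_, ?_⟩
  · intro i
    exact Submodule.smul_mem _ _ (Submodule.sum_mem _ fun j _ =>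
      Submodule.smul_mem _ _ (Submodule.subset_span ⟨j, rfl⟩))
  · intro i
    refine ⟨Y₁ i, Y₂, ?_, ?_, hY₂0, ?_, ?_⟩
    · rw [hY₁ i, ← hby i]
      exact mul_mem (b i).2 hyDm
    · rw [hY₂]
      exact hyDm
    · rw [hY₁ i, hY₂, hby i]
    · rw [inv_mul_cancel_right₀ hY₂0]
  · rw [Fintype.linearIndependent_iff]
    intro g hg
    have h1 : ∑ i, g i • kronRed A (Y₁ i) = 0 := by
      have h2 := congrArg (fun x => x * kronRed A Y₂) hg
      simp only [Finset.sum_mul, zero_mul] at h2
      rw [← h2]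
      refine Finset.sum_congr rfl fun i _ => ?_
      rw [← HahnSeries.C_mul_eq_smul, ← HahnSeries.C_mul_eq_smul, mul_assoc,
        inv_mul_cancel_right₀ hY₂0]
    intro j
    have h3 := congrArg (fun x : LaurentSeries (kA A) => x.coeff (n j)) h1
    simp only [HahnSeries.coeff_sum, HahnSeries.coeff_smul, coeffMap_coeff,
      HahnSeries.coeff_zero] at h3
    have h4 : ∀ i, IsLocalRing.residue A ((Y₁ i).coeff (n j)) = if i = j then 1 else 0 := by
      intro i
      have h5 : (((Y₁ i).coeff (n j) : A) : Kb) = if i = j then 1 else 0 := by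
        have := congrArg (fun x : LaurentSeries Kb => x.coeff (n j)) (hY₁ i)
        simp only [coeffMap_coeff] at this
        rw [← hb''δ i j, q2Coeff_apply, ← this]
        rfl
      have h6 : ((Y₁ i).coeff (n j) : A) = if i = j then 1 else 0 := by
        apply Subtype.ext
        rw [h5]
        split_ifs <;> rfl
      rw [h6]
      split_ifs <;> simp
    simp only [h4] at h3
    simpa using h3

/-- **(Q2)** in the form of the plan. -/
theorem stmtQ2All : StmtQ2All := fun N _ _ _ _ A _ => stmtQ2 N A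

end Fermat.Agent.ES.M
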