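import Fermat.Agent.ES.M.Plan
import Fermat.Agent.S28.RedDVR
import Fermat.Agent.S28.KeyDataJ
import Fermat.Agent.S28.PrimeHypMain
import Fermat.Agent.ES.G2.HeckeDeg

/-!
# ES / M, input (RedF): the reduction of an `A`-integral element of `F_N` lies in `F_k`

`A ⊂ ℚ̄` a valuation ring over a prime `ℓ ∤ N`, `k` its residue field.  If `Y ∈ A((q))` has image in
`F_N = ℚ̄(j(q^d) : d ∣ N)`, then its reduction `Ȳ ∈ k((q))` lies in `F_k = k(j̄(q^d) : d ∣ N)`.

Proof.  By Igusa's degree theorem (`Fermat.Agent.S28.exists_monomials_full`,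
`relfinrank_full_eq_dedekindPsi`) there are `ψ(N)` monomials `x i` in the `j(q^d)` whose reductions
are linearly independent over `k(j̄)`.  By Gauss normalisation over the valuation ring `A`
(`redF_exists_primitive`) they are linearly independent over `ℚ̄(j)` (`redF_indep`), hence a basis of
`F_N` over `ℚ̄(j)`.  Write `D(j) Y = ∑ P i (j) x i` with `D, P i ∈ A[X]` not all `≡ 0`; reducing,
`D̄ ≠ 0` (independence mod `𝔪`) and `Ȳ = ∑ (P̄ i (j̄) / D̄(j̄)) x̄ i ∈ F_k` (`redF_core`).

* `redF_exists_primitive` : Gauss normalisation of a finite family of polynomials over `A`.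
* `redF_integral_relation`, `redF_indep` : RED over a valuation ring (no noetherian hypothesis).
* `redF_core` : the abstract statement.
* `stmtRedF`, `stmtRedFAll` : the inputs `StmtRedF N A`, `StmtRedFAll` of `ES/M/Plan.lean`.
-/

set_option autoImplicit false

noncomputable section

namespace Fermat.Agent.ES.M

open ModularCurve Polynomial IntermediateField Fermat.Agent.S28 Fermat.Agent.S24

section Abstract

variable {K : Type*} [Field K] (A : ValuationSubring K) {ι : Type*} [Fintype ι]

/-- **Gauss normalisation** over a valuation ring: a finite family of polynomials, not all zero,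
is a nonzero constant times a family which is not `≡ 0` modulo the maximal ideal. -/
theorem redF_exists_primitive (P : ι → Polynomial A) (hP : ∃ i, P i ≠ 0) :
    ∃ (a : A) (P' : ι → Polynomial A), a ≠ 0 ∧ (∀ i, P i = C a * P' i) ∧
      ∃ i, (P' i).map (IsLocalRing.residue A) ≠ 0 := by
  classical
  let s : Finset (Σ _ : ι, ℕ) := Finset.univ.sigma (fun i => (P i).support)
  have hs : s.Nonempty := by
    obtain ⟨i, hi⟩ := hP
    obtain ⟨n, hn⟩ := Polynomial.nonempty_support_iff.mpr hi
    exact ⟨⟨i, n⟩, Finset.mem_sigma.mpr ⟨Finset.mem_univ _, hn⟩⟩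
  obtain ⟨⟨i₀, n₀⟩, hmem, hmax⟩ := Finset.exists_max_image s
    (fun p => A.valuation (((P p.1).coeff p.2 : A) : K)) hs
  set a : A := (P i₀).coeff n₀ with ha_def
  have ha : a ≠ 0 := Polynomial.mem_support_iff.mp (Finset.mem_sigma.mp hmem).2
  have haK : (a : K) ≠ 0 := fun h => ha (Subtype.ext h)
  have hva : 0 < A.valuation (a : K) := zero_lt_iff.mpr ((Valuation.ne_zero_iff _).mpr haK)
  have hdvd : ∀ i n, a ∣ (P i).coeff n := by
    intro i n
    by_cases h0 : (P i).coeff n = 0
    · rw [h0]; exact dvd_zero a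
    · have hle : A.valuation (((P i).coeff n : A) : K) ≤ A.valuation (a : K) :=
        hmax ⟨i, n⟩ (Finset.mem_sigma.mpr
          ⟨Finset.mem_univ _, Polynomial.mem_support_iff.mpr h0⟩)
      have hval : A.valuation ((((P i).coeff n : A) : K) * (a : K)⁻¹) ≤ 1 := by
        rw [map_mul, map_inv₀]
        exact mul_inv_le_one_of_le₀ hle hva.le
      have hmemA := (A.valuation_le_one_iff _).mp hval
      refine ⟨⟨_, hmemA⟩, Subtype.ext ?_⟩
      show (((P i).coeff n : A) : K) = (a : K) * ((((P i).coeff n : A) : K) * (a : K)⁻¹)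
      field_simp
  have hC : ∀ i, C a ∣ P i := fun i => (Polynomial.C_dvd_iff_dvd_coeff _ _).mpr (hdvd i)
  choose P' hP' using hC
  refine ⟨a, P', ha, hP', i₀, ?_⟩
  intro h
  have h1 := congrArg (fun q => q.coeff n₀) h
  simp only [Polynomial.coeff_map, Polynomial.coeff_zero] at h1
  have h2 : a * (P' i₀).coeff n₀ = a := by
    have := congrArg (fun q => q.coeff n₀) (hP' i₀)
    simp only [Polynomial.coeff_C_mul] at this
    exact this.symm
  have h3 : (P' i₀).coeff n₀ = 1 := by
    have : a * (P' i₀).coeff n₀ = a * 1 := by rw [h2, mul_one]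
    exact mul_left_cancel₀ ha this
  rw [h3, map_one] at h1
  exact one_ne_zero h1

variable {A}

/-- **RED over a valuation ring**, integral form: if the reductions of the `x i ∈ A((q))` are
linearly independent over `k(t̄)` and `t̄` is transcendental over `k`, there is no nontrivial
relation `∑ P i (t) x i = 0` with `P i ∈ A[X]`. -/
theorem redF_integral_relation (x : ι → LaurentSeries A) (t : LaurentSeries A)
    (ht : Transcendental (IsLocalRing.ResidueField A) (coeffMap (IsLocalRing.residue A) t))
    (hind : ∀ c : ι → LaurentSeries (IsLocalRing.ResidueField A),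
      (∀ i, c i ∈ adjoin (IsLocalRing.ResidueField A) {coeffMap (IsLocalRing.residue A) t}) →
      ∑ i, c i * coeffMap (IsLocalRing.residue A) (x i) = 0 → ∀ i, c i = 0)
    (P : ι → Polynomial A) (hP : ∑ i, aeval t (P i) * x i = 0) : ∀ i, P i = 0 := by
  by_contra hne
  rw [not_forall] at hne
  obtain ⟨a, P', ha, hPP', i₀, hi₀⟩ := redF_exists_primitive A P hne
  have hrel : ∑ i, aeval t (P' i) * x i = 0 := by
    apply redDVR_eq_zero_of_mul ha
    rw [← hP, Finset.mul_sum]
    refine Finset.sum_congr rfl fun i _ => ?_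
    rw [hPP' i, map_mul, aeval_C, mul_assoc]
  have h1 := congrArg (coeffMap (IsLocalRing.residue A)) hrel
  rw [map_sum, map_zero] at h1
  simp_rw [map_mul, redDVR_coeffMap_aeval] at h1
  have h2 := hind (fun i => aeval (coeffMap (IsLocalRing.residue A) t)
    ((P' i).map (IsLocalRing.residue A)))
    (fun i => IntermediateField.algebra_adjoin_le_adjoin _ _
      (Polynomial.aeval_mem_adjoin_singleton _ _)) h1
  exact hi₀ (transcendental_iff.mp ht _ (h2 i₀))

/-- **RED over a valuation ring**, membership form: independence over `K(t)`. -/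
theorem redF_indep (x : ι → LaurentSeries A) (t : LaurentSeries A)
    (ht : Transcendental (IsLocalRing.ResidueField A) (coeffMap (IsLocalRing.residue A) t))
    (hind : ∀ c : ι → LaurentSeries (IsLocalRing.ResidueField A),
      (∀ i, c i ∈ adjoin (IsLocalRing.ResidueField A) {coeffMap (IsLocalRing.residue A) t}) →
      ∑ i, c i * coeffMap (IsLocalRing.residue A) (x i) = 0 → ∀ i, c i = 0) :
    ∀ c : ι → LaurentSeries K,
      (∀ i, c i ∈ adjoin K {coeffMap (algebraMap A K) t}) →
      ∑ i, c i * coeffMap (algebraMap A K) (x i) = 0 → ∀ i, c i = 0 := by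
  intro c hc hrel
  obtain ⟨D, hD, hDP⟩ := redDVR_exists_common_denominator (A := A)
    (coeffMap (algebraMap A K) t) c hc Finset.univ
  choose P hP using fun i => hDP i (Finset.mem_univ i)
  have h1 : ∑ i, aeval t (P i) * x i = 0 := by
    apply redDVR_coeffMap_injective (algebraMap A K) (IsFractionRing.injective A K)
    rw [map_sum, map_zero]
    simp_rw [map_mul, redDVR_coeffMap_aeval, ← hP]
    have : ∑ i, c i * aeval (coeffMap (algebraMap A K) t) (D.map (algebraMap A K)) *
        coeffMap (algebraMap A K) (x i) =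
        aeval (coeffMap (algebraMap A K) t) (D.map (algebraMap A K)) *
          ∑ i, c i * coeffMap (algebraMap A K) (x i) := by
      rw [Finset.mul_sum]
      exact Finset.sum_congr rfl fun i _ => by ring
    rw [this, hrel, mul_zero]
  have h2 := redF_integral_relation x t ht hind P h1
  intro i
  have h3 := hP i
  rw [h2 i, Polynomial.map_zero, map_zero] at h3
  exact (mul_eq_zero.mp h3).resolve_right hD

/-- **(RedF), abstract core**: if the image of `Y ∈ A((q))` in `K((q))` is a `K(t)`-combination of
the `x i`, its reduction is a `k(t̄)`-combination of the reductions of the `x i`. -/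
theorem redF_core (x : ι → LaurentSeries A) (t : LaurentSeries A)
    (ht : Transcendental (IsLocalRing.ResidueField A) (coeffMap (IsLocalRing.residue A) t))
    (hind : ∀ c : ι → LaurentSeries (IsLocalRing.ResidueField A),
      (∀ i, c i ∈ adjoin (IsLocalRing.ResidueField A) {coeffMap (IsLocalRing.residue A) t}) →
      ∑ i, c i * coeffMap (IsLocalRing.residue A) (x i) = 0 → ∀ i, c i = 0)
    (Y : LaurentSeries A) (c : ι → LaurentSeries K)
    (hc : ∀ i, c i ∈ adjoin K {coeffMap (algebraMap A K) t})
    (hY : coeffMap (algebraMap A K) Y = ∑ i, c i * coeffMap (algebraMap A K) (x i)) :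
    ∃ c' : ι → LaurentSeries (IsLocalRing.ResidueField A),
      (∀ i, c' i ∈ adjoin (IsLocalRing.ResidueField A) {coeffMap (IsLocalRing.residue A) t}) ∧
      coeffMap (IsLocalRing.residue A) Y = ∑ i, c' i * coeffMap (IsLocalRing.residue A) (x i) := by
  classical
  obtain ⟨D, hD, hDP⟩ := redDVR_exists_common_denominator (A := A)
    (coeffMap (algebraMap A K) t) c hc Finset.univ
  choose P hP using fun i => hDP i (Finset.mem_univ i)
  have hD0 : D ≠ 0 := by
    rintro rfl
    rw [Polynomial.map_zero, map_zero] at hD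
    exact hD rfl
  -- the relation over `A`
  have h1 : aeval t D * Y = ∑ i, aeval t (P i) * x i := by
    apply redDVR_coeffMap_injective (algebraMap A K) (IsFractionRing.injective A K)
    rw [map_mul, map_sum, hY, Finset.mul_sum]
    simp_rw [map_mul, redDVR_coeffMap_aeval, ← hP]
    exact Finset.sum_congr rfl fun i _ => by ring
  -- joint normalisation of `D` and the `P i`
  let Q : Option ι → Polynomial A := fun o => o.elim D P
  obtain ⟨a, Q', ha, hQQ', o₀, ho₀⟩ := redF_exists_primitive A Q ⟨none, hD0⟩
  have hDa : D = C a * Q' none := hQQ' none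
  have hPa : ∀ i, P i = C a * Q' (some i) := fun i => hQQ' (some i)
  have h2 : aeval t (Q' none) * Y = ∑ i, aeval t (Q' (some i)) * x i := by
    have h3 : algebraMap A (LaurentSeries A) a *
        (aeval t (Q' none) * Y - ∑ i, aeval t (Q' (some i)) * x i) = 0 := by
      rw [mul_sub, Finset.mul_sum, sub_eq_zero]
      have e1 : algebraMap A (LaurentSeries A) a * (aeval t (Q' none) * Y) = aeval t D * Y := by
        rw [hDa, map_mul, aeval_C, mul_assoc]
      have e2 : ∀ i, algebraMap A (LaurentSeries A) a * (aeval t (Q' (some i)) * x i)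
          = aeval t (P i) * x i := fun i => by
        rw [hPa i, map_mul, aeval_C, mul_assoc]
      rw [e1, h1]
      exact Finset.sum_congr rfl fun i _ => (e2 i).symm
    exact sub_eq_zero.mp (redDVR_eq_zero_of_mul ha h3)
  -- reduce
  have h4 := congrArg (coeffMap (IsLocalRing.residue A)) h2
  rw [map_mul, map_sum] at h4
  simp_rw [map_mul, redDVR_coeffMap_aeval] at h4
  set r := IsLocalRing.residue A with hr
  have hmemc : ∀ Q₀ : Polynomial A,
      aeval (coeffMap r t) (Q₀.map r) ∈ adjoin (IsLocalRing.ResidueField A) {coeffMap r t} :=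
    fun Q₀ => IntermediateField.algebra_adjoin_le_adjoin _ _
      (Polynomial.aeval_mem_adjoin_singleton _ _)
  by_cases hD' : (Q' none).map r = 0
  · exfalso
    rw [hD', map_zero, zero_mul] at h4
    have h5 := hind (fun i => aeval (coeffMap r t) ((Q' (some i)).map r))
      (fun i => hmemc _) h4.symm
    cases o₀ with
    | none => exact ho₀ hD'
    | some i => exact ho₀ (transcendental_iff.mp ht _ (h5 i))
  · have hne : aeval (coeffMap r t) ((Q' none).map r) ≠ 0 :=
      fun h => hD' (transcendental_iff.mp ht _ h)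
    refine ⟨fun i => aeval (coeffMap r t) ((Q' (some i)).map r) *
      (aeval (coeffMap r t) ((Q' none).map r))⁻¹,
      fun i => mul_mem (hmemc _) (inv_mem (hmemc _)), ?_⟩
    have h6 : coeffMap r Y = (aeval (coeffMap r t) ((Q' none).map r))⁻¹ *
        (aeval (coeffMap r t) ((Q' none).map r) * coeffMap r Y) := by
      rw [← mul_assoc, inv_mul_cancel₀ hne, one_mul]
    rw [h6, h4, Finset.mul_sum]
    exact Finset.sum_congr rfl fun i _ => by ring

end Abstract

section Concrete

variable (N : ℕ) [NeZero N] (A : ValuationSubring Kb)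

omit [NeZero N] in
/-- Monomials in the `j(q^d)`, `d ∣ N`, lie in `k(j(q^d) : d ∣ N)`. -/
theorem redF_mem_full (k : Type*) [Field k] {x : LaurentSeries ℤ}
    (hx : x ∈ Submonoid.closure (gensZ N)) :
    coeffMap (Int.castRingHom k) x ∈ modularFunctionFieldFullC k N := by
  induction hx using Submonoid.closure_induction with
  | mem z hz =>
    have h1 : coeffMap (Int.castRingHom k) z ∈ divisorExpansionsC k N := by
      rw [← coeffMap_image_gensZ]
      exact ⟨z, hz, rfl⟩
    exact IntermediateField.subset_adjoin k _ h1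
  | one =>
    rw [map_one]
    exact one_mem _
  | mul a b _ _ ha hb =>
    rw [map_mul]
    exact mul_mem ha hb

omit [NeZero N] in
/-- `N ≠ 0` in the residue field of a valuation ring over `ℓ ∤ N`. -/
theorem redF_natCast_ne_zero (ℓ : ℕ) (hℓ : ℓ.Prime) (hℓN : ¬ ℓ ∣ N) (hA : A.LiesOverPrime ℓ) :
    ((N : ℕ) : kA A) ≠ 0 := by
  have hℓk : ((ℓ : ℕ) : kA A) = 0 := by
    have h1 : ((ℓ : ℕ) : Kb) ∈ A.nonunits := hA
    obtain ⟨hmem, hmax⟩ := (ValuationSubring.mem_nonunits_iff_exists_mem_maximalIdeal).mp h1
    have h2 : IsLocalRing.residue A ⟨((ℓ : ℕ) : Kb), hmem⟩ = 0 :=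
      (IsLocalRing.residue_eq_zero_iff _).mpr hmax
    have h3 : (⟨((ℓ : ℕ) : Kb), hmem⟩ : A) = ((ℓ : ℕ) : A) := Subtype.ext (by simp)
    rw [h3, map_natCast] at h2
    exact h2
  intro hNk
  have hcop : Nat.Coprime N ℓ := (Nat.Coprime.symm ((Nat.Prime.coprime_iff_not_dvd hℓ).mpr hℓN))
  obtain ⟨a, b, hab⟩ := (Nat.isCoprime_iff_coprime.mpr hcop)
  have h4 := congrArg (Int.cast : ℤ → kA A) hab
  push_cast at h4
  rw [hNk, hℓk, mul_zero, mul_zero, add_zero] at h4
  exact zero_ne_one h4

/-- **(RedF)**: the reduction of an `A`-integral element of `F_N` lies in `F_k`. -/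
theorem stmtRedF (ℓ : ℕ) (hℓ : ℓ.Prime) (hℓN : ¬ ℓ ∣ N) (hA : A.LiesOverPrime ℓ) :
    StmtRedF N A := by
  intro Y hY
  have hNk := redF_natCast_ne_zero N A ℓ hℓ hℓN hA
  obtain ⟨x, hx, hli⟩ := exists_monomials_full (k := kA A) N (primeHyp_of_dvd (kA A) N hNk)
  set X : Fin (dedekindPsi N) → LaurentSeries A := fun i => coeffMap (Int.castRingHom A) (x i)
    with hX
  set t : LaurentSeries A := jqModC A with htdef
  have htk : coeffMap (IsLocalRing.residue A) t = jqModC (kA A) := coeffMap_jqModC _
  have htK : coeffMap (algebraMap A Kb) t = jqModC Kb := coeffMap_jqModC _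
  have hXk : ∀ i, coeffMap (IsLocalRing.residue A) (X i) =
      coeffMap (Int.castRingHom (kA A)) (x i) := fun i => by
    rw [hX, coeffMap_coeffMap]
    exact coeffMap_congr (RingHom.ext_int _ _) _
  have hXK : ∀ i, coeffMap (algebraMap A Kb) (X i) = coeffMap (Int.castRingHom Kb) (x i) :=
    fun i => by
      rw [hX, coeffMap_coeffMap]
      exact coeffMap_congr (RingHom.ext_int _ _) _
  have ht : Transcendental (IsLocalRing.ResidueField A) (coeffMap (IsLocalRing.residue A) t) := by
    rw [htk]
    exact red_transcendental_jqModC _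
  have hind : ∀ c : Fin (dedekindPsi N) → LaurentSeries (IsLocalRing.ResidueField A),
      (∀ i, c i ∈ adjoin (IsLocalRing.ResidueField A) {coeffMap (IsLocalRing.residue A) t}) →
      ∑ i, c i * coeffMap (IsLocalRing.residue A) (X i) = 0 → ∀ i, c i = 0 := by
    intro c hc hsum
    rw [htk] at hc
    simp_rw [hXk] at hsum
    have h0 := Fintype.linearIndependent_iff.mp hli (fun i => ⟨c i, hc i⟩) (by
      rw [← hsum]
      exact Finset.sum_congr rfl fun i _ => rfl)
    intro i
    exact congrArg Subtype.val (h0 i)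
  have hindK := redF_indep X t ht hind
  have hliK : LinearIndependent (adjoin Kb {jqModC Kb})
      (fun i => coeffMap (Int.castRingHom Kb) (x i)) := by
    rw [Fintype.linearIndependent_iff]
    intro g hg i
    have h1 := hindK (fun i => (g i : LaurentSeries Kb)) (fun i => by rw [htK]; exact (g i).2)
      (by
        simp_rw [hXK]
        rw [← hg]
        exact Finset.sum_congr rfl fun i _ => rfl) i
    exact Subtype.ext h1
  have hfin := UB.finrank_full_le Kb (NeZero.ne N)
    (fun r hr _ => @ub_modEq Kb _ r ⟨hr.ne_zero⟩ hr)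
  have hm : ∀ i, coeffMap (Int.castRingHom Kb) (x i) ∈ modularFunctionFieldFullC Kb N :=
    fun i => redF_mem_full N Kb (hx i)
  have hYF : kronIncl A Y ∈ modularFunctionFieldFullC Kb N := by
    rw [← G2.hdeg_laurentBaseChange_full]
    exact hY
  obtain ⟨c, hc, hfc⟩ := exists_coeffs_of_linearIndependent (UB.K0 Kb)
    (modularFunctionFieldFullC Kb N) (UB.K0_le_full Kb N) hfin.1 hfin.2
    (fun i => coeffMap (Int.castRingHom Kb) (x i)) hm hliK _ hYF
  obtain ⟨c', hc', hYc'⟩ := redF_core X t ht hind Y c (by rw [htK]; exact hc)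
    (by simp_rw [hXK]; exact hfc)
  show coeffMap (IsLocalRing.residue A) Y ∈ modularFunctionFieldFullC (kA A) N
  rw [hYc']
  refine sum_mem fun i _ => mul_mem ?_ ?_
  · have := hc' i
    rw [htk] at this
    exact UB.K0_le_full (kA A) N this
  · rw [hXk]
    exact redF_mem_full N (kA A) (hx i)

/-- **(RedF)** for all good `(N, ℓ, A)`. -/
theorem stmtRedFAll : StmtRedFAll := by
  intro N _ ℓ hℓ hℓN A hA
  exact stmtRedF N A ℓ hℓ hℓN hA

end Concrete

end Fermat.Agent.ES.M
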