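import Fermat.Agent.ES.M.GluePlan

/-!
# ES / M, glue piece GR: the calculus of the Gauss reduction in fraction form

`stmtGRApi : StmtGRApi`.  Everything is obtained by unfolding `GaussRed`
(`x = Y₁ / Y₂`, `w = Ȳ₁ / Ȳ₂`) and using that `kronIncl` is injective and `k((q))` is a field.
-/

set_option autoImplicit false

noncomputable section

namespace Fermat.Agent.ES.M

open ModularCurve AlgebraicCurve HahnSeries Fermat.Agent.ES Fermat.Agent.S24

variable (N : ℕ) [NeZero N] (A : ValuationSubring Kb)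

omit [NeZero N] in
theorem gr_unique (x : FF N) (w w' : LaurentSeries (kA A))
    (h : GaussRed N A x w) (h' : GaussRed N A x w') : w = w' := by
  obtain ⟨Y₁, Y₂, -, -, hY₂, hx, hw⟩ := h
  obtain ⟨Z₁, Z₂, -, -, hZ₂, hx', hw'⟩ := h'
  have h1 : Y₁ * Z₂ = Z₁ * Y₂ := by
    apply kronIncl_injective (A := A)
    rw [map_mul, map_mul, ← hx, ← hx']
    ring
  have h2 : kronRed A Y₁ * kronRed A Z₂ = kronRed A Z₁ * kronRed A Y₂ := by
    rw [← map_mul, ← map_mul, h1]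
  rw [← hw, ← hw'] at h2
  have h3 : w * (kronRed A Y₂ * kronRed A Z₂) = w' * (kronRed A Y₂ * kronRed A Z₂) := by
    linear_combination h2
  exact mul_right_cancel₀ (mul_ne_zero hY₂ hZ₂) h3

omit [NeZero N] in
theorem gr_one : GaussRed N A 1 1 := by
  refine ⟨1, 1, ?_, ?_, ?_, ?_, ?_⟩
  · rw [map_one]; exact one_mem _
  · rw [map_one]; exact one_mem _
  · rw [map_one]; exact one_ne_zero
  · rw [map_one, mul_one]; rfl
  · rw [map_one, mul_one]

omit [NeZero N] in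
theorem gr_mul (x y : FF N) (w v : LaurentSeries (kA A))
    (h : GaussRed N A x w) (h' : GaussRed N A y v) : GaussRed N A (x * y) (w * v) := by
  obtain ⟨Y₁, Y₂, hY₁m, hY₂m, hY₂, hx, hw⟩ := h
  obtain ⟨Z₁, Z₂, hZ₁m, hZ₂m, hZ₂, hy, hv⟩ := h'
  refine ⟨Y₁ * Z₁, Y₂ * Z₂, ?_, ?_, ?_, ?_, ?_⟩
  · rw [map_mul]; exact mul_mem hY₁m hZ₁m
  · rw [map_mul]; exact mul_mem hY₂m hZ₂m
  · rw [map_mul]; exact mul_ne_zero hY₂ hZ₂
  · rw [map_mul, map_mul, ← hx, ← hy]
    show (x : LaurentSeries Kb) * (y : LaurentSeries Kb) * _ = _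
    ring
  · rw [map_mul, map_mul, ← hw, ← hv]
    ring

omit [NeZero N] in
theorem gr_pow (x : FF N) (w : LaurentSeries (kA A)) (n : ℕ)
    (h : GaussRed N A x w) : GaussRed N A (x ^ n) (w ^ n) := by
  induction n with
  | zero => simpa using gr_one N A
  | succ n ih =>
    rw [pow_succ, pow_succ]
    exact gr_mul N A _ _ _ _ ih h

omit [NeZero N] in
theorem gr_add (x y : FF N) (w v : LaurentSeries (kA A))
    (h : GaussRed N A x w) (h' : GaussRed N A y v) : GaussRed N A (x + y) (w + v) := by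
  obtain ⟨Y₁, Y₂, hY₁m, hY₂m, hY₂, hx, hw⟩ := h
  obtain ⟨Z₁, Z₂, hZ₁m, hZ₂m, hZ₂, hy, hv⟩ := h'
  refine ⟨Y₁ * Z₂ + Z₁ * Y₂, Y₂ * Z₂, ?_, ?_, ?_, ?_, ?_⟩
  · rw [map_add, map_mul, map_mul]
    exact add_mem (mul_mem hY₁m hZ₂m) (mul_mem hZ₁m hY₂m)
  · rw [map_mul]; exact mul_mem hY₂m hZ₂m
  · rw [map_mul]; exact mul_ne_zero hY₂ hZ₂
  · rw [map_add, map_mul, map_mul, map_mul, ← hx, ← hy]
    show ((x : LaurentSeries Kb) + (y : LaurentSeries Kb)) * _ = _
    ring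
  · rw [map_add, map_mul, map_mul, map_mul, ← hw, ← hv]
    ring

omit [NeZero N] in
theorem gr_smul (c : A) (x : FF N) (w : LaurentSeries (kA A)) (h : GaussRed N A x w) :
    GaussRed N A (algebraMap Kb (FF N) (c : Kb) * x)
      (HahnSeries.C (IsLocalRing.residue A c) * w) := by
  obtain ⟨Y₁, Y₂, hY₁m, hY₂m, hY₂, hx, hw⟩ := h
  have hC : kronIncl A (HahnSeries.C c) = (HahnSeries.C (c : Kb) : LaurentSeries Kb) :=
    coeffMap_single A.subtype 0 c
  have hCr : kronRed A (HahnSeries.C c) =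
      (HahnSeries.C (IsLocalRing.residue A c) : LaurentSeries (kA A)) :=
    coeffMap_single (IsLocalRing.residue A) 0 c
  have hCm : (HahnSeries.C (c : Kb) : LaurentSeries Kb) ∈ modularFunctionFieldBar N := by
    rw [← algebraMap_eq_hahnC]
    exact IntermediateField.algebraMap_mem _ _
  refine ⟨HahnSeries.C c * Y₁, Y₂, ?_, hY₂m, hY₂, ?_, ?_⟩
  · rw [map_mul, hC]
    exact mul_mem hCm hY₁m
  · rw [map_mul, hC, ← hx]
    show algebraMap Kb (LaurentSeries Kb) (c : Kb) * (x : LaurentSeries Kb) * _ = _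
    rw [algebraMap_eq_hahnC]
    ring
  · rw [map_mul, hCr, ← hw]
    ring

omit [NeZero N] in
theorem gr_of_incl (Y : LaurentSeries A) (hY : kronIncl A Y ∈ modularFunctionFieldBar N) :
    GaussRed N A ⟨kronIncl A Y, hY⟩ (kronRed A Y) := by
  refine ⟨Y, 1, hY, ?_, ?_, ?_, ?_⟩
  · rw [map_one]; exact one_mem _
  · rw [map_one]; exact one_ne_zero
  · rw [map_one, mul_one]
  · rw [map_one, mul_one]

theorem gr_reducesToOne_iff (x : FF N) : G2.ReducesToOne A N x ↔ GaussRed N A x 1 := by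
  constructor
  · rintro ⟨y₁, y₂, hy₁m, hy₂m, hy₁, hy₂, hcong, hx⟩
    obtain ⟨Y₁, rfl⟩ := hy₁.1.exists_lift
    obtain ⟨Y₂, rfl⟩ := hy₂.1.exists_lift
    refine ⟨Y₁, Y₂, hy₁m, hy₂m, (kronPrim_kronIncl_iff Y₂).1 hy₂, hx, ?_⟩
    rw [one_mul]
    exact ((kronCongr_kronIncl_iff Y₁ Y₂).1 hcong).symm
  · rintro ⟨Y₁, Y₂, hY₁m, hY₂m, hY₂, hx, hw⟩
    rw [one_mul] at hw
    refine ⟨kronIncl A Y₁, kronIncl A Y₂, hY₁m, hY₂m, ?_, ?_, ?_, hx⟩
    · rw [kronPrim_kronIncl_iff, ← hw]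
      exact hY₂
    · rw [kronPrim_kronIncl_iff]
      exact hY₂
    · rw [kronCongr_kronIncl_iff]
      exact hw.symm

omit [NeZero N] in
theorem gr_mem_fullC (hRed : StmtRedF N A) (x : FF N) (w : LaurentSeries (kA A))
    (h : GaussRed N A x w) : w ∈ modularFunctionFieldFullC (kA A) N := by
  obtain ⟨Y₁, Y₂, hY₁m, hY₂m, hY₂, -, hw⟩ := h
  have h1 : w = kronRed A Y₁ * (kronRed A Y₂)⁻¹ := by
    rw [← hw, mul_inv_cancel_right₀ hY₂]
  rw [h1]
  exact mul_mem (hRed Y₁ hY₁m) (inv_mem (hRed Y₂ hY₂m))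

omit [NeZero N] in
theorem gr_ne_zero (x : FF N) (w : LaurentSeries (kA A)) (h : GaussRed N A x w) (hw0 : w ≠ 0) :
    x ≠ 0 := by
  obtain ⟨Y₁, Y₂, -, -, hY₂, hx, hw⟩ := h
  rintro rfl
  apply hw0
  have h1 : kronIncl A Y₁ = 0 := by
    rw [← hx]
    show (0 : LaurentSeries Kb) * _ = 0
    rw [zero_mul]
  have h2 : Y₁ = 0 := kronIncl_injective (A := A) (by rw [h1, map_zero])
  rw [h2, map_zero] at hw
  rcases mul_eq_zero.1 hw with h | h
  · exact h
  · exact absurd h hY₂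

/-- the calculus of `GaussRed` -/
theorem grApi : GRApi N A where
  unique := gr_unique N A
  one := gr_one N A
  mul := gr_mul N A
  pow := gr_pow N A
  add := gr_add N A
  smul := gr_smul N A
  of_incl := gr_of_incl N A
  reducesToOne_iff := gr_reducesToOne_iff N A
  mem_fullC := gr_mem_fullC N A
  ne_zero := gr_ne_zero N A

/-- piece GR -/
theorem stmtGRApi : StmtGRApi := fun N _ A => grApi N A

end Fermat.Agent.ES.M
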