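import Fermat.Agent.ES.M.Plan
import Fermat.Agent.S18.CuspPlace
import Fermat.Agent.S24.Transc

/-!
# ES / M: the cusp `∞` of `F_N` exists and is unique

`exists_isCuspInfty N` : there is a place `P` of `F_N / ℚ̄` of degree `1` whose order function is
the `q`-order.  `isCuspInfty_unique` : it is unique.
-/

set_option autoImplicit false

noncomputable section

namespace Fermat.Agent.ES.M

open ModularCurve AlgebraicCurve HahnSeries WithZero Fermat.Agent.S24 Fermat.Agent.S18

/-- the `q`-adic valuation of a nonzero Laurent series is `exp (-order)` -/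
theorem laurent_valued_eq_exp_neg_order {k : Type*} [Field k] {f : LaurentSeries k} (hf : f ≠ 0) :
    (Valued.v f : ℤᵐ⁰) = exp (-f.order) := by
  apply le_antisymm
  · rw [LaurentSeries.valuation_le_iff_coeff_lt_eq_zero]
    intro n hn
    exact HahnSeries.coeff_eq_zero_of_lt_order hn
  · have hv : (Valued.v f : ℤᵐ⁰) ≠ 0 := (Valuation.ne_zero_iff _).mpr hf
    obtain ⟨m, hm⟩ : ∃ m : ℤ, (Valued.v f : ℤᵐ⁰) = exp m := ⟨log _, (exp_log hv).symm⟩
    rw [hm, exp_le_exp]
    by_contra hlt
    push Not at hlt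
    have h1 : (Valued.v f : ℤᵐ⁰) ≤ exp (-(f.order + 1)) := by
      rw [hm, exp_le_exp]; omega
    rw [LaurentSeries.valuation_le_iff_coeff_lt_eq_zero] at h1
    exact hf (HahnSeries.coeff_order_eq_zero.1 (h1 f.order (by omega)))

variable (N : ℕ) [NeZero N]

theorem exists_pole_FF :
    ∃ x : FF N, x ≠ 0 ∧ qVal (modularFunctionFieldBar N) x < 1 := by
  have hj0 : jF N ≠ 0 := by
    intro h
    have := congrArg (fun z : FF N => (z : LaurentSeries Kb)) h
    exact jBar_ne_zero this
  have hjv : ¬ qVal (modularFunctionFieldBar N) (jF N) ≤ 1 := by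
    rw [qVal_le_one_iff]
    intro h
    have h1 := h (-1) (by norm_num)
    rw [coe_jF, jBar_coeff_neg_one] at h1
    exact one_ne_zero h1
  refine ⟨(jF N)⁻¹, inv_ne_zero hj0, ?_⟩
  rw [map_inv₀]
  exact inv_lt_one_of_one_lt₀ (not_le.mp hjv)

omit [NeZero N] in
theorem vord_qVal_eq_order {f : FF N} (hf : f ≠ 0) :
    vord (qVal (modularFunctionFieldBar N)) f = (f : LaurentSeries Kb).order := by
  have hf' : (f : LaurentSeries Kb) ≠ 0 := fun h => hf (Subtype.ext h)
  rw [vord, qVal_apply, laurent_valued_eq_exp_neg_order hf', log_exp, neg_neg]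

theorem order_jBar : (jBar : LaurentSeries Kb).order = -1 := by
  apply le_antisymm
  · exact HahnSeries.order_le_of_coeff_ne_zero (by rw [jBar_coeff_neg_one]; exact one_ne_zero)
  · by_contra hlt
    push Not at hlt
    exact jBar_ne_zero (HahnSeries.coeff_order_eq_zero.1 (jBar_coeff_of_lt hlt))

/-- **The cusp `∞` exists.** -/
theorem exists_isCuspInfty : ∃ P : Place Kb (FF N), IsCuspInfty N P ∧ P.deg = 1 := by
  obtain ⟨w, e₀, he₀, hw, hord⟩ :=
    exists_place_of_valuation (K := Kb) (qVal (modularFunctionFieldBar N))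
      (qVal_algebraMap_le _) (exists_pole_FF N)
  have hj0 : jF N ≠ 0 := by
    intro h
    have := congrArg (fun z : FF N => (z : LaurentSeries Kb)) h
    exact jBar_ne_zero this
  have he : e₀ = 1 := by
    have h1 := hord (jF N) hj0
    rw [vord_qVal_eq_order N hj0, coe_jF, order_jBar] at h1
    have hd : e₀ ∣ 1 := ⟨-w.ord (jF N), by linarith⟩
    exact Int.eq_one_of_dvd_one he₀.le hd
  have hP : IsCuspInfty N w := by
    intro f hf
    have h1 := hord f hf
    rw [vord_qVal_eq_order N hf, he, one_mul] at h1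
    exact h1.symm
  obtain ⟨w', hdeg, hnn, _⟩ := exists_cuspPlace (exists_pole_FF N)
  have hww' : w' = w := by
    apply Place.ext
    rw [hw]
    ext f
    rcases eq_or_ne f 0 with rfl | hf
    · simp
    · rw [← PlaceAux.ord_nonneg_iff w' hf, hnn f hf, Valuation.mem_valuationSubring_iff,
        qVal_le_one_iff]
  rw [hww'] at hdeg
  exact ⟨w, hP, hdeg⟩

variable {N}

omit [NeZero N] in
/-- **The cusp `∞` is unique.** -/
theorem isCuspInfty_unique {P Q : Place Kb (FF N)} (hP : IsCuspInfty N P)
    (hQ : IsCuspInfty N Q) : P = Q := by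
  apply Place.ext
  ext f
  rcases eq_or_ne f 0 with rfl | hf
  · simp
  · rw [← PlaceAux.ord_nonneg_iff P hf, ← PlaceAux.ord_nonneg_iff Q hf, hP f hf, hQ f hf]

omit [NeZero N] in
/-- regularity at the cusp `∞` in terms of coefficients -/
theorem IsCuspInfty.ord_nonneg_iff {P : Place Kb (FF N)} (hP : IsCuspInfty N P) {f : FF N}
    (hf : f ≠ 0) : 0 ≤ P.ord f ↔ ∀ n : ℤ, n < 0 → (f : LaurentSeries Kb).coeff n = 0 := by
  have hf' : (f : LaurentSeries Kb) ≠ 0 := fun h => hf (Subtype.ext h)
  rw [hP f hf]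
  constructor
  · intro h n hn
    exact HahnSeries.coeff_eq_zero_of_lt_order (lt_of_lt_of_le hn h)
  · intro h
    by_contra hlt
    push Not at hlt
    exact hf' (HahnSeries.coeff_order_eq_zero.1 (h _ hlt))

/-- `j` has a simple pole at the cusp `∞` -/
theorem IsCuspInfty.ord_jF {P : Place Kb (FF N)} (hP : IsCuspInfty N P) : P.ord (jF N) = -1 := by
  have hj0 : jF N ≠ 0 := by
    intro h
    have := congrArg (fun z : FF N => (z : LaurentSeries Kb)) h
    exact jBar_ne_zero this
  rw [hP _ hj0, coe_jF, order_jBar]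

/-- regular outside `∞` implies poles only at cusps -/
theorem RegOut.polesAtCusps {x : FF N} (hx : RegOut N x) : PolesAtCusps N x := by
  intro P hP
  refine hx P fun hinf => ?_
  have := hinf.ord_jF
  omega

end Fermat.Agent.ES.M
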