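import Fermat.Agent.ES.M.GluePlan
import Fermat.Agent.ES.M.CuspInfty
import Fermat.Agent.ES.RiemannGeneric
import Fermat.Agent.ES.HModular

/-!
# ES / M — route 2, glue piece LW: divisors `div f / p`, the spaces `L(D + n ∞)` and Lemma W

`stmtLWApi : StmtLWApi` — for every `N`, `A` the calculus `GRApi N A` of the Gauss reduction gives
the API `LWApi N A`:

* `lw_exists_div`   : the divisor `div f / p` (degree `0`);
* `lw_regOut`       : `b ∈ L(div f / p + n ∞)` ⇒ `b ^ p * f` is regular outside `∞` and has pole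
  order `≤ p n` at `∞`;
* `lw_mem_Wn`       : **Lemma W** — if moreover `f ≡ 1`, the reduction of `b` lies in `W_n`;
* `lw_exists_indep` : Riemann's inequality gives `deg D + 1 - g` independent elements of `L(D)`;
* `lw_rr_finite`    : `L(D)` is finite-dimensional.
-/

set_option autoImplicit false

noncomputable section

namespace Fermat.Agent.ES.M

open ModularCurve AlgebraicCurve HahnSeries Fermat.Agent.ES Fermat.Agent.S24

variable (N : ℕ) [NeZero N] (A : ValuationSubring Kb)

/-- the divisor `div f / p` -/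
theorem lw_exists_div (p : ℕ) (hp : 0 < p) (f : FF N) (hf : f ≠ 0)
    (hdiv : ∀ P : Place Kb (FF N), (p : ℤ) ∣ P.ord f) :
    ∃ D : Divisor Kb (FF N), (∀ P : Place Kb (FF N), (p : ℤ) * D P = P.ord f) ∧
      Divisor.degree D = 0 := by
  have := Fermat.Agent.ES.H.hasPrincipalDivisors_FF N
  obtain ⟨D₀, hD₀, hdeg⟩ := HasPrincipalDivisors.exists_divisor (K := Kb) f hf
  have h0 : (fun n : ℤ => n / (p : ℤ)) 0 = 0 := Int.zero_ediv _
  have hval : ∀ P : Place Kb (FF N), (p : ℤ) * (D₀.mapRange (fun n : ℤ => n / (p : ℤ)) h0) P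
      = P.ord f := by
    intro P
    rw [Finsupp.mapRange_apply, hD₀]
    exact Int.mul_ediv_cancel' (hdiv P)
  refine ⟨D₀.mapRange (fun n : ℤ => n / (p : ℤ)) h0, hval, ?_⟩
  have hpD : (p : ℤ) • (D₀.mapRange (fun n : ℤ => n / (p : ℤ)) h0) = D₀ := by
    ext P
    rw [Finsupp.smul_apply, smul_eq_mul, hval P, hD₀]
  have h := congrArg Divisor.degree hpD
  rw [map_zsmul, hdeg, smul_eq_mul] at h
  rcases mul_eq_zero.1 h with h | h
  · exact absurd h (by exact_mod_cast hp.ne')
  · exact h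

variable {N}

omit [NeZero N] in
/-- a place that is not the cusp `∞` is different from it -/
theorem lw_ne_of_not_isCuspInfty {P Pinf : Place Kb (FF N)} (hinf : IsCuspInfty N Pinf)
    (hP : ¬ IsCuspInfty N P) : P ≠ Pinf := fun h => hP (h ▸ hinf)

omit [NeZero N] in
/-- the order of `b ^ p * f` when `div f = p D` -/
theorem lw_ord_pow_mul (p : ℕ) {f b : FF N} (hf : f ≠ 0) (hb : b ≠ 0)
    (D : Divisor Kb (FF N)) (P : Place Kb (FF N)) (hD : (p : ℤ) * D P = P.ord f) :
    P.ord (b ^ p * f) = (p : ℤ) * (P.ord b + D P) := by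
  rw [P.ord_mul (pow_ne_zero p hb) hf]
  have h1 : P.ord (b ^ p) = (p : ℤ) * P.ord b := by
    have := P.ord_zpow b (p : ℤ)
    rwa [zpow_natCast] at this
  rw [h1, ← hD]
  ring

omit [NeZero N] in
/-- `b ∈ L(div f / p + n ∞)` ⇒ `b ^ p * f` is regular outside `∞`, pole order `≤ p n` at `∞` -/
theorem lw_regOut (p : ℕ) (hp : 0 < p) (f : FF N) (D : Divisor Kb (FF N))
    (hD : ∀ P : Place Kb (FF N), (p : ℤ) * D P = P.ord f)
    (Pinf : Place Kb (FF N)) (hinf : IsCuspInfty N Pinf) (n : ℕ) (b : FF N)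
    (hb : b ∈ riemannRochSpace (D + Finsupp.single Pinf (n : ℤ))) :
    RegOut N (b ^ p * f) ∧
      ∀ m : ℤ, m < -((p : ℤ) * n) → ((b ^ p * f : FF N) : LaurentSeries Kb).coeff m = 0 := by
  classical
  rcases eq_or_ne f 0 with rfl | hf
  · refine ⟨fun P _ => ?_, fun m _ => ?_⟩
    · rw [mul_zero, Place.ord_zero]
    · rw [mul_zero]; rfl
  rcases eq_or_ne b 0 with rfl | hb0
  · refine ⟨fun P _ => ?_, fun m _ => ?_⟩
    · rw [zero_pow hp.ne', zero_mul, Place.ord_zero]
    · rw [zero_pow hp.ne', zero_mul]; rfl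
  rw [mem_riemannRochSpace_iff] at hb
  have hpz : (0 : ℤ) < p := by exact_mod_cast hp
  refine ⟨fun P hP => ?_, fun m hm => ?_⟩
  · have hne := lw_ne_of_not_isCuspInfty hinf hP
    rcases hb P with h | h
    · exact absurd h hb0
    · rw [Finsupp.add_apply, Finsupp.single_apply, if_neg (Ne.symm hne), add_zero] at h
      rw [lw_ord_pow_mul p hf hb0 D P (hD P)]
      exact mul_nonneg hpz.le (by linarith)
  · have hx0 : b ^ p * f ≠ 0 := mul_ne_zero (pow_ne_zero p hb0) hf
    have hord : -((p : ℤ) * n) ≤ ((b ^ p * f : FF N) : LaurentSeries Kb).order := by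
      rw [← hinf _ hx0, lw_ord_pow_mul p hf hb0 D Pinf (hD Pinf)]
      rcases hb Pinf with h | h
      · exact absurd h hb0
      · rw [Finsupp.add_apply, Finsupp.single_apply, if_pos rfl] at h
        have h2 : -(n : ℤ) ≤ Pinf.ord b + D Pinf := by linarith
        nlinarith
    exact HahnSeries.coeff_eq_zero_of_lt_order (lt_of_lt_of_le hm hord)

/-- vanishing of the low coefficients passes to `p`-th roots (over a field) -/
theorem lw_coeff_of_pow {k : Type*} [Field k] (p : ℕ) (hp : 0 < p) (n : ℕ)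
    (w : LaurentSeries k)
    (h : ∀ m : ℤ, m < -((p : ℤ) * n) → (w ^ p).coeff m = 0) :
    ∀ m : ℤ, m < -(n : ℤ) → w.coeff m = 0 := by
  intro m hm
  rcases eq_or_ne w 0 with rfl | hw
  · rfl
  have hwp : w ^ p ≠ 0 := pow_ne_zero p hw
  have h1 : -((p : ℤ) * n) ≤ (w ^ p).order := by
    by_contra hlt
    push Not at hlt
    exact hwp (HahnSeries.coeff_order_eq_zero.1 (h _ hlt))
  rw [HahnSeries.order_pow, nsmul_eq_mul] at h1
  have hpz : (0 : ℤ) < p := by exact_mod_cast hp
  have h2 : -(n : ℤ) ≤ w.order := by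
    by_contra hlt
    push Not at hlt
    nlinarith
  exact HahnSeries.coeff_eq_zero_of_lt_order (lt_of_lt_of_le hm h2)

variable {A}

/-- **Lemma W**: the reduction of `b ∈ L(div f / p + n ∞)` lies in `W_n` when `f ≡ 1`. -/
theorem lw_mem_Wn (gr : GRApi N A) (hRedF : StmtRedF N A) (hLRa : StmtLRa N A)
    (p : ℕ) (hp : 0 < p) (f : FF N) (hf1 : GaussRed N A f 1) (D : Divisor Kb (FF N))
    (hD : ∀ P : Place Kb (FF N), (p : ℤ) * D P = P.ord f)
    (Pinf : Place Kb (FF N)) (hinf : IsCuspInfty N Pinf) (n : ℕ) (b : FF N)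
    (hb : b ∈ riemannRochSpace (D + Finsupp.single Pinf (n : ℤ)))
    (w : LaurentSeries (kA A)) (hw : GaussRed N A b w) : w ∈ Wn N A n := by
  obtain ⟨hreg, hcoef⟩ := lw_regOut p hp f D hD Pinf hinf n b hb
  have hx : GaussRed N A (b ^ p * f) (w ^ p) := by
    have := gr.mul _ _ _ _ (gr.pow _ _ p hw) hf1
    rwa [mul_one] at this
  have hint : KronInt A ((b ^ p * f : FF N) : LaurentSeries Kb) :=
    hLRa _ hreg.polesAtCusps ⟨_, hx⟩
  obtain ⟨Y, hY⟩ := hint.exists_lift
  have hYmem : kronIncl A Y ∈ modularFunctionFieldBar N := by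
    rw [hY]; exact (b ^ p * f).2
  have hxY : (⟨kronIncl A Y, hYmem⟩ : FF N) = b ^ p * f := Subtype.ext hY
  have hred : kronRed A Y = w ^ p := by
    refine gr.unique (b ^ p * f) _ _ ?_ hx
    have := gr.of_incl Y hYmem
    rwa [hxY] at this
  have hmemR : w ^ p ∈ redR N A := ⟨Y, hYmem, by rw [hxY]; exact hreg, hred⟩
  rw [mem_Wn]
  refine ⟨⟨gr.mem_fullC hRedF b w hw, ?_⟩, ?_⟩
  · have hmem : w ^ p ∈ Algebra.adjoin (kA A) (redR N A) := Algebra.subset_adjoin hmemR
    have h1 : IsIntegral (Algebra.adjoin (kA A) (redR N A)) (w ^ p) :=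
      isIntegral_algebraMap (R := Algebra.adjoin (kA A) (redR N A)) (x := ⟨w ^ p, hmem⟩)
    exact IsIntegral.of_pow hp h1
  · refine lw_coeff_of_pow p hp n w fun m hm => ?_
    rw [← hred]
    have h1 : Y.coeff m = 0 := by
      apply Subtype.ext
      have h2 := hcoef m hm
      rw [← hY] at h2
      exact h2
    show IsLocalRing.residue A (Y.coeff m) = 0
    rw [h1, map_zero]

variable (N)

/-- `L(D)` is finite-dimensional -/
theorem lw_rr_finite (D : Divisor Kb (FF N)) : Module.Finite Kb ↥(riemannRochSpace D) := by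
  have := Fermat.Agent.ES.H.hasPrincipalDivisors_FF N
  obtain ⟨P, -, -⟩ := exists_isCuspInfty N
  exact Fermat.Agent.ES.R.rr_finite P (Fermat.Agent.ES.H.residue_bijective_FF N) D

/-- Riemann's inequality gives independent elements -/
theorem lw_exists_indep (hR : StmtR N) (D : Divisor Kb (FF N)) (r : ℕ)
    (hr : (r : ℤ) ≤ Divisor.degree D + 1 - (gN N : ℤ)) :
    ∃ a : Fin r → FF N, LinearIndependent Kb a ∧ ∀ i, a i ∈ riemannRochSpace D := by
  have := lw_rr_finite N D
  have h1 : r ≤ Module.finrank Kb ↥(riemannRochSpace D) := by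
    have := hR D
    omega
  obtain ⟨a', ha'⟩ := exists_linearIndependent_of_le_finrank h1
  refine ⟨fun i => ((a' i : ↥(riemannRochSpace D)) : FF N), ?_, fun i => (a' i).2⟩
  exact ha'.map' (riemannRochSpace D).subtype (Submodule.ker_subtype _)

/-- the API `LWApi N A` -/
theorem lwApi (gr : GRApi N A) : LWApi N A where
  exists_div := lw_exists_div N
  regOut := fun p hp f D hD Pinf hinf n b hb => lw_regOut p hp f D hD Pinf hinf n b hb
  mem_Wn := fun hRedF hLRa p hp f _ hf1 D hD Pinf hinf n b hb w hw =>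
    lw_mem_Wn gr hRedF hLRa p hp f hf1 D hD Pinf hinf n b hb w hw
  exists_indep := lw_exists_indep N
  rr_finite := lw_rr_finite N

/-- **piece LW** -/
theorem stmtLWApi : StmtLWApi := fun N _ _ gr => lwApi N gr

end Fermat.Agent.ES.M
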