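/-
ES / M (route 2), piece `StmtFricke`, part A (helper83): the Fricke involution of
`F_N = ℚ̄(j(q^d) : d ∣ N)`.

`frickeAut N : FF N ≃ₐ[Kb] FF N` with `frickeAut N (j(q^d)) = j(q^(N/d))`, an involution.

Route (as in `ES/G2/Swap.lean`): a polynomial relation between the `j(q^d)` over `ℚ̄` is a relation
between the functions `J(dτ)` on `ℍ` (`S24.bridge_iff`); substitute `τ ↦ -1/(Nτ)`.
-/
import Fermat.Agent.ES.G2.Swap
import Fermat.Agent.S28.Fricke

set_option autoImplicit false

noncomputable section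

namespace Fermat.Agent.ES.M

open UpperHalfPlane ModularCurve Fermat.Agent.S24 Fermat.Agent.S23 Fermat.Agent.S28
open Fermat.Agent.ES.G2

attribute [local instance] algKbC

variable {N : ℕ}

/-- `d ↦ N / d` on the divisors of `N`. -/
def frDv (d : Dv N) : Dv N := ⟨N / d.1, Nat.div_dvd_of_dvd d.2⟩

theorem frDv_val (d : Dv N) : (frDv d).1 = N / d.1 := rfl

theorem frDv_frDv [NeZero N] (d : Dv N) : frDv (frDv d) = d := by
  apply Subtype.ext
  show N / (N / d.1) = d.1
  exact Nat.div_div_self d.2 (NeZero.ne N)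

theorem frDv_mul [NeZero N] (d : Dv N) : d.1 * (frDv d).1 = N :=
  Nat.mul_div_cancel' d.2

/-- The analytic Fricke substitution: `J(d · (-1/(Nτ))) = J((N/d) τ)`. -/
theorem fr_Jdfam [NeZero N] (d : Dv N) (τ : ℍ) :
    Jdfam N d (fricke N τ) = Jdfam N (frDv d) τ := by
  have hN0 : N ≠ 0 := NeZero.ne N
  have hd0 : d.1 ≠ 0 := fun h0 => hN0 (by have := frDv_mul d; rw [h0, zero_mul] at this; exact this.symm)
  have he0 : (frDv d).1 ≠ 0 := fun h0 => hN0 (by
    have := frDv_mul d; rw [h0, mul_zero] at this; exact this.symm)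
  have : NeZero (frDv d).1 := ⟨he0⟩
  show Jd d.1 (fricke N τ) = Jd (frDv d).1 τ
  have hτ : (τ : ℂ) ≠ 0 := UpperHalfPlane.ne_zero τ
  -- the point `S • ((N/d) τ)`
  have h1 : Jd d.1 (fricke N τ) = Jfun (ModularGroup.S • scaleN (frDv d).1 τ) := by
    apply swap_Jd_eq hd0
    rw [coe_S_smul, coe_scaleN, coe_fricke]
    have hNe : (N : ℂ) = (d.1 : ℂ) * ((frDv d).1 : ℂ) := by
      exact_mod_cast (frDv_mul d).symm
    have hdC : (d.1 : ℂ) ≠ 0 := by exact_mod_cast hd0
    have heC : ((frDv d).1 : ℂ) ≠ 0 := by exact_mod_cast he0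
    rw [hNe]
    field_simp
  have h2 : Jd (frDv d).1 τ = Jfun (scaleN (frDv d).1 τ) := by
    apply swap_Jd_eq he0
    rw [coe_scaleN]
  rw [h1, h2, Jfun_smul]

/-- One direction of the transfer of relations. -/
theorem fr_rel [NeZero N] (P : MvPolynomial (Dv N) Kb)
    (hP : MvPolynomial.aeval (jBfam N) P = 0) :
    MvPolynomial.aeval (jBfam N ∘ frDv) P = 0 := by
  have h1 := (bridge_iff N P).mp hP
  have h3 : ∀ τ : ℍ, MvPolynomial.aeval (R := Kb)
      (fun d => Jdfam N d (fricke N τ)) P = 0 := by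
    intro τ
    rw [← swap_aeval_apply (Jdfam N) P (fricke N τ), h1]
    rfl
  have h2 : MvPolynomial.aeval (R := Kb) (Jdfam N) (MvPolynomial.rename frDv P) = 0 := by
    rw [MvPolynomial.aeval_rename]
    funext τ
    rw [swap_aeval_apply (Jdfam N ∘ frDv) P τ]
    have h5 : (fun i => (Jdfam N ∘ frDv) i τ) = fun d => Jdfam N d (fricke N τ) :=
      funext fun d => (fr_Jdfam d τ).symm
    rw [h5, h3 τ]
    rfl
  have h4 := (bridge_iff N _).mpr h2
  rwa [MvPolynomial.aeval_rename] at h4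

theorem fr_rel_iff [NeZero N] (P : MvPolynomial (Dv N) Kb) :
    MvPolynomial.aeval (jBfam N) P = 0 ↔ MvPolynomial.aeval (jBfam N ∘ frDv) P = 0 := by
  refine ⟨fr_rel P, fun h => ?_⟩
  have h1 : MvPolynomial.aeval (jBfam N) (MvPolynomial.rename frDv P) = 0 := by
    rw [MvPolynomial.aeval_rename]; exact h
  have h2 := fr_rel _ h1
  rw [MvPolynomial.aeval_rename] at h2
  have h3 : (jBfam N ∘ frDv) ∘ frDv = jBfam N := by
    funext d
    simp only [Function.comp_apply, frDv_frDv]
  rwa [h3] at h2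

/-- The Fricke involution on generators, as an algebra endomorphism. -/
theorem exists_fricke_gen (N : ℕ) [NeZero N] :
    ∃ w : FF N →ₐ[Kb] FF N, ∀ d : Dv N, w (jFfam N d) = jFfam N (frDv d) := by
  obtain ⟨w, hw⟩ := exists_algHom_FF_of_relations N (M := FF N)
    (fun d => jFfam N (frDv d)) (fun P => by
      rw [fr_rel_iff P]
      have h := MvPolynomial.comp_aeval_apply (fun d => jFfam N (frDv d))
        (IntermediateField.val (modularFunctionFieldBar N)) P
      have h' : MvPolynomial.aeval (jBfam N ∘ frDv) P =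
          ((MvPolynomial.aeval (fun d => jFfam N (frDv d)) P : FF N) : LaurentSeries Kb) :=
        h.symm
      rw [h']
      exact ⟨fun h0 => Subtype.ext h0, fun h0 => congrArg Subtype.val h0⟩)
  exact ⟨w, fun d => hw d.1 d.2⟩

/-- The Fricke endomorphism (a choice). -/
def frickeHom (N : ℕ) [NeZero N] : FF N →ₐ[Kb] FF N := (exists_fricke_gen N).choose

theorem frickeHom_jFfam (N : ℕ) [NeZero N] (d : Dv N) :
    frickeHom N (jFfam N d) = jFfam N (frDv d) := (exists_fricke_gen N).choose_spec d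

theorem frickeHom_comp_self (N : ℕ) [NeZero N] :
    (frickeHom N).comp (frickeHom N) = AlgHom.id Kb (FF N) := by
  apply FF_algHom_ext
  intro d hd
  have h1 : jdF N d hd = jFfam N ⟨d, hd⟩ := rfl
  rw [AlgHom.comp_apply, h1, frickeHom_jFfam, frickeHom_jFfam, frDv_frDv]
  rfl

theorem frickeHom_frickeHom (N : ℕ) [NeZero N] (x : FF N) :
    frickeHom N (frickeHom N x) = x := by
  have h := congrArg (fun f => f x) (frickeHom_comp_self N)
  exact h

/-- **The Fricke involution** `w_N` of `F_N`. -/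
def frickeAut (N : ℕ) [NeZero N] : FF N ≃ₐ[Kb] FF N :=
  AlgEquiv.ofAlgHom (frickeHom N) (frickeHom N) (frickeHom_comp_self N) (frickeHom_comp_self N)

@[simp] theorem frickeAut_apply (N : ℕ) [NeZero N] (x : FF N) :
    frickeAut N x = frickeHom N x := rfl

theorem frickeAut_frickeAut (N : ℕ) [NeZero N] (x : FF N) :
    frickeAut N (frickeAut N x) = x := frickeHom_frickeHom N x

theorem frickeAut_symm_apply (N : ℕ) [NeZero N] (x : FF N) :
    (frickeAut N).symm x = frickeAut N x := rfl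

theorem frickeAut_jdF (N : ℕ) [NeZero N] (d : ℕ) (hd : d ∣ N) :
    frickeAut N (jdF N d hd) = jdF N (N / d) (Nat.div_dvd_of_dvd hd) :=
  frickeHom_jFfam N ⟨d, hd⟩

/-- `w_N (j) = j(q^N)`. -/
theorem frickeAut_jF (N : ℕ) [NeZero N] :
    frickeAut N (jF N) = jdF N N dvd_rfl := by
  rw [← jdF_one, frickeAut_jdF]
  congr 1
  exact Nat.div_one N

end Fermat.Agent.ES.M
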