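/-
ES / M (route 2), piece `StmtFricke`, part B (helper83): the Fricke involution and the places.

* `fr_jdF_mem`       : a valuation subring of `F_N` containing `j` contains every `j(q^d)`, `d ∣ N`
                       (integral modular equations);
* `fricke_polesAtCusps` : `PolesAtCusps N x → PolesAtCusps N (frickeAut N x)`;
* `fricke_regOut`    : for `2 ≤ N`, `RegOut N x →` the `q`-expansion of `frickeAut N x` has no pole.
-/
import Fermat.Agent.ES.M.FrickeAut
import Fermat.Agent.ES.M.CuspInfty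
import Fermat.Agent.S28.IntModEqMain

set_option autoImplicit false

noncomputable section

namespace Fermat.Agent.ES.M

open UpperHalfPlane ModularCurve AlgebraicCurve Fermat.Agent.S24 Fermat.Agent.S28 Polynomial

variable {N : ℕ} [NeZero N]

/-! ### The `j(q^d)` as Laurent series -/

theorem fr_coe_jdF (d : ℕ) (hd : d ∣ N) :
    ((jdF N d hd : FF N) : LaurentSeries Kb) = intJd Kb d := by
  have hd0 : d ≠ 0 := fun h => NeZero.ne N (by subst h; simpa using hd)
  have : NeZero d := ⟨hd0⟩
  rw [jdF_coe, ← jqModC_rat, ← intJd_eq, coeffEmb, coeffMap_intJd]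

theorem fr_order_jdF (d : ℕ) (hd : d ∣ N) :
    ((jdF N d hd : FF N) : LaurentSeries Kb).order = -(d : ℤ) := by
  have hd0 : d ≠ 0 := fun h => NeZero.ne N (by subst h; simpa using hd)
  have : NeZero d := ⟨hd0⟩
  rw [fr_coe_jdF, intJd_eq, order_qExpand, order_jqModC]
  ring

theorem fr_jdF_ne_zero (d : ℕ) (hd : d ∣ N) : jdF N d hd ≠ 0 := by
  intro h
  have h1 := fr_order_jdF (N := N) d hd
  rw [h] at h1
  have hd0 : d ≠ 0 := fun h => NeZero.ne N (by subst h; simpa using hd)
  simp only [ZeroMemClass.coe_zero, HahnSeries.order_zero] at h1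
  omega

/-- the modular equation in `F_N`. -/
theorem fr_modEq {p : ℕ} {Φ : Polynomial (Polynomial ℤ)}
    (h : Φ.eval₂ (evalInt (intJd ℤ 1)) (intJd ℤ p) = 0) (hp : p ≠ 0) (d : ℕ) (hd : d ∣ N)
    (hpd : p * d ∣ N) :
    Φ.eval₂ (evalInt (jdF N d hd)) (jdF N (p * d) hpd) = 0 := by
  have hd0 : d ≠ 0 := fun h => NeZero.ne N (by subst h; simpa using hd)
  apply Subtype.val_injective
  have hsh := IntModEq.shift h Kb hd0 hp
  have hmap := map_eval₂_evalInt (algebraMap (FF N) (LaurentSeries Kb)) Φ (jdF N d hd)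
    (jdF N (p * d) hpd)
  have e1 : algebraMap (FF N) (LaurentSeries Kb) (jdF N d hd) = intJd Kb d := fr_coe_jdF d hd
  have e2 : algebraMap (FF N) (LaurentSeries Kb) (jdF N (p * d) hpd) = intJd Kb (p * d) :=
    fr_coe_jdF (p * d) hpd
  rw [e1, e2] at hmap
  exact hmap.trans hsh

/-- A root of a monic polynomial `Φ(X, y)`, `Φ ∈ ℤ[Y][X]`, `y ∈ O`, lies in the valuation
subring `O`. -/
theorem fr_mem_of_eval₂ {F : Type*} [Field F] (O : ValuationSubring F) {x y : F} (hy : y ∈ O)
    {Φ : Polynomial (Polynomial ℤ)} (hΦ : Φ.Monic) (h : Φ.eval₂ (evalInt y) x = 0) : x ∈ O := by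
  have hint : IsIntegral O x := by
    refine ⟨Φ.map (evalInt (⟨y, hy⟩ : O)), hΦ.map _, ?_⟩
    rw [Polynomial.eval₂_map, comp_evalInt]
    exact h
  obtain ⟨z, hz⟩ := IsIntegrallyClosed.isIntegral_iff.mp hint
  rw [← hz]
  exact z.2

/-- **Integrality**: a valuation subring of `F_N` containing `j` contains all `j(q^d)`. -/
theorem fr_jdF_mem (O : ValuationSubring (FF N)) (hj : jF N ∈ O) :
    ∀ (d : ℕ) (hd : d ∣ N), jdF N d hd ∈ O := by
  intro d
  induction d using Nat.strong_induction_on with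
  | _ d ih =>
    intro hd
    have hd0 : d ≠ 0 := fun h => NeZero.ne N (by rw [h] at hd; exact Nat.eq_zero_of_zero_dvd hd)
    rcases eq_or_ne d 1 with rfl | hd1
    · rw [jdF_one]; exact hj
    · set p := d.minFac with hp
      have hpp : p.Prime := Nat.minFac_prime hd1
      obtain ⟨d', hd'⟩ : p ∣ d := Nat.minFac_dvd d
      have hd'0 : d' ≠ 0 := by
        rintro rfl
        exact hd0 (by rw [hd', mul_zero])
      have hd'lt : d' < d := by
        rw [hd']
        exact lt_mul_of_one_lt_left (Nat.pos_of_ne_zero hd'0) hpp.one_lt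
      have hd'N : d' ∣ N := (Dvd.intro_left p hd'.symm).trans hd
      obtain ⟨Φ, hΦm, hΦ0⟩ := intModEq p hpp
      have hy := ih d' hd'lt hd'N
      have hpd : p * d' ∣ N := hd' ▸ hd
      have hrel := fr_modEq (N := N) hΦ0 hpp.ne_zero d' hd'N hpd
      have hx := fr_mem_of_eval₂ O hy hΦm hrel
      have e : jdF N d hd = jdF N (p * d') hpd := by
        apply Subtype.ext
        rw [fr_coe_jdF, fr_coe_jdF, hd']
      rw [e]
      exact hx

/-! ### Places -/

theorem fr_ord_frickeAut (P : Place Kb (FF N)) (x : FF N) :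
    (frickeAut N • P).ord x = P.ord (frickeAut N x) := by
  have h := Place.ord_smul (frickeAut N) P (frickeAut N x)
  rw [frickeAut_frickeAut] at h
  exact h

theorem fr_jF_ne_zero : jF N ≠ 0 := by
  intro h
  have := congrArg (fun z : FF N => (z : LaurentSeries Kb)) h
  exact jBar_ne_zero this

/-- `w_N` preserves "regular wherever `j` is regular". -/
theorem fricke_polesAtCusps {x : FF N} (hx : PolesAtCusps N x) :
    PolesAtCusps N (frickeAut N x) := by
  intro P hP
  rw [← fr_ord_frickeAut]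
  apply hx
  rw [fr_ord_frickeAut, frickeAut_jF]
  have hj : jF N ∈ P.toValuationSubring := (PlaceAux.ord_nonneg_iff P fr_jF_ne_zero).mp hP
  have hN := fr_jdF_mem P.toValuationSubring hj N dvd_rfl
  exact (PlaceAux.ord_nonneg_iff P (fr_jdF_ne_zero N dvd_rfl)).mpr hN

/-- `w_N` moves the cusp `∞` away: a function regular outside `∞` is mapped to a function
regular at `∞`.  (`N ≥ 2`.) -/
theorem fricke_regOut (hN : 2 ≤ N) {x : FF N} (hx : RegOut N x) (n : ℤ) (hn : n < 0) :
    ((frickeAut N x : FF N) : LaurentSeries Kb).coeff n = 0 := by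
  obtain ⟨P, hP, -⟩ := exists_isCuspInfty N
  rcases eq_or_ne (frickeAut N x) 0 with h0 | h0
  · rw [h0]; rfl
  · have hQ : ¬ IsCuspInfty N (frickeAut N • P) := by
      intro hQ
      have h1 := hQ.ord_jF
      rw [fr_ord_frickeAut, frickeAut_jF, hP _ (fr_jdF_ne_zero N dvd_rfl), fr_order_jdF] at h1
      omega
    have h2 := hx _ hQ
    rw [fr_ord_frickeAut] at h2
    exact (hP.ord_nonneg_iff h0).mp h2 n hn

end Fermat.Agent.ES.M
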