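/-
ES / M (route 2), piece `StmtFricke`, part C (helper83): the Fricke involution preserves the
Gauss valuation of `F_N` (`A ⊂ ℚ̄` a valuation ring over `ℓ ∤ N`).

* `frRed_expand`      : (abstract) `D(t) Y = ∑ P i (t) x i` with `D̄ ≠ 0`, and `Ȳ = 0 → P̄ i = 0`;
* `frRed_expand_mv`   : for `Y ∈ A((q))` in `F_N`: `D(j) Y = R(j(q^d) : d ∣ N)` with `D ∈ A[X]`,
                        `D̄ ≠ 0`, `R ∈ A[X_d : d ∣ N]`, and `Ȳ = 0 → R̄ = 0`;
* `fr_rel_res`        : a relation mod `𝔪` between the `j(q^d)` is a relation between the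
                        `j(q^(N/d))` (the Fricke involution in characteristic `ℓ`);
* `fricke_gaussRed_one`, `fricke_reducesToOne` : `x ≡ 1 → w_N x ≡ 1`.
-/
import Fermat.Agent.ES.M.FrickeAut
import Fermat.Agent.ES.M.FrickePlaces
import Fermat.Agent.ES.M.RedF
import Fermat.Agent.ES.M.GaussRed

set_option autoImplicit false

noncomputable section

namespace Fermat.Agent.ES.M

open ModularCurve Polynomial IntermediateField Fermat.Agent.S28 Fermat.Agent.S24
open Fermat.Agent.ES

section Abstract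

variable {K : Type*} [Field K] {A : ValuationSubring K} {ι : Type*} [Fintype ι]

/-- **Expansion in an orthonormal family**, integral form with the denominators exposed. -/
theorem frRed_expand (x : ι → LaurentSeries A) (t : LaurentSeries A)
    (ht : Transcendental (IsLocalRing.ResidueField A) (coeffMap (IsLocalRing.residue A) t))
    (hind : ∀ c : ι → LaurentSeries (IsLocalRing.ResidueField A),
      (∀ i, c i ∈ adjoin (IsLocalRing.ResidueField A) {coeffMap (IsLocalRing.residue A) t}) →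
      ∑ i, c i * coeffMap (IsLocalRing.residue A) (x i) = 0 → ∀ i, c i = 0)
    (Y : LaurentSeries A) (c : ι → LaurentSeries K)
    (hc : ∀ i, c i ∈ adjoin K {coeffMap (algebraMap A K) t})
    (hY : coeffMap (algebraMap A K) Y = ∑ i, c i * coeffMap (algebraMap A K) (x i)) :
    ∃ (D : Polynomial A) (P : ι → Polynomial A), D.map (IsLocalRing.residue A) ≠ 0 ∧
      aeval t D * Y = ∑ i, aeval t (P i) * x i ∧
      (coeffMap (IsLocalRing.residue A) Y = 0 → ∀ i, (P i).map (IsLocalRing.residue A) = 0) := by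
  classical
  obtain ⟨D, hD, hDP⟩ := redDVR_exists_common_denominator (A := A)
    (coeffMap (algebraMap A K) t) c hc Finset.univ
  choose P hP using fun i => hDP i (Finset.mem_univ i)
  have hD0 : D ≠ 0 := by
    rintro rfl
    rw [Polynomial.map_zero, map_zero] at hD
    exact hD rfl
  -- the relation over `A`
  have h1 : aeval t D * Y = ∑ i, aeval t (P i) * x i := by
    apply redDVR_coeffMap_injective (algebraMap A K) (IsFractionRing.injective A K)
    rw [map_mul, map_sum, hY, Finset.mul_sum]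
    simp_rw [map_mul, redDVR_coeffMap_aeval, ← hP]
    exact Finset.sum_congr rfl fun i _ => by ring
  -- joint normalisation of `D` and the `P i`
  let Q : Option ι → Polynomial A := fun o => o.elim D P
  obtain ⟨a, Q', ha, hQQ', o₀, ho₀⟩ := redF_exists_primitive A Q ⟨none, hD0⟩
  have hDa : D = C a * Q' none := hQQ' none
  have hPa : ∀ i, P i = C a * Q' (some i) := fun i => hQQ' (some i)
  have h2 : aeval t (Q' none) * Y = ∑ i, aeval t (Q' (some i)) * x i := by
    have h3 : algebraMap A (LaurentSeries A) a *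
        (aeval t (Q' none) * Y - ∑ i, aeval t (Q' (some i)) * x i) = 0 := by
      rw [mul_sub, Finset.mul_sum, sub_eq_zero]
      have e1 : algebraMap A (LaurentSeries A) a * (aeval t (Q' none) * Y) = aeval t D * Y := by
        rw [hDa, map_mul, aeval_C, mul_assoc]
      have e2 : ∀ i, algebraMap A (LaurentSeries A) a * (aeval t (Q' (some i)) * x i)
          = aeval t (P i) * x i := fun i => by
        rw [hPa i, map_mul, aeval_C, mul_assoc]
      rw [e1, h1]
      exact Finset.sum_congr rfl fun i _ => (e2 i).symm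
    exact sub_eq_zero.mp (redDVR_eq_zero_of_mul ha h3)
  -- reduce
  have h4 := congrArg (coeffMap (IsLocalRing.residue A)) h2
  rw [map_mul, map_sum] at h4
  simp_rw [map_mul, redDVR_coeffMap_aeval] at h4
  set r := IsLocalRing.residue A with hr
  have hmemc : ∀ Q₀ : Polynomial A,
      aeval (coeffMap r t) (Q₀.map r) ∈ adjoin (IsLocalRing.ResidueField A) {coeffMap r t} :=
    fun Q₀ => IntermediateField.algebra_adjoin_le_adjoin _ _
      (Polynomial.aeval_mem_adjoin_singleton _ _)
  have hD' : (Q' none).map r ≠ 0 := by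
    intro hD'
    rw [hD', map_zero, zero_mul] at h4
    have h5 := hind (fun i => aeval (coeffMap r t) ((Q' (some i)).map r))
      (fun i => hmemc _) h4.symm
    cases o₀ with
    | none => exact ho₀ hD'
    | some i => exact ho₀ (transcendental_iff.mp ht _ (h5 i))
  refine ⟨Q' none, fun i => Q' (some i), hD', h2, ?_⟩
  intro hY0 i
  rw [hY0, mul_zero] at h4
  have h5 := hind (fun i => aeval (coeffMap r t) ((Q' (some i)).map r))
    (fun i => hmemc _) h4.symm
  exact transcendental_iff.mp ht _ (h5 i)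

/-- `coeffMap` commutes with the evaluation of multivariate polynomials. -/
theorem frRed_coeffMap_mvAeval {R S σ : Type*} [CommRing R] [Field S] (f : R →+* S)
    (g : σ → LaurentSeries R) (P : MvPolynomial σ R) :
    coeffMap f (MvPolynomial.aeval g P) =
      MvPolynomial.aeval (fun i => coeffMap f (g i)) (MvPolynomial.map f P) := by
  induction P using MvPolynomial.induction_on with
  | C a =>
    rw [MvPolynomial.map_C, MvPolynomial.aeval_C, MvPolynomial.aeval_C]
    exact redDVR_coeffMap_algebraMap f a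
  | add p q hp hq =>
    rw [map_add, map_add, map_add, map_add, hp, hq]
  | mul_X p i hp =>
    rw [map_mul, map_mul, map_mul, map_mul, hp, MvPolynomial.aeval_X, MvPolynomial.map_X,
      MvPolynomial.aeval_X]

end Abstract

/-! ### The families `d ↦ j(q^d)` over any ring -/

section Families

variable (N : ℕ) [NeZero N]

/-- the family `d ↦ j(q^d)`, `d ∣ N`, over a commutative ring. -/
def jRfam (R : Type*) [CommRing R] : Dv N → LaurentSeries R := fun d => intJd R d.1

omit [NeZero N] in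
theorem coeffMap_jRfam {R S : Type*} [CommRing R] [CommRing S] (f : R →+* S) (d : Dv N) :
    coeffMap f (jRfam N R d) = jRfam N S d := coeffMap_intJd f d.1

theorem jRfam_Kb : jRfam N Kb = jBfam N := funext fun d => (fr_coe_jdF d.1 d.2).symm

omit [NeZero N] in
theorem jRfam_one (R : Type*) [CommRing R] : jRfam N R ⟨1, one_dvd N⟩ = jqModC R := intJd_one R

/-- `D(X₁)` as a multivariate polynomial. -/
def frE {R : Type*} [CommRing R] (D : Polynomial R) : MvPolynomial (Dv N) R :=
  Polynomial.aeval (MvPolynomial.X (⟨1, one_dvd N⟩ : Dv N)) D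

omit [NeZero N] in
theorem frE_aeval {R B : Type*} [CommRing R] [CommRing B] [Algebra R B] (g : Dv N → B)
    (D : Polynomial R) :
    MvPolynomial.aeval g (frE N D) = Polynomial.aeval (g ⟨1, one_dvd N⟩) D := by
  rw [frE, ← Polynomial.aeval_algHom_apply, MvPolynomial.aeval_X]

omit [NeZero N] in
theorem frE_map {R S : Type*} [CommRing R] [CommRing S] (f : R →+* S) (D : Polynomial R) :
    MvPolynomial.map f (frE N D) = frE N (D.map f) := by
  rw [frE, frE, Polynomial.aeval_def, Polynomial.aeval_def, Polynomial.hom_eval₂,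
    Polynomial.eval₂_map, MvPolynomial.map_X]
  congr 1
  ext a : 1
  simp [MvPolynomial.algebraMap_eq]

omit [NeZero N] in
/-- monomials in the `j(q^d)` are values of multivariate polynomials. -/
theorem frRed_exists_mv (R : Type*) [CommRing R] {x : LaurentSeries ℤ}
    (hx : x ∈ Submonoid.closure (gensZ N)) :
    ∃ M : MvPolynomial (Dv N) R,
      MvPolynomial.aeval (jRfam N R) M = coeffMap (Int.castRingHom R) x := by
  induction hx using Submonoid.closure_induction with
  | mem z hz =>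
    obtain ⟨d, hne, hd, rfl⟩ := hz
    refine ⟨MvPolynomial.X ⟨d, hd⟩, ?_⟩
    rw [MvPolynomial.aeval_X, ← intJd_eq, coeffMap_intJd]
    rfl
  | one => exact ⟨1, by rw [map_one, map_one]⟩
  | mul a b _ _ ha hb =>
    obtain ⟨Ma, hMa⟩ := ha
    obtain ⟨Mb, hMb⟩ := hb
    exact ⟨Ma * Mb, by rw [map_mul, map_mul, hMa, hMb]⟩

end Families

section Concrete

variable (N : ℕ) [NeZero N] (A : ValuationSubring Kb)

/-- **Expansion** of an `A`-integral element `Y` of `F_N`: `D(j) Y = R(j(q^d) : d ∣ N)` with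
`D ∈ A[X]`, `D̄ ≠ 0`, `R ∈ A[X_d]`; and `R̄ = 0` if `Ȳ = 0`. -/
theorem frRed_expand_mv (ℓ : ℕ) (hℓ : ℓ.Prime) (hℓN : ¬ ℓ ∣ N) (hA : A.LiesOverPrime ℓ)
    (Y : LaurentSeries A) (hY : kronIncl A Y ∈ modularFunctionFieldBar N) :
    ∃ (D : Polynomial A) (R : MvPolynomial (Dv N) A), D.map (IsLocalRing.residue A) ≠ 0 ∧
      Polynomial.aeval (jqModC A) D * Y = MvPolynomial.aeval (jRfam N A) R ∧
      (kronRed A Y = 0 → MvPolynomial.map (IsLocalRing.residue A) R = 0) := by
  have hNk := redF_natCast_ne_zero N A ℓ hℓ hℓN hA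
  obtain ⟨x, hx, hli⟩ := exists_monomials_full (k := kA A) N (primeHyp_of_dvd (kA A) N hNk)
  set X : Fin (dedekindPsi N) → LaurentSeries A := fun i => coeffMap (Int.castRingHom A) (x i)
    with hX
  set t : LaurentSeries A := jqModC A with htdef
  have htk : coeffMap (IsLocalRing.residue A) t = jqModC (kA A) := coeffMap_jqModC _
  have htK : coeffMap (algebraMap A Kb) t = jqModC Kb := coeffMap_jqModC _
  have hXk : ∀ i, coeffMap (IsLocalRing.residue A) (X i) =
      coeffMap (Int.castRingHom (kA A)) (x i) := fun i => by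
    rw [hX, coeffMap_coeffMap]
    exact coeffMap_congr (RingHom.ext_int _ _) _
  have hXK : ∀ i, coeffMap (algebraMap A Kb) (X i) = coeffMap (Int.castRingHom Kb) (x i) :=
    fun i => by
      rw [hX, coeffMap_coeffMap]
      exact coeffMap_congr (RingHom.ext_int _ _) _
  have ht : Transcendental (IsLocalRing.ResidueField A) (coeffMap (IsLocalRing.residue A) t) := by
    rw [htk]
    exact red_transcendental_jqModC _
  have hind : ∀ c : Fin (dedekindPsi N) → LaurentSeries (IsLocalRing.ResidueField A),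
      (∀ i, c i ∈ adjoin (IsLocalRing.ResidueField A) {coeffMap (IsLocalRing.residue A) t}) →
      ∑ i, c i * coeffMap (IsLocalRing.residue A) (X i) = 0 → ∀ i, c i = 0 := by
    intro c hc hsum
    rw [htk] at hc
    simp_rw [hXk] at hsum
    have h0 := Fintype.linearIndependent_iff.mp hli (fun i => ⟨c i, hc i⟩) (by
      rw [← hsum]
      exact Finset.sum_congr rfl fun i _ => rfl)
    intro i
    exact congrArg Subtype.val (h0 i)
  have hindK := redF_indep X t ht hind
  have hliK : LinearIndependent (adjoin Kb {jqModC Kb})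
      (fun i => coeffMap (Int.castRingHom Kb) (x i)) := by
    rw [Fintype.linearIndependent_iff]
    intro g hg i
    have h1 := hindK (fun i => (g i : LaurentSeries Kb)) (fun i => by rw [htK]; exact (g i).2)
      (by
        simp_rw [hXK]
        rw [← hg]
        exact Finset.sum_congr rfl fun i _ => rfl) i
    exact Subtype.ext h1
  have hfin := UB.finrank_full_le Kb (NeZero.ne N)
    (fun r hr _ => @ub_modEq Kb _ r ⟨hr.ne_zero⟩ hr)
  have hm : ∀ i, coeffMap (Int.castRingHom Kb) (x i) ∈ modularFunctionFieldFullC Kb N :=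
    fun i => redF_mem_full N Kb (hx i)
  have hYF : kronIncl A Y ∈ modularFunctionFieldFullC Kb N := by
    rw [← G2.hdeg_laurentBaseChange_full]
    exact hY
  obtain ⟨c, hc, hfc⟩ := exists_coeffs_of_linearIndependent (UB.K0 Kb)
    (modularFunctionFieldFullC Kb N) (UB.K0_le_full Kb N) hfin.1 hfin.2
    (fun i => coeffMap (Int.castRingHom Kb) (x i)) hm hliK _ hYF
  obtain ⟨D, P, hD, hDY, hP0⟩ := frRed_expand X t ht hind Y c (by rw [htK]; exact hc)
    (by simp_rw [hXK]; exact hfc)
  choose M hM using fun i => frRed_exists_mv N A (hx i)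
  refine ⟨D, ∑ i, frE N (P i) * M i, hD, ?_, ?_⟩
  · rw [hDY, map_sum]
    refine Finset.sum_congr rfl fun i _ => ?_
    rw [map_mul, frE_aeval, jRfam_one, hM]
  · intro hY0
    rw [map_sum]
    refine Finset.sum_eq_zero fun i _ => ?_
    rw [map_mul, frE_map, hP0 hY0 i]
    simp [frE]

/-! ### Values of polynomials in the `j(q^d)` -/

theorem fr_aeval_jBfam (Q : MvPolynomial (Dv N) Kb) :
    MvPolynomial.aeval (jBfam N) Q =
      ((MvPolynomial.aeval (jFfam N) Q : FF N) : LaurentSeries Kb) :=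
  (MvPolynomial.comp_aeval_apply (jFfam N)
    (IntermediateField.val (modularFunctionFieldBar N)) Q).symm

theorem fr_aeval_jBfam_frDv (Q : MvPolynomial (Dv N) Kb) :
    MvPolynomial.aeval (jBfam N ∘ frDv) Q =
      ((MvPolynomial.aeval (jFfam N ∘ frDv) Q : FF N) : LaurentSeries Kb) :=
  (MvPolynomial.comp_aeval_apply (jFfam N ∘ frDv)
    (IntermediateField.val (modularFunctionFieldBar N)) Q).symm

theorem frickeAut_aeval (Q : MvPolynomial (Dv N) Kb) :
    frickeAut N (MvPolynomial.aeval (jFfam N) Q) = MvPolynomial.aeval (jFfam N ∘ frDv) Q := by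
  have h := MvPolynomial.comp_aeval_apply (jFfam N) (frickeHom N) Q
  have h2 : (fun d => frickeHom N (jFfam N d)) = jFfam N ∘ frDv :=
    funext fun d => frickeHom_jFfam N d
  rw [h2] at h
  rw [frickeAut_apply]
  exact h

omit [NeZero N] in
theorem fr_coeffMap_aeval_jRfam {S : Type*} [Field S] (f : A →+* S) (g : Dv N → Dv N)
    (P : MvPolynomial (Dv N) A) :
    coeffMap f (MvPolynomial.aeval (jRfam N A ∘ g) P) =
      MvPolynomial.aeval (jRfam N S ∘ g) (MvPolynomial.map f P) := by
  rw [frRed_coeffMap_mvAeval]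
  have h : (fun i => coeffMap f ((jRfam N A ∘ g) i)) = jRfam N S ∘ g :=
    funext fun i => coeffMap_jRfam N f (g i)
  rw [h]

theorem fr_kronIncl_aeval (P : MvPolynomial (Dv N) A) :
    kronIncl A (MvPolynomial.aeval (jRfam N A) P) =
      MvPolynomial.aeval (jBfam N) (MvPolynomial.map A.subtype P) := by
  rw [← jRfam_Kb]
  exact fr_coeffMap_aeval_jRfam N A A.subtype id P

theorem fr_kronIncl_aeval_frDv (P : MvPolynomial (Dv N) A) :
    kronIncl A (MvPolynomial.aeval (jRfam N A ∘ frDv) P) =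
      MvPolynomial.aeval (jBfam N ∘ frDv) (MvPolynomial.map A.subtype P) := by
  rw [← jRfam_Kb]
  exact fr_coeffMap_aeval_jRfam N A A.subtype frDv P

omit [NeZero N] in
theorem fr_kronRed_aeval (g : Dv N → Dv N) (P : MvPolynomial (Dv N) A) :
    kronRed A (MvPolynomial.aeval (jRfam N A ∘ g) P) =
      MvPolynomial.aeval (jRfam N (kA A) ∘ g) (MvPolynomial.map (IsLocalRing.residue A) P) :=
  fr_coeffMap_aeval_jRfam N A (IsLocalRing.residue A) g P

theorem fr_kronIncl_aeval_mem (P : MvPolynomial (Dv N) A) :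
    kronIncl A (MvPolynomial.aeval (jRfam N A) P) ∈ modularFunctionFieldBar N := by
  rw [fr_kronIncl_aeval, fr_aeval_jBfam]
  exact Subtype.prop _

theorem fr_kronIncl_aeval_frDv_mem (P : MvPolynomial (Dv N) A) :
    kronIncl A (MvPolynomial.aeval (jRfam N A ∘ frDv) P) ∈ modularFunctionFieldBar N := by
  rw [fr_kronIncl_aeval_frDv, fr_aeval_jBfam_frDv]
  exact Subtype.prop _

omit [NeZero N] in
/-- a nonzero polynomial over a field does not vanish at `j(q^d)`, `d ≠ 0`. -/
theorem fr_aeval_intJd_ne_zero (k : Type*) [Field k] (d : ℕ) (hd : d ≠ 0) (D : Polynomial k)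
    (hD : D ≠ 0) : Polynomial.aeval (intJd k d) D ≠ 0 := by
  have : NeZero d := ⟨hd⟩
  rw [intJd_eq]
  have h1 : Polynomial.aeval (qExpand k d (jqModC k)) D =
      qExpandAlgHomC k d (Polynomial.aeval (jqModC k) D) := by
    rw [← Polynomial.aeval_algHom_apply]
    rfl
  rw [h1]
  intro h0
  have h2 : Polynomial.aeval (jqModC k) D = 0 :=
    (qExpandAlgHomC k d).toRingHom.injective (by rw [map_zero]; exact h0)
  exact hD (transcendental_iff.mp (red_transcendental_jqModC k) D h2)

/-! ### The Fricke involution in characteristic `ℓ` -/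

/-- **Relations mod `𝔪`** between the `j(q^d)` are relations between the `j(q^(N/d))`. -/
theorem fr_rel_res (ℓ : ℕ) (hℓ : ℓ.Prime) (hℓN : ¬ ℓ ∣ N) (hA : A.LiesOverPrime ℓ)
    (P : MvPolynomial (Dv N) A)
    (hP : kronRed A (MvPolynomial.aeval (jRfam N A) P) = 0) :
    kronRed A (MvPolynomial.aeval (jRfam N A ∘ frDv) P) = 0 := by
  have hN0 : N ≠ 0 := NeZero.ne N
  obtain ⟨D, R, hD, hDY, hR0⟩ := frRed_expand_mv N A ℓ hℓ hℓN hA _ (fr_kronIncl_aeval_mem N A P)
  have hR := hR0 hP
  -- the exact relation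
  have hrel : MvPolynomial.aeval (jRfam N A) (frE N D * P - R) = 0 := by
    rw [map_sub, map_mul, frE_aeval, jRfam_one, hDY, sub_self]
  have hrelB : MvPolynomial.aeval (jBfam N) (MvPolynomial.map A.subtype (frE N D * P - R)) = 0 := by
    rw [← fr_kronIncl_aeval, hrel, map_zero]
  have hrelB' := fr_rel _ hrelB
  rw [← fr_kronIncl_aeval_frDv] at hrelB'
  have hrel' : MvPolynomial.aeval (jRfam N A ∘ frDv) (frE N D * P - R) = 0 :=
    kronIncl_injective (A := A) (by rw [hrelB', map_zero])
  -- reduce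
  rw [map_sub, map_mul] at hrel'
  have h1 := congrArg (kronRed A) hrel'
  rw [map_zero, map_sub, map_mul] at h1
  have h2 : kronRed A (MvPolynomial.aeval (jRfam N A ∘ frDv) R) = 0 := by
    rw [fr_kronRed_aeval, hR, map_zero]
  rw [h2, sub_zero] at h1
  have h3 : kronRed A (MvPolynomial.aeval (jRfam N A ∘ frDv) (frE N D)) ≠ 0 := by
    rw [fr_kronRed_aeval, frE_map, frE_aeval]
    show Polynomial.aeval (intJd (kA A) (N / 1)) _ ≠ 0
    rw [Nat.div_one]
    exact fr_aeval_intJd_ne_zero (kA A) N hN0 _ hD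
  exact (mul_eq_zero.mp h1).resolve_left h3

/-- the same, as an equivalence. -/
theorem fr_rel_res_iff (ℓ : ℕ) (hℓ : ℓ.Prime) (hℓN : ¬ ℓ ∣ N) (hA : A.LiesOverPrime ℓ)
    (P : MvPolynomial (Dv N) A) :
    kronRed A (MvPolynomial.aeval (jRfam N A) P) = 0 ↔
      kronRed A (MvPolynomial.aeval (jRfam N A ∘ frDv) P) = 0 := by
  refine ⟨fr_rel_res N A ℓ hℓ hℓN hA P, fun h => ?_⟩
  have h1 : kronRed A (MvPolynomial.aeval (jRfam N A) (MvPolynomial.rename frDv P)) = 0 := by
    rw [MvPolynomial.aeval_rename]; exact h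
  have h2 := fr_rel_res N A ℓ hℓ hℓN hA _ h1
  rw [MvPolynomial.aeval_rename] at h2
  have h3 : (jRfam N A ∘ frDv) ∘ frDv = jRfam N A := by
    funext d
    simp only [Function.comp_apply, frDv_frDv]
  rwa [h3] at h2

/-- The Fricke involution and the Gauss reduction, polynomial form. -/
theorem fricke_gaussRed_one_of_mv (ℓ : ℕ) (hℓ : ℓ.Prime) (hℓN : ¬ ℓ ∣ N) (hA : A.LiesOverPrime ℓ)
    (x : FF N) (U V : MvPolynomial (Dv N) A)
    (hx : (x : LaurentSeries Kb) * kronIncl A (MvPolynomial.aeval (jRfam N A) V) =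
      kronIncl A (MvPolynomial.aeval (jRfam N A) U))
    (hV : kronRed A (MvPolynomial.aeval (jRfam N A) V) ≠ 0)
    (hUV : kronRed A (MvPolynomial.aeval (jRfam N A) U) =
      kronRed A (MvPolynomial.aeval (jRfam N A) V)) :
    GaussRed N A (frickeAut N x) 1 := by
  refine ⟨MvPolynomial.aeval (jRfam N A ∘ frDv) U, MvPolynomial.aeval (jRfam N A ∘ frDv) V,
    fr_kronIncl_aeval_frDv_mem N A U, fr_kronIncl_aeval_frDv_mem N A V, ?_, ?_, ?_⟩
  · intro h0
    exact hV ((fr_rel_res_iff N A ℓ hℓ hℓN hA V).mpr h0)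
  · rw [fr_kronIncl_aeval, fr_aeval_jBfam, fr_kronIncl_aeval, fr_aeval_jBfam] at hx
    have hx' : x * MvPolynomial.aeval (jFfam N) (MvPolynomial.map A.subtype V) =
        MvPolynomial.aeval (jFfam N) (MvPolynomial.map A.subtype U) := Subtype.ext hx
    have h1 := congrArg (frickeAut N) hx'
    rw [map_mul, frickeAut_aeval, frickeAut_aeval] at h1
    rw [fr_kronIncl_aeval_frDv, fr_aeval_jBfam_frDv, fr_kronIncl_aeval_frDv, fr_aeval_jBfam_frDv]
    exact congrArg Subtype.val h1
  · rw [one_mul]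
    have h1 : kronRed A (MvPolynomial.aeval (jRfam N A) (U - V)) = 0 := by
      rw [map_sub, map_sub, hUV, sub_self]
    have h2 := fr_rel_res N A ℓ hℓ hℓN hA _ h1
    rw [map_sub, map_sub, sub_eq_zero] at h2
    exact h2.symm

/-- **The Fricke involution preserves `≡ 1`** (Gauss reduction form). -/
theorem fricke_gaussRed_one (ℓ : ℕ) (hℓ : ℓ.Prime) (hℓN : ¬ ℓ ∣ N) (hA : A.LiesOverPrime ℓ)
    (x : FF N) (h : GaussRed N A x 1) : GaussRed N A (frickeAut N x) 1 := by
  obtain ⟨Y₁, Y₂, hY₁m, hY₂m, hY₂, hx, hw⟩ := h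
  rw [one_mul] at hw
  obtain ⟨D₁, R₁, hD₁, hDY₁, -⟩ := frRed_expand_mv N A ℓ hℓ hℓN hA Y₁ hY₁m
  obtain ⟨D₂, R₂, hD₂, hDY₂, -⟩ := frRed_expand_mv N A ℓ hℓ hℓN hA Y₂ hY₂m
  have hU : MvPolynomial.aeval (jRfam N A) (R₁ * frE N D₂) =
      Polynomial.aeval (jqModC A) D₁ * Polynomial.aeval (jqModC A) D₂ * Y₁ := by
    rw [map_mul, frE_aeval, jRfam_one, ← hDY₁]
    ring
  have hV : MvPolynomial.aeval (jRfam N A) (frE N D₁ * R₂) =
      Polynomial.aeval (jqModC A) D₁ * Polynomial.aeval (jqModC A) D₂ * Y₂ := by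
    rw [map_mul, frE_aeval, jRfam_one, ← hDY₂]
    ring
  have hne : ∀ D : Polynomial A, D.map (IsLocalRing.residue A) ≠ 0 →
      kronRed A (Polynomial.aeval (jqModC A) D) ≠ 0 := by
    intro D hD
    rw [redDVR_coeffMap_aeval, coeffMap_jqModC, ← intJd_one]
    exact fr_aeval_intJd_ne_zero (kA A) 1 one_ne_zero _ hD
  refine fricke_gaussRed_one_of_mv N A ℓ hℓ hℓN hA x (R₁ * frE N D₂) (frE N D₁ * R₂) ?_ ?_ ?_
  · rw [hU, hV, map_mul (kronIncl A) _ Y₂, map_mul (kronIncl A) _ Y₁, ← hx]
    ring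
  · rw [hV, map_mul (kronRed A) _ Y₂, map_mul (kronRed A)]
    exact mul_ne_zero (mul_ne_zero (hne D₁ hD₁) (hne D₂ hD₂)) hY₂
  · rw [hU, hV, map_mul (kronRed A) _ Y₁, map_mul (kronRed A) _ Y₂, hw]

/-- **The Fricke involution preserves `≡ 1`**: clause 2 of `StmtFricke`. -/
theorem fricke_reducesToOne (ℓ : ℕ) (hℓ : ℓ.Prime) (hℓN : ¬ ℓ ∣ N) (hA : A.LiesOverPrime ℓ)
    (x : FF N) (h : G2.ReducesToOne A N x) : G2.ReducesToOne A N (frickeAut N x) :=
  (gr_reducesToOne_iff N A _).mpr
    (fricke_gaussRed_one N A ℓ hℓ hℓN hA x ((gr_reducesToOne_iff N A x).mp h))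

end Concrete

end Fermat.Agent.ES.M
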