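import Mathlib

/-!
# ES / M (route 2, `π`-adic approximation): Artin–Rees for a finitely generated submodule of `ι → A`

`A` a discrete valuation ring with uniformiser `ϖ`, `ι` an arbitrary index type (the exponents of a
Laurent series), `N ⊆ ι → A` a finitely generated submodule.  Then there is `κ` such that an element
of `N` all of whose coordinates are divisible by `ϖ ^ (s + κ)` lies in `ϖ ^ s • N`.

Proof: induction on the number of generators.  Divide all generators by the largest common power
of `ϖ`; then some entry of some generator is a unit, and that generator can be split off.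
-/

set_option autoImplicit false

namespace Fermat.Agent.ES.M

variable {A ι : Type*} [CommRing A] [IsDomain A] [IsDiscreteValuationRing A]

/-- the Artin–Rees property of a submodule of `ι → A` -/
def ARCoord (ϖ : A) (N : Submodule A (ι → A)) : Prop :=
  ∃ κ : ℕ, ∀ s : ℕ, ∀ x ∈ N, (∀ i, ϖ ^ (s + κ) ∣ x i) → ∃ y ∈ N, x = ϖ ^ s • y

omit [IsDomain A] [IsDiscreteValuationRing A] in
theorem arCoord_bot (ϖ : A) : ARCoord ϖ (⊥ : Submodule A (ι → A)) := by
  refine ⟨0, fun s x hx _ => ⟨0, Submodule.zero_mem _, ?_⟩⟩
  rw [(Submodule.mem_bot A).1 hx, smul_zero]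

omit [IsDiscreteValuationRing A] in
/-- scaling step: `N = ϖ ^ d • N'` -/
theorem arCoord_of_scale {ϖ : A} (hϖ : ϖ ≠ 0) (d : ℕ) {N N' : Submodule A (ι → A)}
    (h1 : ∀ x ∈ N, ∃ x' ∈ N', x = ϖ ^ d • x') (h2 : ∀ x' ∈ N', ϖ ^ d • x' ∈ N)
    (h : ARCoord ϖ N') : ARCoord ϖ N := by
  obtain ⟨κ, hκ⟩ := h
  refine ⟨κ + d, fun s x hx hdiv => ?_⟩
  obtain ⟨x', hx', rfl⟩ := h1 x hx
  have hdiv' : ∀ i, ϖ ^ (s + κ) ∣ x' i := by
    intro i
    have := hdiv i
    rw [Pi.smul_apply, smul_eq_mul, ← add_assoc, pow_add, mul_comm (ϖ ^ (s + κ)) (ϖ ^ d)] at this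
    exact (mul_dvd_mul_iff_left (pow_ne_zero d hϖ)).1 this
  obtain ⟨y', hy', rfl⟩ := hκ s x' hx' hdiv'
  exact ⟨ϖ ^ d • y', h2 y' hy', smul_comm _ _ _⟩

omit [IsDomain A] [IsDiscreteValuationRing A] in
/-- pivot step: split off a generator with a unit entry -/
theorem arCoord_of_pivot {ϖ : A} {N N₁ : Submodule A (ι → A)} (g : ι → A) (hg : g ∈ N)
    (i₀ : ι) (hu : IsUnit (g i₀)) (hle : N₁ ≤ N) (h0 : ∀ x ∈ N₁, x i₀ = 0)
    (hdec : ∀ x ∈ N, ∃ c : A, x - c • g ∈ N₁) (h : ARCoord ϖ N₁) : ARCoord ϖ N := by
  obtain ⟨κ, hκ⟩ := h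
  refine ⟨κ, fun s x hx hdiv => ?_⟩
  obtain ⟨c, hc⟩ := hdec x hx
  have hxi : x i₀ = c * g i₀ := by
    have := h0 _ hc
    rw [Pi.sub_apply, Pi.smul_apply, smul_eq_mul, sub_eq_zero] at this
    exact this
  have hcdiv : ϖ ^ (s + κ) ∣ c := by
    have h1 := hdiv i₀
    rw [hxi] at h1
    exact (hu.dvd_mul_right).1 h1
  obtain ⟨c', rfl⟩ := hcdiv
  have hdiv1 : ∀ i, ϖ ^ (s + κ) ∣ (x - (ϖ ^ (s + κ) * c') • g) i := by
    intro i
    rw [Pi.sub_apply, Pi.smul_apply, smul_eq_mul, mul_assoc]
    exact dvd_sub (hdiv i) (dvd_mul_right _ _)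
  obtain ⟨y₁, hy₁, hxy⟩ := hκ s _ hc hdiv1
  refine ⟨(ϖ ^ κ * c') • g + y₁, N.add_mem (N.smul_mem _ hg) (hle hy₁), ?_⟩
  rw [smul_add, ← hxy, smul_smul, ← mul_assoc, ← pow_add]
  abel

/-- the minimal valuation among the entries of finitely many vectors, not all zero -/
theorem exists_min_entry {ϖ : A} (hϖ : Irreducible ϖ) {κ : Type*} (g : κ → ι → A)
    (hne : ∃ k i, g k i ≠ 0) :
    ∃ (d : ℕ) (k₀ : κ) (i₀ : ι) (u : Aˣ), g k₀ i₀ = ϖ ^ d * u ∧ ∀ k i, ϖ ^ d ∣ g k i := by
  classical
  have hex : ∃ d : ℕ, ∃ (k : κ) (i : ι) (u : Aˣ), g k i = ϖ ^ d * u := by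
    obtain ⟨k, i, hki⟩ := hne
    obtain ⟨n, u, hu⟩ := IsDiscreteValuationRing.eq_unit_mul_pow_irreducible hki hϖ
    exact ⟨n, k, i, u, by rw [hu, mul_comm]⟩
  obtain ⟨k₀, i₀, u, hu⟩ := Nat.find_spec hex
  refine ⟨Nat.find hex, k₀, i₀, u, hu, fun k i => ?_⟩
  rcases eq_or_ne (g k i) 0 with h0 | h0
  · rw [h0]; exact dvd_zero _
  · obtain ⟨n, v, hv⟩ := IsDiscreteValuationRing.eq_unit_mul_pow_irreducible h0 hϖ
    have hle : Nat.find hex ≤ n := Nat.find_min' hex ⟨k, i, v, by rw [hv, mul_comm]⟩
    rw [hv]
    exact Dvd.dvd.mul_left (pow_dvd_pow ϖ hle) _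

/-- Artin–Rees for the span of `n` vectors -/
theorem arCoord_span_fin {ϖ : A} (hϖ : Irreducible ϖ) :
    ∀ (n : ℕ) (g : Fin n → ι → A), ARCoord ϖ (Submodule.span A (Set.range g)) := by
  intro n
  induction n with
  | zero =>
      intro g
      have : Set.range g = ∅ := Set.range_eq_empty g
      rw [this, Submodule.span_empty]
      exact arCoord_bot ϖ
  | succ n ih =>
      intro g
      by_cases hne : ∃ k i, g k i ≠ 0
      · obtain ⟨d, k₀, i₀, u, hu, hdvd⟩ := exists_min_entry hϖ g hne
        choose g' hg' using hdvd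
        have hgk : ∀ k, g k = ϖ ^ d • g' k := fun k => funext fun i => by
          rw [Pi.smul_apply, smul_eq_mul]; exact hg' k i
        have hu' : g' k₀ i₀ = u := by
          have := hg' k₀ i₀
          rw [hu] at this
          exact (mul_left_cancel₀ (pow_ne_zero d hϖ.ne_zero) this).symm
        refine arCoord_of_scale hϖ.ne_zero d (N' := Submodule.span A (Set.range g')) ?_ ?_ ?_
        · intro x hx
          induction hx using Submodule.span_induction with
          | mem x hx =>
              obtain ⟨k, rfl⟩ := hx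
              exact ⟨g' k, Submodule.subset_span ⟨k, rfl⟩, hgk k⟩
          | zero => exact ⟨0, Submodule.zero_mem _, (smul_zero _).symm⟩
          | add x y _ _ hx hy =>
              obtain ⟨x', hx', rfl⟩ := hx
              obtain ⟨y', hy', rfl⟩ := hy
              exact ⟨x' + y', Submodule.add_mem _ hx' hy', (smul_add _ _ _).symm⟩
          | smul a x _ hx =>
              obtain ⟨x', hx', rfl⟩ := hx
              exact ⟨a • x', Submodule.smul_mem _ a hx', smul_comm _ _ _⟩
        · intro x' hx'
          induction hx' using Submodule.span_induction with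
          | mem x hx =>
              obtain ⟨k, rfl⟩ := hx
              rw [← hgk k]
              exact Submodule.subset_span ⟨k, rfl⟩
          | zero => rw [smul_zero]; exact Submodule.zero_mem _
          | add x y _ _ hx hy => rw [smul_add]; exact Submodule.add_mem _ hx hy
          | smul a x _ hx => rw [smul_comm]; exact Submodule.smul_mem _ a hx
        · -- pivot at `(k₀, i₀)`
          set h : Fin (n + 1) → ι → A := fun k => g' k - (g' k i₀ * ((u⁻¹ : Aˣ) : A)) • g' k₀
            with hh
          have hk₀ : h k₀ = 0 := by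
            rw [hh]
            simp only
            rw [hu', Units.mul_inv, one_smul, sub_self]
          have hmem : ∀ k, h k ∈ Submodule.span A (Set.range g') := fun k =>
            Submodule.sub_mem _ (Submodule.subset_span ⟨k, rfl⟩)
              (Submodule.smul_mem _ _ (Submodule.subset_span ⟨k₀, rfl⟩))
          have hmem₁ : ∀ k, h k ∈ Submodule.span A (Set.range fun j : Fin n => h (k₀.succAbove j)) := by
            intro k
            rcases eq_or_ne k k₀ with rfl | hk
            · rw [hk₀]; exact Submodule.zero_mem _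
            · obtain ⟨j, rfl⟩ := Fin.exists_succAbove_eq hk
              exact Submodule.subset_span ⟨j, rfl⟩
          refine arCoord_of_pivot (N₁ := Submodule.span A (Set.range fun j : Fin n => h (k₀.succAbove j)))
            (g' k₀) (Submodule.subset_span ⟨k₀, rfl⟩) i₀ (by rw [hu']; exact u.isUnit) ?_ ?_ ?_
            (ih _)
          · rw [Submodule.span_le]
            rintro _ ⟨j, rfl⟩
            exact hmem _
          · intro x hx
            induction hx using Submodule.span_induction with
            | mem x hx =>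
                obtain ⟨j, rfl⟩ := hx
                simp only [hh, Pi.sub_apply, Pi.smul_apply, smul_eq_mul]
                rw [hu', mul_assoc, Units.inv_mul, mul_one, sub_self]
            | zero => rfl
            | add x y _ _ hx hy => rw [Pi.add_apply, hx, hy, add_zero]
            | smul a x _ hx => rw [Pi.smul_apply, hx, smul_zero]
          · intro x hx
            induction hx using Submodule.span_induction with
            | mem x hx =>
                obtain ⟨k, rfl⟩ := hx
                exact ⟨g' k i₀ * ((u⁻¹ : Aˣ) : A), hmem₁ k⟩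
            | zero => exact ⟨0, by rw [zero_smul, sub_zero]; exact Submodule.zero_mem _⟩
            | add x y _ _ hx hy =>
                obtain ⟨c, hc⟩ := hx
                obtain ⟨e, he⟩ := hy
                refine ⟨c + e, ?_⟩
                have : x + y - (c + e) • g' k₀ = (x - c • g' k₀) + (y - e • g' k₀) := by
                  rw [add_smul]; abel
                rw [this]
                exact Submodule.add_mem _ hc he
            | smul a x _ hx =>
                obtain ⟨c, hc⟩ := hx
                refine ⟨a * c, ?_⟩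
                have : a • x - (a * c) • g' k₀ = a • (x - c • g' k₀) := by
                  rw [smul_sub, smul_smul]
                rw [this]
                exact Submodule.smul_mem _ a hc
      · have hz : ∀ k, g k = 0 := fun k => funext fun i => by
          by_contra h
          exact hne ⟨k, i, h⟩
        have : Submodule.span A (Set.range g) = ⊥ := by
          rw [Submodule.span_eq_bot]
          rintro _ ⟨k, rfl⟩
          exact hz k
        rw [this]
        exact arCoord_bot ϖ

/-- **Artin–Rees over a discrete valuation ring, coordinate form.** -/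
theorem artinRees_coord {ϖ : A} (hϖ : Irreducible ϖ) (N : Submodule A (ι → A)) (hN : N.FG) :
    ∃ κ : ℕ, ∀ s : ℕ, ∀ x ∈ N, (∀ i, ϖ ^ (s + κ) ∣ x i) → ∃ y ∈ N, x = ϖ ^ s • y := by
  obtain ⟨n, g, hg⟩ := Submodule.fg_iff_exists_fin_generating_family.1 hN
  rw [← hg]
  exact arCoord_span_fin hϖ n g

end Fermat.Agent.ES.M
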