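import Mathlib

/-!
# Route 2 of (INJ) (`NOTES/ES-plan.md`): the core lemma (Steps 3–4), pure algebra

`A` a local ring, `ϖ ∈ A` a non-unit, `R` a commutative ring with a compatible `A`-module
structure (stated with `IsScalarTower`/`SMulCommClass` to avoid instance diamonds on Laurent
series) and with an injective
`A`-linear coordinate map `coord : R → (ι → A)` (e.g. `R = A((q))`, `coord` = coefficients).
`Λ ≤ R` a submodule, `h ∈ R` with `h ≡ 1 mod ϖ`.

* `esm_approx` (Step 3, Newton iteration): if every "error term" `b` of an approximate inverse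
  `a ∈ Λ` of `h` (`a * h - 1 = ϖ ^ s • b`) is congruent mod `ϖ` to an element of `Λ`, then `h` has
  approximate inverses in `Λ` to every order.
* `esm_exists_mul_eq_one` (Step 4, no completion): if moreover the finitely generated module
  `coord (Λ * h + A • 1)` satisfies the Artin–Rees property `ArtinReesFor`, then `h` has an
  honest inverse in `Λ`.
-/

set_option autoImplicit false

namespace Fermat.Agent.ES.M

/-- Artin–Rees property of a submodule `N` of a coordinate module: elements of `N` all of whose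
coordinates are divisible by `ϖ ^ (s + κ)` lie in `ϖ ^ s • N`. -/
def ArtinReesFor (A : Type*) [CommRing A] (ι : Type*) (ϖ : A) (N : Submodule A (ι → A)) : Prop :=
  ∃ κ : ℕ, ∀ s : ℕ, ∀ x ∈ N, (∀ i, ϖ ^ (s + κ) ∣ x i) → ∃ y ∈ N, x = ϖ ^ s • y

section Core

variable {A : Type*} [CommRing A]
variable {R : Type*} [CommRing R] [Module A R] [IsScalarTower A R R] [SMulCommClass A R R]

/-- Step 3 (Newton iteration): approximate inverses of `h` in `Λ` to every order. -/
theorem esm_approx (ϖ : A) (Λ : Submodule A R) (h h₁ : R) (hh : h - 1 = ϖ • h₁)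
    (H3 : ∀ a ∈ Λ, ∀ (s : ℕ) (b : R), a * h - 1 = ϖ ^ s • b →
      ∃ a' ∈ Λ, ∃ b' : R, b - a' = ϖ • b') (s : ℕ) :
    ∃ a ∈ Λ, ∃ b : R, a * h - 1 = ϖ ^ s • b := by
  induction s with
  | zero => exact ⟨0, Λ.zero_mem, -1, by simp⟩
  | succ s ih =>
    obtain ⟨a, ha, b, hab⟩ := ih
    obtain ⟨a', ha', b', hb'⟩ := H3 a ha s b hab
    refine ⟨a - ϖ ^ s • a', Λ.sub_mem ha (Λ.smul_mem _ ha'), b' - a' * h₁, ?_⟩
    have h1 : h = 1 + ϖ • h₁ := by rw [← hh]; ring
    have h2 : b = a' + ϖ • b' := by rw [← hb']; ring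
    have e : (a - ϖ ^ s • a') * h - 1 = (a * h - 1) - ϖ ^ s • (a' * h) := by
      rw [sub_mul, smul_mul_assoc]; ring
    rw [e, hab, h2, h1, mul_add, mul_one, mul_smul_comm, pow_succ]
    module

variable {ι : Type*}

/-- Step 4: an honest inverse of `h` in `Λ`, from approximate inverses and Artin–Rees. -/
theorem esm_exists_mul_eq_one [IsLocalRing A] {ϖ : A} (hϖ : ¬ IsUnit ϖ)
    (coord : R →ₗ[A] (ι → A)) (hinj : Function.Injective coord)
    (Λ : Submodule A R) (h h₁ : R) (hh : h - 1 = ϖ • h₁)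
    (hAR : ArtinReesFor A ι ϖ
      (Submodule.map coord (Submodule.map (LinearMap.mulRight A h) Λ ⊔ Submodule.span A {1})))
    (H3 : ∀ a ∈ Λ, ∀ (s : ℕ) (b : R), a * h - 1 = ϖ ^ s • b →
      ∃ a' ∈ Λ, ∃ b' : R, b - a' = ϖ • b') :
    ∃ a ∈ Λ, a * h = 1 := by
  obtain ⟨κ, hκ⟩ := hAR
  obtain ⟨a, ha, b, hab⟩ := esm_approx ϖ Λ h h₁ hh H3 (1 + κ)
  have hxN : coord (a * h - 1) ∈
      Submodule.map coord (Submodule.map (LinearMap.mulRight A h) Λ ⊔ Submodule.span A {1}) := by
    refine Submodule.mem_map_of_mem (Submodule.sub_mem _ ?_ ?_)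
    · exact Submodule.mem_sup_left (Submodule.mem_map.2 ⟨a, ha, rfl⟩)
    · exact Submodule.mem_sup_right (Submodule.subset_span rfl)
  have hdiv : ∀ i, ϖ ^ (1 + κ) ∣ coord (a * h - 1) i := by
    intro i
    rw [hab, map_smul]
    exact ⟨coord b i, by simp [Pi.smul_apply, smul_eq_mul]⟩
  obtain ⟨y, hy, hxy⟩ := hκ 1 _ hxN hdiv
  obtain ⟨z, hz, rfl⟩ := Submodule.mem_map.1 hy
  obtain ⟨w, hw, c, hc, rfl⟩ := Submodule.mem_sup.1 hz
  obtain ⟨a'', ha'', rfl⟩ := Submodule.mem_map.1 hw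
  obtain ⟨t, rfl⟩ := Submodule.mem_span_singleton.1 hc
  rw [pow_one, ← map_smul] at hxy
  have hxy' := hinj hxy
  simp only [LinearMap.mulRight_apply] at hxy'
  have hu : IsUnit (1 + ϖ * t) := by
    have hn : -(ϖ * t) ∈ nonunits A := by
      have h0 : ϖ * t ∈ nonunits A := fun hc => hϖ (isUnit_of_mul_isUnit_left hc)
      rwa [mem_nonunits_iff, IsUnit.neg_iff] at *
    have := IsLocalRing.isUnit_one_sub_self_of_mem_nonunits _ hn
    rwa [sub_neg_eq_add] at this
  obtain ⟨u, hu'⟩ := hu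
  refine ⟨(↑u⁻¹ : A) • (a - ϖ • a''), Λ.smul_mem _ (Λ.sub_mem ha (Λ.smul_mem _ ha'')), ?_⟩
  have key : (a - ϖ • a'') * h = (u : A) • (1 : R) := by
    have : (a - ϖ • a'') * h = (a * h - 1) - ϖ • (a'' * h) + 1 := by
      rw [sub_mul, smul_mul_assoc]; ring
    rw [this, hxy', hu', smul_add, add_smul, one_smul, mul_smul]
    ring
  rw [smul_mul_assoc, key, smul_smul, Units.inv_mul, one_smul]

end Core

end Fermat.Agent.ES.M
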