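import Fermat.Agent.ES.M.GluePlan
import Fermat.Agent.ES.M.CuspInfty

/-!
# ES / M — route 2, piece MV: the moving lemma (Step A)

`stmtMoveOf : StmtMoveOf`: for `f ≡ 1` with `p ∣ div f` there is `g ≡ 1`, `g ≠ 0`, with
`g ^ p * f` regular outside the cusp `∞`.

Proof.  `D := div f / p` (degree `0`), `n ≥ max n₀ g`, `r := n + 1 - g`.  Riemann's inequality gives
`r` independent elements of `L(D + n ∞)`; by (Q2) we may assume that their reductions `w i` are
independent.  By Lemma W the `w i` lie in `W_n`, whose dimension is `≤ r` by (I2): so they span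
`W_n ∋ 1`.  Lift the coefficients of `1 = Σ c̄ i • w i` to `A`; `g := Σ c i • b i`.
-/

set_option autoImplicit false

noncomputable section

namespace Fermat.Agent.ES.M

open ModularCurve AlgebraicCurve HahnSeries Fermat.Agent.ES Fermat.Agent.S24

variable (N : ℕ) [NeZero N] (A : ValuationSubring Kb)

/-- `0` reduces to `0`. -/
theorem mv_gaussRed_zero (gr : GRApi N A) : GaussRed N A 0 0 := by
  have h := gr.smul 0 1 1 gr.one
  simpa using h

/-- finite `A`-linear combinations reduce to the reduced linear combination -/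
theorem mv_gaussRed_sum (gr : GRApi N A) {r : ℕ} (c : Fin r → A) (b : Fin r → FF N)
    (w : Fin r → LaurentSeries (kA A)) (hb : ∀ i, GaussRed N A (b i) (w i))
    (s : Finset (Fin r)) :
    GaussRed N A (∑ i ∈ s, algebraMap Kb (FF N) (c i : Kb) * b i)
      (∑ i ∈ s, HahnSeries.C (IsLocalRing.residue A (c i)) * w i) := by
  induction s using Finset.induction_on with
  | empty => simpa using mv_gaussRed_zero N A gr
  | insert a s ha ih =>
    rw [Finset.sum_insert ha, Finset.sum_insert ha]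
    exact gr.add _ _ _ _ (gr.smul _ _ _ (hb a)) ih

omit [NeZero N] in
/-- `1 ∈ W_n` -/
theorem mv_one_mem_Wn (n : ℕ) : (1 : LaurentSeries (kA A)) ∈ Wn N A n := by
  refine ⟨⟨one_mem _, isIntegral_one⟩, fun m hm => ?_⟩
  have hm0 : m ≠ 0 := by omega
  rw [HahnSeries.coeff_one, if_neg hm0]

end Fermat.Agent.ES.M

namespace Fermat.Agent.ES.M

open ModularCurve AlgebraicCurve HahnSeries Fermat.Agent.ES Fermat.Agent.S24

/-- **piece MV** (Step A, the moving lemma) -/
theorem stmtMoveOf : StmtMoveOf := by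
  intro N _ A gr lw hRedF hLRa hQ2 hR hI2 p hp f hf hf1 hdiv
  obtain ⟨Pinf, hPinf, hdeg⟩ := exists_isCuspInfty N
  obtain ⟨D, hD, hD0⟩ := lw.exists_div p hp.pos f hf hdiv
  obtain ⟨n₀, hn₀⟩ := hI2
  obtain ⟨hfin, hrank⟩ := hn₀ (max n₀ (gN N)) (le_max_left _ _)
  have hgn : gN N ≤ max n₀ (gN N) := le_max_right _ _
  generalize max n₀ (gN N) = n at hfin hrank hgn
  have hdegE : Divisor.degree (D + Finsupp.single Pinf (n : ℤ)) = n := by
    rw [map_add, hD0, Divisor.degree_single, hdeg]; simp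
  obtain ⟨a, ha, haL⟩ := lw.exists_indep hR (D + Finsupp.single Pinf (n : ℤ)) (n + 1 - gN N)
    (by rw [hdegE]; omega)
  obtain ⟨b, w, hb, hbw, hw⟩ := hQ2 (n + 1 - gN N) a ha
  have hbL : ∀ i, b i ∈ riemannRochSpace (D + Finsupp.single Pinf (n : ℤ)) := fun i =>
    (Submodule.span_le.mpr (by rintro _ ⟨j, rfl⟩; exact haL j)) (hb i)
  have hf1' : GaussRed N A f 1 := (gr.reducesToOne_iff f).mp hf1
  have hwW : ∀ i, w i ∈ Wn N A n := fun i =>
    lw.mem_Wn hRedF hLRa p hp.pos f hf hf1' D hD Pinf hPinf n (b i) (hbL i) (w i) (hbw i)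
  -- the `w i` span `W_n`
  have hw' : LinearIndependent (kA A) (fun i => (⟨w i, hwW i⟩ : ↥(Wn N A n))) :=
    LinearIndependent.of_comp (Wn N A n).subtype hw
  have hcard : Fintype.card (Fin (n + 1 - gN N)) = Module.finrank (kA A) ↥(Wn N A n) := by
    have h1 := hw'.fintype_card_le_finrank
    rw [Fintype.card_fin] at h1 ⊢
    omega
  have hspan := hw'.span_eq_top_of_card_eq_finrank' hcard
  have h1 : (⟨1, mv_one_mem_Wn N A n⟩ : ↥(Wn N A n)) ∈
      Submodule.span (kA A) (Set.range fun i => (⟨w i, hwW i⟩ : ↥(Wn N A n))) := by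
    rw [hspan]; trivial
  obtain ⟨cbar, hcbar⟩ := (Submodule.mem_span_range_iff_exists_fun _).mp h1
  have hcbar' : ∑ i, cbar i • w i = 1 := by
    have := congrArg (Wn N A n).subtype hcbar
    simpa using this
  choose c hc using fun i => IsLocalRing.residue_surjective (R := A) (cbar i)
  have hsum := mv_gaussRed_sum N A gr c b w hbw Finset.univ
  have hred : (∑ i, HahnSeries.C (IsLocalRing.residue A (c i)) * w i) = 1 := by
    rw [← hcbar']
    refine Finset.sum_congr rfl fun i _ => ?_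
    rw [hc i, HahnSeries.C_mul_eq_smul]
  rw [hred] at hsum
  have hgL : (∑ i, algebraMap Kb (FF N) (c i : Kb) * b i) ∈
      riemannRochSpace (D + Finsupp.single Pinf (n : ℤ)) := by
    refine Submodule.sum_mem _ fun i _ => ?_
    rw [← Algebra.smul_def]
    exact Submodule.smul_mem _ _ (hbL i)
  refine ⟨∑ i, algebraMap Kb (FF N) (c i : Kb) * b i, gr.ne_zero _ _ hsum one_ne_zero,
    (gr.reducesToOne_iff _).mpr hsum, ?_⟩
  exact (lw.regOut p hp.pos f D hD Pinf hPinf n _ hgL).1

end Fermat.Agent.ES.M
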