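import Fermat.Agent.ES.M.GluePlan
import Fermat.Agent.ES.M.CuspInfty

/-!
# ES / M, glue piece NM (Step B): Fricke normalisation

`stmtNormalizeOf : StmtNormalizeOf`.  Given `u ≡ 1` with `p ∣ div u`: apply the moving lemma
(Step A) to `w u` (`w` the Fricke involution), get `g' ≡ 1` with `g' ^ p * w u` regular outside
`∞`; then `f₁ := w (g' ^ p * w u) = (w g') ^ p * u` is `≡ 1`, has poles only at cusps and no
negative `q`-coefficients, hence (Lemma R) it is a power series over `A` with reduction `1`.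
Its constant coefficient `c` is a unit `≡ 1`; with `c₀ ^ p = c` the function
`(w g' / c₀) ^ p * u = f₁ / c` is normal.
-/

set_option autoImplicit false

noncomputable section

namespace Fermat.Agent.ES.M

open ModularCurve AlgebraicCurve HahnSeries Fermat.Agent.ES Fermat.Agent.S24

/-- A Laurent series without negative coefficients is a power series. -/
theorem nm_exists_powerSeries {R : Type*} [CommRing R] (Y : LaurentSeries R)
    (hY : ∀ n : ℤ, n < 0 → Y.coeff n = 0) :
    ∃ G : PowerSeries R, HahnSeries.ofPowerSeries ℤ R G = Y ∧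
      PowerSeries.constantCoeff G = Y.coeff 0 := by
  refine ⟨PowerSeries.mk fun n => Y.coeff (n : ℤ), ?_, ?_⟩
  · ext i
    rw [PowerSeries.coeff_coe]
    split_ifs with hi
    · exact (hY i hi).symm
    · rw [PowerSeries.coeff_mk]
      congr 1
      rw [not_lt] at hi
      exact Int.natAbs_of_nonneg hi
  · rw [← PowerSeries.coeff_zero_eq_constantCoeff_apply, PowerSeries.coeff_mk]
    rfl

/-- **NM** (Step B of the glue of route 2). -/
theorem stmtNormalizeOf : StmtNormalizeOf := by
  intro N _ A gr hMove hFr hLRa p hp u hu hu1 hdiv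
  obtain ⟨w, hww, hw1, hwP, hwR⟩ := hFr
  -- Step A for `w u`
  have hwu0 : w u ≠ 0 := by
    intro h
    apply hu
    have := congrArg w h
    rw [hww, map_zero] at this
    exact this
  have hdivw : ∀ P : Place Kb (FF N), (p : ℤ) ∣ P.ord (w u) := by
    intro P
    have h1 := Place.ord_smul w (w⁻¹ • P) u
    rw [smul_inv_smul] at h1
    rw [h1]
    exact hdiv _
  obtain ⟨g', hg'0, hg'1, hreg⟩ := hMove p hp (w u) hwu0 (hw1 u hu1) hdivw
  -- `f₁ = w (g' ^ p * w u) = (w g') ^ p * u`
  have hf₁ : w (g' ^ p * w u) = (w g') ^ p * u := by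
    rw [map_mul, map_pow, hww]
  have hx1 : G2.ReducesToOne A N (g' ^ p * w u) := by
    rw [gr.reducesToOne_iff]
    have h1 := gr.pow g' 1 p ((gr.reducesToOne_iff _).mp hg'1)
    have h2 := gr.mul _ _ _ _ h1 ((gr.reducesToOne_iff _).mp (hw1 u hu1))
    rwa [one_pow, one_mul] at h2
  have hf1 : GaussRed N A (w (g' ^ p * w u)) 1 := (gr.reducesToOne_iff _).mp (hw1 _ hx1)
  have hfP : PolesAtCusps N (w (g' ^ p * w u)) := hwP _ hreg.polesAtCusps
  have hfneg : ∀ n : ℤ, n < 0 →
      ((w (g' ^ p * w u) : FF N) : LaurentSeries Kb).coeff n = 0 := hwR _ hreg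
  have hfint : KronInt A ((w (g' ^ p * w u) : FF N) : LaurentSeries Kb) :=
    hLRa _ hfP ⟨1, hf1⟩
  obtain ⟨Y, hY⟩ := hfint.exists_lift
  have hYneg : ∀ n : ℤ, n < 0 → Y.coeff n = 0 := by
    intro n hn
    have h1 := hfneg n hn
    rw [← hY, coeffMap_coeff] at h1
    exact Subtype.ext h1
  obtain ⟨G, hG, hGc⟩ := nm_exists_powerSeries Y hYneg
  -- the reduction of `Y` is `1`
  have hYmem : kronIncl A Y ∈ modularFunctionFieldBar N := by
    rw [hY]
    exact Subtype.mem _
  have hYeq : (⟨kronIncl A Y, hYmem⟩ : FF N) = w (g' ^ p * w u) := Subtype.ext hY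
  have hred : kronRed A Y = 1 := by
    have h1 := gr.of_incl Y hYmem
    rw [hYeq] at h1
    exact gr.unique _ _ _ h1 hf1
  -- the constant coefficient
  set c : A := Y.coeff 0 with hc
  have hc1 : IsLocalRing.residue A c = 1 := by
    have h1 := congrArg (fun z : LaurentSeries (kA A) => z.coeff 0) hred
    simp only [coeffMap_coeff] at h1
    rw [h1]
    rw [HahnSeries.coeff_one, if_pos rfl]
  have hcu : IsUnit c := by
    by_contra hnu
    have h0 : IsLocalRing.residue A c = 0 :=
      (IsLocalRing.residue_eq_zero_iff c).mpr ((IsLocalRing.mem_maximalIdeal c).mpr hnu)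
    rw [h0] at hc1
    exact zero_ne_one hc1
  obtain ⟨d, hd⟩ := hcu.exists_left_inv
  have hd1 : IsLocalRing.residue A d = 1 := by
    have h1 := congrArg (IsLocalRing.residue A) hd
    rw [map_mul, hc1, mul_one, map_one] at h1
    exact h1
  have hcK : (c : Kb) ≠ 0 := by
    intro h0
    have : c = 0 := Subtype.ext h0
    rw [this, mul_zero] at hd
    exact zero_ne_one hd
  have hdK : (d : Kb) = (c : Kb)⁻¹ := by
    have h1 := congrArg (Subtype.val) hd
    have h2 : (d : Kb) * (c : Kb) = 1 := h1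
    exact eq_inv_of_mul_eq_one_left h2
  obtain ⟨c₀, hc₀⟩ := IsAlgClosed.exists_pow_nat_eq (c : Kb) hp.pos
  have hc₀0 : c₀ ≠ 0 := by
    rintro rfl
    rw [zero_pow hp.ne_zero] at hc₀
    exact hcK hc₀.symm
  -- the normalised function
  have hwg'0 : w g' ≠ 0 := by
    intro h
    apply hg'0
    have := congrArg w h
    rw [hww, map_zero] at this
    exact this
  refine ⟨w g' * algebraMap Kb (FF N) c₀⁻¹, mul_ne_zero hwg'0 ?_, ?_⟩
  · rw [Ne, map_eq_zero]
    exact inv_ne_zero hc₀0
  refine ⟨PowerSeries.C d * G, ?_, ?_, ?_⟩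
  · rw [map_mul, PowerSeries.constantCoeff_C, hGc, hd]
  · rw [map_mul, map_mul, HahnSeries.ofPowerSeries_C, hG, hY]
    have h1 : kronIncl A (HahnSeries.C d) = algebraMap Kb (LaurentSeries Kb) (d : Kb) := by
      rw [algebraMap_eq_hahnC]
      show coeffMap A.subtype (HahnSeries.single 0 d) = _
      rw [coeffMap_single]
      rfl
    rw [h1, hf₁, hdK, ← hc₀]
    have h2 : (((w g' * algebraMap Kb (FF N) c₀⁻¹) ^ p * u : FF N) : LaurentSeries Kb)
        = ((w g' : FF N) : LaurentSeries Kb) ^ p *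
            (algebraMap Kb (LaurentSeries Kb) c₀⁻¹) ^ p * (u : LaurentSeries Kb) := by
      rw [mul_pow]
      rfl
    have h3 : (((w g') ^ p * u : FF N) : LaurentSeries Kb)
        = ((w g' : FF N) : LaurentSeries Kb) ^ p * (u : LaurentSeries Kb) := rfl
    rw [h2, h3, ← map_pow, inv_pow]
    ring
  · rw [map_mul, map_mul, HahnSeries.ofPowerSeries_C, hG, hred, mul_one]
    show coeffMap (IsLocalRing.residue A) (HahnSeries.single 0 d) = 1
    rw [coeffMap_single, hd1]
    rfl

end Fermat.Agent.ES.M
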