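import Fermat.Agent.ES.M.Plan
import Fermat.Agent.INJ.Stmt

/-!
# ES / M: from the route-2 output `StmtInjAt` to the (INJ) campaign statement `INJ.StmtINJ`

`Fermat.Agent.INJ.StmtINJ N ℓ p` (series over `A`, all `A` over `ℓ`) follows from
`StmtInjAt N A ℓ` for all `A` over `ℓ`.  This is the converse direction of
`Fermat.Agent.ES.G2.stmtInjPrime_of_stmtINJAll`; it lets route 2 use the level descent
`INJ/DescentLevel.lean`, which is stated for `StmtINJ`.
-/

set_option autoImplicit false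

noncomputable section

namespace Fermat.Agent.ES.M

open ModularCurve AlgebraicCurve Fermat.Agent.ES Fermat.Agent.S24

/-- (INJ) at `(N, A)` for ONE exponent `p` (fraction form of `ES/G2/Plan.lean`). -/
def InjAtP (N : ℕ) [NeZero N] (A : ValuationSubring Kb) (p : ℕ) : Prop :=
  ∀ u : FF N, u ≠ 0 → G2.ReducesToOne A N u →
    (∀ P : Place Kb (FF N), (p : ℤ) ∣ P.ord u) → ∃ h : FF N, h ^ p = u

theorem stmtInjAt_iff (N : ℕ) [NeZero N] (A : ValuationSubring Kb) (ℓ : ℕ) :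
    StmtInjAt N A ℓ ↔ ∀ p : ℕ, p.Prime → p ≠ ℓ → InjAtP N A p := Iff.rfl

/-- the fraction form gives the series form -/
theorem stmtINJ_of_injAtP (N ℓ p : ℕ) [NeZero N]
    (h : ∀ A : ValuationSubring Kb, A.LiesOverPrime ℓ → InjAtP N A p) :
    Fermat.Agent.INJ.StmtINJ N ℓ p := by
  intro A hA Y₁ Y₂ h₁ h₂ heq hne hord
  have hne₁ : kronRed A Y₁ ≠ 0 := by
    show coeffMap (IsLocalRing.residue A) Y₁ ≠ 0
    rw [heq]; exact hne
  have hY₂ne : (⟨coeffMap A.subtype Y₂, h₂⟩ : modularFunctionFieldBar N) ≠ 0 := by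
    intro h0
    apply hne
    have h1 : kronIncl A Y₂ = 0 := congrArg Subtype.val h0
    have h2 : Y₂ = 0 := kronIncl_injective (by rw [h1, map_zero])
    rw [h2, map_zero]
  have hY₁ne : (⟨coeffMap A.subtype Y₁, h₁⟩ : modularFunctionFieldBar N) ≠ 0 := by
    intro h0
    apply hne₁
    have h1 : kronIncl A Y₁ = 0 := congrArg Subtype.val h0
    have h2 : Y₁ = 0 := kronIncl_injective (by rw [h1, map_zero])
    rw [h2, map_zero]
  set y₁ : modularFunctionFieldBar N := ⟨coeffMap A.subtype Y₁, h₁⟩ with hy₁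
  set y₂ : modularFunctionFieldBar N := ⟨coeffMap A.subtype Y₂, h₂⟩ with hy₂
  set u : modularFunctionFieldBar N := y₁ * y₂⁻¹ with hu
  have hu0 : u ≠ 0 := mul_ne_zero hY₁ne (inv_ne_zero hY₂ne)
  have huy : u * y₂ = y₁ := by
    rw [hu, mul_assoc, inv_mul_cancel₀ hY₂ne, mul_one]
  have hred : G2.ReducesToOne A N u := by
    refine ⟨kronIncl A Y₁, kronIncl A Y₂, h₁, h₂, (kronPrim_kronIncl_iff Y₁).2 hne₁,
      (kronPrim_kronIncl_iff Y₂).2 hne, (kronCongr_kronIncl_iff Y₁ Y₂).2 heq, ?_⟩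
    exact congrArg Subtype.val huy
  obtain ⟨w, hw⟩ := h A hA u hu0 hred (fun P => by
    have h1 : P.ord u = P.ord y₁ - P.ord y₂ := by
      rw [hu, P.ord_mul hY₁ne (inv_ne_zero hY₂ne), P.ord_inv]; ring
    rw [h1]
    exact hord P)
  exact ⟨w, by rw [hw, huy]⟩

end Fermat.Agent.ES.M
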