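import Fermat.Agent.ES.M.GluePlan
import Fermat.Agent.ES.M.GaussRed
import Fermat.Agent.ES.M.LemmaW
import Fermat.Agent.ES.M.Move
import Fermat.Agent.ES.M.Normalize
import Fermat.Agent.ES.M.RedF
import Fermat.Agent.ES.M.Q2
import Fermat.Agent.ES.M.ToINJ
import Fermat.Agent.ES.Riemann
import Fermat.Agent.ES.LR.Final
import Fermat.Agent.ES.G2.Prim
import Fermat.Agent.ES.G2.InjBridge
import Fermat.Agent.INJ.DescentLevel
import Fermat.Agent.ES.I2aux.Target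

/-!
# ES / M (route 2, `π`-adic INJ): the final assembly

Everything of route 2 that is landed is wired here; the pieces still open are hypotheses:

* `StmtRootOf`     — Step C (Newton), piece RT of `GluePlan.lean`;
* `StmtFrickeAll`  — the Fricke involution;
* `StmtI2All`      — `dim W_n ≤ n + 1 - g` for `ℓ ≥ 5` (`ES/I2/*`);
* `StmtI2AuxAll`   — the same for `ℓ ∈ {2, 3}` at the levels divisible by `5 - ℓ`
  (`ES/I2aux/Target.lean`, `ES/I2aux/*`).

Output: `Fermat.Agent.INJ.StmtINJAll` and `Fermat.Agent.ES.G2.StmtInjPrime`.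

Levels: `ℓ ≥ 5`, `N ≥ 2`: the glue directly.  `ℓ ≥ 5`, `N = 1`: descent from the level `2`
(`p ≠ 3`) or `3` (`p = 3`).  `ℓ = 3`: descent from `lcm 2 N`; `ℓ = 2`: descent from `lcm 3 N`
(`INJ/DescentLevel.lean`).
-/

set_option autoImplicit false

noncomputable section

namespace Fermat.Agent.ES.M

open ModularCurve AlgebraicCurve Fermat.Agent.ES Fermat.Agent.S24

/-- the glue with all the landed pieces inserted: `(I2)` at `(N, A)` gives (INJ) at `(N, A)` -/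
theorem stmtInjAt_of_I2 (hRT : StmtRootOf) (hFr : StmtFrickeAll)
    (N : ℕ) [NeZero N] (ℓ : ℕ) (hℓ : ℓ.Prime) (hℓN : ¬ ℓ ∣ N) (hN : 2 ≤ N)
    (A : ValuationSubring Kb) (hA : A.LiesOverPrime ℓ) (hI2 : StmtI2 N A) :
    StmtInjAt N A ℓ :=
  stmtGlue_of_pieces stmtGRApi stmtLWApi stmtMoveOf stmtNormalizeOf hRT N ℓ hℓ hℓN hN A hA
    (stmtRedFAll N ℓ hℓ hℓN A hA) (Fermat.Agent.ES.LR.stmtLRaAll N ℓ hℓ hℓN A hA)
    (stmtQ2All N ℓ hℓ hℓN A hA) (hFr N ℓ hℓ hℓN hN A hA) (Fermat.Agent.ES.R.stmtRAll N) hI2 G2.stmtPrim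

/-- (INJ) in the series form at a level `N ≥ 2` where `(I2)` is known for all `A` over `ℓ` -/
theorem stmtINJ_of_I2 (hRT : StmtRootOf) (hFr : StmtFrickeAll)
    (N : ℕ) [NeZero N] (ℓ p : ℕ) (hℓ : ℓ.Prime) (hp : p.Prime) (hℓN : ¬ ℓ ∣ N) (hℓp : ℓ ≠ p)
    (hN : 2 ≤ N)
    (hI2 : ∀ A : ValuationSubring Kb, A.LiesOverPrime ℓ → StmtI2 N A) :
    Fermat.Agent.INJ.StmtINJ N ℓ p :=
  stmtINJ_of_injAtP N ℓ p fun A hA =>
    stmtInjAt_of_I2 hRT hFr N ℓ hℓ hℓN hN A hA (hI2 A hA) p hp (fun h => hℓp h.symm)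

/-- **route 2, final assembly**: the open pieces give the target of the (INJ) campaign -/
theorem stmtINJAll_of_route2 (hRT : StmtRootOf) (hFr : StmtFrickeAll) (hI2 : StmtI2All)
    (hI2aux : StmtI2AuxAll) : Fermat.Agent.INJ.StmtINJAll := by
  intro N ℓ p hN hℓ hp hℓN hℓp
  have : NeZero N := ⟨hN⟩
  by_cases h5 : 5 ≤ ℓ
  · -- `ℓ ≥ 5`
    by_cases h2 : 2 ≤ N
    · exact stmtINJ_of_I2 hRT hFr N ℓ p hℓ hp hℓN hℓp h2 (fun A hA => hI2 N ℓ hℓ h5 hℓN A hA)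
    · -- `N = 1`: descent from the level `3` (`p = 3`) or `2` (`p ≠ 3`)
      have hN1 : N = 1 := by omega
      subst hN1
      by_cases hp3 : p = 3
      · have h3 : ¬ ℓ ∣ 1 * 3 := by
          intro h
          have := Nat.le_of_dvd (by norm_num) h
          omega
        have : NeZero (1 * 3) := ⟨by norm_num⟩
        refine Fermat.Agent.INJ.stmtINJ_descent_mul_prime 1 3 ℓ p one_ne_zero Nat.prime_three
          (by norm_num) (by subst hp3; decide) ?_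
        exact stmtINJ_of_I2 hRT hFr (1 * 3) ℓ p hℓ hp h3 hℓp (by norm_num)
          (fun A hA => hI2 (1 * 3) ℓ hℓ h5 h3 A hA)
      · have h3 : ¬ ℓ ∣ 1 * 2 := by
          intro h
          have := Nat.le_of_dvd (by norm_num) h
          omega
        have : NeZero (1 * 2) := ⟨by norm_num⟩
        refine Fermat.Agent.INJ.stmtINJ_descent_mul_prime 1 2 ℓ p one_ne_zero Nat.prime_two
          (by norm_num) ((Nat.coprime_primes Nat.prime_three hp).mpr (Ne.symm hp3)) ?_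
        exact stmtINJ_of_I2 hRT hFr (1 * 2) ℓ p hℓ hp h3 hℓp (by norm_num)
          (fun A hA => hI2 (1 * 2) ℓ hℓ h5 h3 A hA)
  · -- `ℓ ∈ {2, 3}`
    have hℓ23 : ℓ = 2 ∨ ℓ = 3 := by
      have hlt : ℓ < 5 := by omega
      have h2 := hℓ.two_le
      interval_cases ℓ
      · exact Or.inl rfl
      · exact Or.inr rfl
      · exact absurd hℓ (by decide)
    rcases hℓ23 with rfl | rfl
    · -- `ℓ = 2`: the level `lcm 3 N`
      refine Fermat.Agent.INJ.stmtINJ_descent_two N p hN hp hℓp ?_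
      have hN' : Nat.lcm 3 N ≠ 0 := Nat.lcm_ne_zero (by norm_num) hN
      have : NeZero (Nat.lcm 3 N) := ⟨hN'⟩
      have h2' : ¬ 2 ∣ Nat.lcm 3 N := Fermat.Agent.INJ.dl_not_dvd_lcm_three hℓN
      have hge : 2 ≤ Nat.lcm 3 N := by
        have := Nat.le_of_dvd (Nat.pos_of_ne_zero hN') (Nat.dvd_lcm_left 3 N)
        omega
      exact stmtINJ_of_I2 hRT hFr (Nat.lcm 3 N) 2 p hℓ hp h2' hℓp hge
        (fun A hA => hI2aux (Nat.lcm 3 N) 2 hℓ (by norm_num) h2' (Nat.dvd_lcm_left 3 N) A hA)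
    · -- `ℓ = 3`: the level `lcm 2 N`
      refine Fermat.Agent.INJ.stmtINJ_descent_three N p hN hp hℓp ?_
      have hN' : Nat.lcm 2 N ≠ 0 := Nat.lcm_ne_zero (by norm_num) hN
      have : NeZero (Nat.lcm 2 N) := ⟨hN'⟩
      have h3' : ¬ 3 ∣ Nat.lcm 2 N := Fermat.Agent.INJ.dl_not_dvd_lcm_two hℓN
      have hge : 2 ≤ Nat.lcm 2 N :=
        Nat.le_of_dvd (Nat.pos_of_ne_zero hN') (Nat.dvd_lcm_left 2 N)
      exact stmtINJ_of_I2 hRT hFr (Nat.lcm 2 N) 3 p hℓ hp h3' hℓp hge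
        (fun A hA => hI2aux (Nat.lcm 2 N) 3 hℓ (by norm_num) h3' (Nat.dvd_lcm_left 2 N) A hA)

/-- **route 2**: the open pieces give `G2.StmtInjPrime` -/
theorem stmtInjPrime_of_route2 (hRT : StmtRootOf) (hFr : StmtFrickeAll) (hI2 : StmtI2All)
    (hI2aux : StmtI2AuxAll) : G2.StmtInjPrime :=
  G2.stmtInjPrime_of_stmtINJAll (stmtINJAll_of_route2 hRT hFr hI2 hI2aux)

end Fermat.Agent.ES.M
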