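/-
ES / M (route 2), piece `StmtFricke` (helper83): the input `StmtFrickeAll` of `ES/M/Plan.lean`.

`w = frickeAut N` (`ES/M/FrickeAut.lean`), an involution of `F_N = ℚ̄(j(q^d) : d ∣ N)` with
`w (j(q^d)) = j(q^(N/d))`:
* it preserves `≡ 1` for the Gauss valuation over `A`, `ℓ ∤ N`   (`ES/M/FrickeRed.lean`);
* it preserves "poles only at cusps"                              (`ES/M/FrickePlaces.lean`);
* for `N ≥ 2` it moves the cusp `∞` away                          (`ES/M/FrickePlaces.lean`).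
-/
import Fermat.Agent.ES.M.FrickeRed

set_option autoImplicit false

noncomputable section

namespace Fermat.Agent.ES.M

open ModularCurve AlgebraicCurve Fermat.Agent.ES Fermat.Agent.S24

/-- **(Fricke)** at `(N, A)`, `A` over `ℓ ∤ N`, `N ≥ 2`. -/
theorem stmtFricke (N : ℕ) [NeZero N] (ℓ : ℕ) (hℓ : ℓ.Prime) (hℓN : ¬ ℓ ∣ N) (hN : 2 ≤ N)
    (A : ValuationSubring Kb) (hA : A.LiesOverPrime ℓ) : StmtFricke N A :=
  ⟨frickeAut N, frickeAut_frickeAut N, fricke_reducesToOne N A ℓ hℓ hℓN hA,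
    fun _ hx => fricke_polesAtCusps hx, fun _ hx => fricke_regOut hN hx⟩

/-- **(Fricke)** for all good `(N, ℓ, A)`: the input `StmtFrickeAll` of route 2. -/
theorem stmtFrickeAll : StmtFrickeAll :=
  fun N _ ℓ hℓ hℓN hN A hA => stmtFricke N ℓ hℓ hℓN hN A hA

end Fermat.Agent.ES.M
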