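import Fermat.Agent.ES.M.Root
import Fermat.Agent.ES.LR.Final
import Fermat.Agent.INJ.NumField
import Fermat.Agent.INJ.NumFieldDVR

/-!
# ES / M — Step C of the glue: the sub-pieces RT0, RT1 and `stmtRootOf`

* `stmtRRInt : StmtRRInt` (RT0)
* `stmtDescent : StmtDescent` (RT1)
* `stmtRootOf : StmtRootOf` (piece RT of `ES/M/GluePlan.lean`)
-/

set_option autoImplicit false

noncomputable section

namespace Fermat.Agent.ES.M

open ModularCurve AlgebraicCurve Fermat.Agent.ES Fermat.Agent.S24 Module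

/-- piece RT0 -/
theorem stmtRRInt : StmtRRInt := by
  intro N _ ℓ hℓ A hA gr lw hLRa p hp f hf D hD Pinf hPinf n b hb hbG
  obtain ⟨G, hG0, hGf, hGred⟩ := hf
  obtain ⟨w, hw⟩ := hbG
  have hGR1 : GaussRed N A f 1 := by
    have h1 := gr.of_incl (HahnSeries.ofPowerSeries ℤ A G) (by rw [hGf]; exact f.2)
    have h2 : (⟨kronIncl A (HahnSeries.ofPowerSeries ℤ A G), by rw [hGf]; exact f.2⟩ : FF N) = f :=
      Subtype.ext hGf
    rw [h2, hGred] at h1
    exact h1
  have hreg := (lw.regOut p hp f D hD Pinf hPinf n b hb).1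
  have hx : KronInt A (((b ^ p * f : FF N)) : LaurentSeries Kb) :=
    hLRa _ hreg.polesAtCusps ⟨w ^ p * 1, gr.mul _ _ _ _ (gr.pow _ _ p hw) hGR1⟩
  have hGunit : IsUnit G := by
    rw [PowerSeries.isUnit_iff_constantCoeff, hG0]
    exact isUnit_one
  obtain ⟨Ginv, hGinv⟩ := hGunit.exists_right_inv
  have hbp : KronInt A ((b : LaurentSeries Kb) ^ p) := by
    have h1 : (b : LaurentSeries Kb) ^ p = (((b ^ p * f : FF N)) : LaurentSeries Kb) *
        kronIncl A (HahnSeries.ofPowerSeries ℤ A Ginv) := by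
      show (b : LaurentSeries Kb) ^ p = ((b : LaurentSeries Kb) ^ p * (f : LaurentSeries Kb)) * _
      rw [← hGf, mul_assoc, ← map_mul, ← map_mul, hGinv, map_one, map_one, mul_one]
    rw [h1]
    exact hx.mul (kronInt_kronIncl _)
  obtain ⟨Y₁, Y₂, -, -, hY₂, hxY, -⟩ := hw
  have hY₂0 : kronIncl A Y₂ ≠ 0 := by
    intro h0
    apply hY₂
    have : Y₂ = 0 := kronIncl_injective (A := A) (h0.trans (map_zero _).symm)
    rw [this, map_zero]
  refine LR.kronInt_of_monic (LR.arch_Qbar A hℓ hA) (kronInt_kronIncl Y₁) (kronInt_kronIncl Y₂)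
    hY₂0 hxY (Polynomial.X ^ p - Polynomial.C ((b : LaurentSeries Kb) ^ p))
    (Polynomial.monic_X_pow_sub_C _ hp.ne') ?_ ?_
  · intro m
    rw [← LR.mem_intSub, Polynomial.coeff_sub, Polynomial.coeff_X_pow, Polynomial.coeff_C]
    refine Subring.sub_mem _ ?_ ?_
    · split_ifs
      · exact Subring.one_mem _
      · exact Subring.zero_mem _
    · split_ifs
      · exact LR.mem_intSub.2 hbp
      · exact Subring.zero_mem _
  · simp

/-- piece RT1 -/
theorem stmtDescent : StmtDescent := by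
  intro N _ ℓ hℓ A hA Y hYF hYint
  obtain ⟨K₀, hK₀fin, -, hK⟩ := INJ.nf_exists_descent_finset (N := N) ∅ Y hYF
  refine ⟨K₀, ?_, ?_⟩
  · have : NumberField ↥K₀ := { to_charZero := inferInstance, to_finiteDimensional := hK₀fin }
    refine INJ.nf_isDiscreteValuationRing_comap A (x := ((ℓ : ℕ) : ↥K₀))
      (Nat.cast_ne_zero.2 hℓ.ne_zero) ?_
    rw [map_natCast]
    exact hA
  · intro y hy
    obtain ⟨y₁, -, hy₁⟩ := hK K₀ le_rfl y hy
    have hint : KronInt (A.comap (algebraMap ↥K₀ Kb)) y₁ := by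
      intro m
      show algebraMap ↥K₀ Kb (y₁.coeff m) ∈ A
      rw [← coeffMap_coeff, hy₁]
      exact hYint y hy m
    obtain ⟨S, hS⟩ := hint.exists_lift
    refine ⟨S, ?_⟩
    rw [← hy₁, ← hS, coeffMap_coeffMap]

/-- **piece RT** (Step C of the glue) -/
theorem stmtRootOf : StmtRootOf := stmtRootOf_of stmtRRInt stmtDescent

end Fermat.Agent.ES.M
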