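import Fermat.Agent.ES.M.Final
import Fermat.Agent.ES.M.RootPieces
import Fermat.Agent.ES.M.Fricke

/-!
# ES / M (route 2): the final assembly with Step C and the Fricke involution inserted

Route 2 is now reduced to the two statements `StmtI2All` (`ES/I2/*`) and `StmtI2AuxAll`
(`ES/I2aux/*`).
-/

set_option autoImplicit false

noncomputable section

namespace Fermat.Agent.ES.M

/-- **route 2**: `(I2)` (for `ℓ ≥ 5`, and for `ℓ ∈ {2, 3}` at the auxiliary levels) gives the
target of the (INJ) campaign. -/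
theorem stmtINJAll_of_I2 (hI2 : StmtI2All) (hI2aux : StmtI2AuxAll) :
    Fermat.Agent.INJ.StmtINJAll :=
  stmtINJAll_of_route2 stmtRootOf stmtFrickeAll hI2 hI2aux

/-- **route 2**: `(I2)` gives `G2.StmtInjPrime`. -/
theorem stmtInjPrime_of_I2 (hI2 : StmtI2All) (hI2aux : StmtI2AuxAll) : G2.StmtInjPrime :=
  stmtInjPrime_of_route2 stmtRootOf stmtFrickeAll hI2 hI2aux

end Fermat.Agent.ES.M
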