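import Fermat.Agent.ES.M.Plan

/-!
# ES / M — the glue of route 2, cut into pieces

`StmtGlue` (see `ES/M/Plan.lean`) is proved in three steps; each step is a `Prop` here so that the
pieces can be proved independently.  Small API lemmas are bundled in two `Prop`-valued structures
(`GRApi`: calculus of `GaussRed`; `LWApi`: divisors, `L(E)` and the spaces `W_n`), which the
steps take as hypotheses.

* Step A `StmtMove N A` (moving lemma): `f ≡ 1`, `p ∣ div f` ⇒ `∃ g ≡ 1` with `g ^ p * f` regular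
  outside the cusp `∞`.
* Step B `StmtNormalize N A`: `u ≡ 1`, `p ∣ div u` ⇒ `∃ g ≠ 0` with `g ^ p * u` *normal*: a power
  series in `q` with coefficients in `A`, constant coefficient `1`, and reduction `1`.
* Step C `StmtRoot N A ℓ`: a normal `f` with `p ∣ div f`, `p ≠ ℓ`, is a `p`-th power in `F_N`.
-/

set_option autoImplicit false

noncomputable section

namespace Fermat.Agent.ES.M

open ModularCurve AlgebraicCurve HahnSeries Fermat.Agent.ES Fermat.Agent.S24

variable (N : ℕ) [NeZero N] (A : ValuationSubring Kb)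

/-- calculus of the Gauss reduction in fraction form -/
structure GRApi : Prop where
  unique : ∀ (x : FF N) (w w' : LaurentSeries (kA A)),
    GaussRed N A x w → GaussRed N A x w' → w = w'
  one : GaussRed N A 1 1
  mul : ∀ (x y : FF N) (w v : LaurentSeries (kA A)),
    GaussRed N A x w → GaussRed N A y v → GaussRed N A (x * y) (w * v)
  pow : ∀ (x : FF N) (w : LaurentSeries (kA A)) (n : ℕ),
    GaussRed N A x w → GaussRed N A (x ^ n) (w ^ n)
  add : ∀ (x y : FF N) (w v : LaurentSeries (kA A)),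
    GaussRed N A x w → GaussRed N A y v → GaussRed N A (x + y) (w + v)
  /-- multiplication by a constant of `A` -/
  smul : ∀ (c : A) (x : FF N) (w : LaurentSeries (kA A)),
    GaussRed N A x w →
      GaussRed N A (algebraMap Kb (FF N) (c : Kb) * x)
        (HahnSeries.C (IsLocalRing.residue A c) * w)
  /-- an element with `A`-integral `q`-expansion reduces to the reduction of its expansion -/
  of_incl : ∀ (Y : LaurentSeries A) (hY : kronIncl A Y ∈ modularFunctionFieldBar N),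
    GaussRed N A ⟨kronIncl A Y, hY⟩ (kronRed A Y)
  reducesToOne_iff : ∀ x : FF N, G2.ReducesToOne A N x ↔ GaussRed N A x 1
  /-- the reduction lies in `F_k` -/
  mem_fullC : StmtRedF N A → ∀ (x : FF N) (w : LaurentSeries (kA A)),
    GaussRed N A x w → w ∈ modularFunctionFieldFullC (kA A) N
  ne_zero : ∀ (x : FF N) (w : LaurentSeries (kA A)), GaussRed N A x w → w ≠ 0 → x ≠ 0

/-- divisors `div f / p`, the spaces `L(D + n ∞)` and their reductions -/
structure LWApi : Prop where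
  /-- the divisor `div f / p` -/
  exists_div : ∀ p : ℕ, 0 < p → ∀ f : FF N, f ≠ 0 →
    (∀ P : Place Kb (FF N), (p : ℤ) ∣ P.ord f) →
      ∃ D : Divisor Kb (FF N), (∀ P : Place Kb (FF N), (p : ℤ) * D P = P.ord f) ∧
        Divisor.degree D = 0
  /-- `b ∈ L(div f / p + n ∞)` ⇒ `b ^ p * f` is regular outside `∞`, pole order `≤ p n` at `∞` -/
  regOut : ∀ p : ℕ, 0 < p → ∀ (f : FF N) (D : Divisor Kb (FF N)),
    (∀ P : Place Kb (FF N), (p : ℤ) * D P = P.ord f) →
      ∀ Pinf : Place Kb (FF N), IsCuspInfty N Pinf → ∀ (n : ℕ) (b : FF N),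
        b ∈ riemannRochSpace (D + Finsupp.single Pinf (n : ℤ)) →
          RegOut N (b ^ p * f) ∧
            ∀ m : ℤ, m < -((p : ℤ) * n) → ((b ^ p * f : FF N) : LaurentSeries Kb).coeff m = 0
  /-- **Lemma W**: the reduction of `b ∈ L(div f / p + n ∞)` lies in `W_n` when `f ≡ 1` -/
  mem_Wn : StmtRedF N A → StmtLRa N A → ∀ p : ℕ, 0 < p → ∀ f : FF N, f ≠ 0 →
    GaussRed N A f 1 → ∀ D : Divisor Kb (FF N),
      (∀ P : Place Kb (FF N), (p : ℤ) * D P = P.ord f) →
        ∀ Pinf : Place Kb (FF N), IsCuspInfty N Pinf → ∀ (n : ℕ) (b : FF N),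
          b ∈ riemannRochSpace (D + Finsupp.single Pinf (n : ℤ)) →
            ∀ w : LaurentSeries (kA A), GaussRed N A b w → w ∈ Wn N A n
  /-- Riemann's inequality gives independent elements -/
  exists_indep : StmtR N → ∀ (D : Divisor Kb (FF N)) (r : ℕ),
    (r : ℤ) ≤ Divisor.degree D + 1 - (gN N : ℤ) →
      ∃ a : Fin r → FF N, LinearIndependent Kb a ∧ ∀ i, a i ∈ riemannRochSpace D
  /-- `L(D)` is finite-dimensional -/
  rr_finite : ∀ D : Divisor Kb (FF N), Module.Finite Kb ↥(riemannRochSpace D)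

/-- **Step A** (moving lemma) -/
def StmtMove : Prop :=
  ∀ p : ℕ, p.Prime → ∀ f : FF N, f ≠ 0 → G2.ReducesToOne A N f →
    (∀ P : Place Kb (FF N), (p : ℤ) ∣ P.ord f) →
      ∃ g : FF N, g ≠ 0 ∧ G2.ReducesToOne A N g ∧ RegOut N (g ^ p * f)

/-- `f` is a power series in `q` over `A` with constant coefficient `1` and reduction `1`. -/
def IsNormal (f : FF N) : Prop :=
  ∃ G : PowerSeries A, PowerSeries.constantCoeff G = 1 ∧
    kronIncl A (HahnSeries.ofPowerSeries ℤ A G) = (f : LaurentSeries Kb) ∧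
      kronRed A (HahnSeries.ofPowerSeries ℤ A G) = 1

/-- **Step B** (Fricke + normalisation of the constant term) -/
def StmtNormalize : Prop :=
  ∀ p : ℕ, p.Prime → ∀ u : FF N, u ≠ 0 → G2.ReducesToOne A N u →
    (∀ P : Place Kb (FF N), (p : ℤ) ∣ P.ord u) →
      ∃ g : FF N, g ≠ 0 ∧ IsNormal N A (g ^ p * u)

/-- **Step C** (`π`-adic Newton iteration) -/
def StmtRoot (ℓ : ℕ) : Prop :=
  ∀ p : ℕ, p.Prime → p ≠ ℓ → ∀ f : FF N, IsNormal N A f →
    (∀ P : Place Kb (FF N), (p : ℤ) ∣ P.ord f) → ∃ h : FF N, h ^ p = f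

end Fermat.Agent.ES.M

namespace Fermat.Agent.ES.M

open ModularCurve AlgebraicCurve Fermat.Agent.ES Fermat.Agent.S24

/-- piece GR -/
def StmtGRApi : Prop := ∀ (N : ℕ) [NeZero N] (A : ValuationSubring Kb), GRApi N A

/-- piece LW -/
def StmtLWApi : Prop :=
  ∀ (N : ℕ) [NeZero N] (A : ValuationSubring Kb), GRApi N A → LWApi N A

/-- piece MV (Step A) -/
def StmtMoveOf : Prop :=
  ∀ (N : ℕ) [NeZero N] (A : ValuationSubring Kb), GRApi N A → LWApi N A →
    StmtRedF N A → StmtLRa N A → StmtQ2 N A → StmtR N → StmtI2 N A → StmtMove N A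

/-- piece NM (Step B) -/
def StmtNormalizeOf : Prop :=
  ∀ (N : ℕ) [NeZero N] (A : ValuationSubring Kb), GRApi N A →
    StmtMove N A → StmtFricke N A → StmtLRa N A → StmtNormalize N A

/-- piece RT (Step C) -/
def StmtRootOf : Prop :=
  ∀ (N : ℕ) [NeZero N] (ℓ : ℕ), ℓ.Prime → ¬ ℓ ∣ N →
    ∀ A : ValuationSubring Kb, A.LiesOverPrime ℓ → GRApi N A → LWApi N A →
      StmtRedF N A → StmtLRa N A → StmtQ2 N A → StmtR N → StmtI2 N A → StmtRoot N A ℓ

/-- the three steps give (INJ) at `(N, A)` -/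
theorem stmtInjAt_of_steps (N : ℕ) [NeZero N] (A : ValuationSubring Kb) (ℓ : ℕ)
    (hB : StmtNormalize N A) (hC : StmtRoot N A ℓ) : StmtInjAt N A ℓ := by
  intro p hp hpℓ u hu hu1 hdiv
  obtain ⟨g, hg, hn⟩ := hB p hp u hu hu1 hdiv
  have hdiv' : ∀ P : Place Kb (FF N), (p : ℤ) ∣ P.ord (g ^ p * u) := by
    intro P
    rw [P.ord_mul (pow_ne_zero p hg) hu]
    have h1 : P.ord (g ^ p) = (p : ℤ) * P.ord g := by
      have := P.ord_zpow g (p : ℤ)
      rwa [zpow_natCast] at this
    rw [h1]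
    exact dvd_add (dvd_mul_right _ _) (hdiv P)
  obtain ⟨h, hh⟩ := hC p hp hpℓ _ hn hdiv'
  refine ⟨h * g⁻¹, ?_⟩
  rw [mul_pow, hh, inv_pow, mul_comm, ← mul_assoc, inv_mul_cancel₀ (pow_ne_zero p hg), one_mul]

/-- **the glue**, from the pieces -/
theorem stmtGlue_of_pieces (hGR : StmtGRApi) (hLW : StmtLWApi) (hMV : StmtMoveOf)
    (hNM : StmtNormalizeOf) (hRT : StmtRootOf) : StmtGlue := by
  intro N _ ℓ hℓ hℓN _ A hA hRedF hLRa hQ2 hFr hR hI2 _
  have gr := hGR N A
  have lw := hLW N A gr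
  have hA' := hMV N A gr lw hRedF hLRa hQ2 hR hI2
  have hB := hNM N A gr hA' hFr hLRa
  have hC := hRT N ℓ hℓ hℓN A hA gr lw hRedF hLRa hQ2 hR hI2
  exact stmtInjAt_of_steps N A ℓ hB hC

end Fermat.Agent.ES.M
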