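import Mathlib
import Fermat.Prelude.Def_ModularCurve_LaurentCoeff

/-!
# Route 2 of (INJ): lattices in finite-dimensional spaces of Laurent series (pure linear algebra)

* `esm_exists_finset_separating` : a finite-dimensional subspace of `ι → L` is separated by finitely
  many coordinates.
* `esm_fg_of_forall_mem` : (c) of the route-2 note: the coefficientwise integral elements of a
  finite-dimensional space of Laurent series form a finitely generated module over a noetherian
  domain.
* `esm_linearIndependent_map` : (LA1) linear independence of families of coordinate vectors is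
  preserved under extension of the field of coefficients.
-/

set_option autoImplicit false

namespace Fermat.Agent.ES.M

open ModularCurve Module

section Separating

variable {L : Type*} [Field L] {ι : Type*}

/-- A finite-dimensional subspace of `ι → L` is separated by finitely many coordinates. -/
theorem esm_exists_finset_separating (V : Submodule L (ι → L)) [FiniteDimensional L V] :
    ∃ S : Finset ι, ∀ v ∈ V, (∀ i ∈ S, v i = 0) → v = 0 := by
  classical
  induction h : finrank L V using Nat.strong_induction_on generalizing V with
  | _ d ih =>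
    by_cases hV : V = ⊥
    · exact ⟨∅, fun v hv _ => by rw [hV] at hv; exact (Submodule.mem_bot L).1 hv⟩
    · obtain ⟨v, hv, hv0⟩ := Submodule.exists_mem_ne_zero_of_ne_bot hV
      obtain ⟨i, hi⟩ : ∃ i, v i ≠ 0 := by
        by_contra hcon
        simp only [not_exists, not_not] at hcon
        exact hv0 (funext hcon)
      let V' : Submodule L (ι → L) := V ⊓ LinearMap.ker (LinearMap.proj (R := L) (φ := fun _ => L) i)
      have hle : V' ≤ V := inf_le_left
      have hlt : V' < V := by
        refine lt_of_le_of_ne hle fun heq => hi ?_
        have : v ∈ V' := heq ▸ hv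
        exact (Submodule.mem_inf.1 this).2
      have : FiniteDimensional L V' := Submodule.finiteDimensional_of_le hle
      have hfin : finrank L V' < d := h ▸ Submodule.finrank_lt_finrank_of_lt hlt
      obtain ⟨S', hS'⟩ := ih _ hfin V' rfl
      refine ⟨insert i S', fun w hw hwS => hS' w ?_ fun j hj => hwS j (Finset.mem_insert_of_mem hj)⟩
      exact Submodule.mem_inf.2 ⟨hw, hwS i (Finset.mem_insert_self i S')⟩

end Separating

section FG

variable {A₀ : Type*} [CommRing A₀] [IsNoetherianRing A₀]
variable {L : Type*} [Field L] {ι : Type*}

/-- coordinatewise integral vectors of a finite-dimensional space form a f.g. module -/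
theorem esm_fg_coord (φ : A₀ →+* L) (hφ : Function.Injective φ)
    (V : Submodule L (ι → L)) [FiniteDimensional L V]
    (Λ : Submodule A₀ (ι → A₀)) (hΛ : ∀ x ∈ Λ, (fun i => φ (x i)) ∈ V) : Λ.FG := by
  classical
  obtain ⟨S, hS⟩ := esm_exists_finset_separating V
  -- restriction to the coordinates in `S`
  let ρ : (ι → A₀) →ₗ[A₀] (S → A₀) :=
    { toFun := fun x s => x s
      map_add' := fun _ _ => rfl
      map_smul' := fun _ _ => rfl }
  have hinj : Function.Injective (ρ.domRestrict Λ) := by
    rw [← LinearMap.ker_eq_bot, LinearMap.ker_eq_bot']
    rintro ⟨x, hx⟩ h0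
    have hx0 : ∀ i ∈ S, x i = 0 := fun i hi => congrFun h0 ⟨i, hi⟩
    have : (fun i => φ (x i)) = 0 :=
      hS _ (hΛ x hx) fun i hi => by rw [hx0 i hi, map_zero]
    apply Subtype.ext
    funext i
    exact hφ ((congrFun this i).trans (map_zero φ).symm)
  have hfin : Module.Finite A₀ Λ := Module.Finite.of_injective (ρ.domRestrict Λ) hinj
  exact Module.Finite.iff_fg.1 hfin

/-- **(c)**: the coefficientwise integral elements of a finite-dimensional space of Laurent
series form a finitely generated module. -/
theorem esm_fg_of_forall_mem (φ : A₀ →+* L) (hφ : Function.Injective φ)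
    (V : Submodule L (LaurentSeries L)) [FiniteDimensional L V]
    (Λ : Submodule A₀ (LaurentSeries A₀)) (hΛ : ∀ Y ∈ Λ, coeffMap φ Y ∈ V) : Λ.FG := by
  -- coefficients
  let cA : LaurentSeries A₀ →ₗ[A₀] (ℤ → A₀) :=
    { toFun := fun x => x.coeff
      map_add' := fun x y => by ext n; simp
      map_smul' := fun c x => by ext n; simp }
  let cL : LaurentSeries L →ₗ[L] (ℤ → L) :=
    { toFun := fun x => x.coeff
      map_add' := fun x y => by ext n; simp
      map_smul' := fun c x => by ext n; simp }
  have hcA : Function.Injective cA := fun x y h => by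
    ext n; exact congrFun h n
  have : FiniteDimensional L (V.map cL) := by
    have : Module.Finite L V := inferInstance
    exact Module.Finite.map V cL
  have h1 : (Λ.map cA).FG := by
    refine esm_fg_coord φ hφ (V.map cL) (Λ.map cA) ?_
    rintro x ⟨Y, hY, rfl⟩
    exact ⟨coeffMap φ Y, hΛ Y hY, rfl⟩
  exact Submodule.fg_of_fg_map_injective cA hcA h1

end FG

section BaseChange

variable {k₀ k : Type*} [Field k₀] [Field k] {ι : Type*}

/-- **(LA1)**: linear independence of coordinate vectors is preserved by an extension of the
field of coefficients. -/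
theorem esm_linearIndependent_map (f : k₀ →+* k) {n : ℕ} (v : Fin n → (ι → k₀))
    (hv : LinearIndependent k₀ v) :
    LinearIndependent k (fun i => (fun x => f (v i x) : ι → k)) := by
  classical
  let _ : Algebra k₀ k := f.toAlgebra
  let B := Basis.ofVectorSpace k₀ k
  rw [Fintype.linearIndependent_iff]
  intro c hc i
  -- the coordinates of the `c i` in the basis `B`
  apply B.repr.injective
  ext j
  rw [map_zero, Finsupp.zero_apply]
  have hj : ∑ i, (B.repr (c i) j) • v i = 0 := by
    funext x
    have hx : ∑ i, c i * f (v i x) = 0 := by
      have := congrFun hc x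
      simpa [Finset.sum_apply, Pi.smul_apply, smul_eq_mul] using this
    have h2 : B.repr (∑ i, c i * f (v i x)) j = 0 := by rw [hx, map_zero, Finsupp.zero_apply]
    rw [map_sum, Finsupp.finsetSum_apply] at h2
    rw [Finset.sum_apply, Pi.zero_apply, ← h2]
    refine Finset.sum_congr rfl fun i _ => ?_
    have h3 : c i * f (v i x) = (v i x) • c i := by
      rw [Algebra.smul_def, mul_comm]; rfl
    rw [h3, map_smul, Finsupp.smul_apply, Pi.smul_apply, smul_eq_mul, smul_eq_mul, mul_comm]
  exact Fintype.linearIndependent_iff.1 hv _ hj i

end BaseChange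

end Fermat.Agent.ES.M
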