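import Mathlib
import Fermat.Prelude.Def_ModularCurve_LaurentCoeff
import Fermat.Agent.ES.M.Core
import Fermat.Agent.ES.M.ArtinRees

/-!
# Route 2 of (INJ): Steps 3–4 for Laurent series over a discrete valuation ring

`A₀` a DVR with uniformiser `ϖ`, `r : A₀ →+* k` a ring homomorphism to a field with kernel `(ϖ)`.
`Λ` a finitely generated `A₀`-submodule of `A₀((q))`, `h ∈ A₀((q))` with `h ≡ 1 mod ϖ`,
`W₁ ⊆ k((q))` a set of reductions such that

* every element of `W₁` is the reduction of an element of `Λ`;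
* for every approximate inverse `a ∈ Λ` of `h`, `a * h - 1 = ϖ ^ s • b`, the reduction of the error
  term `b` lies in `W₁`.

Then `h` has an inverse in `Λ` (`esm_newton`).
-/

set_option autoImplicit false

namespace Fermat.Agent.ES.M

open ModularCurve

section Sat

variable {A₀ : Type*} [CommRing A₀]

open Classical in
/-- coefficientwise division by `ϖ` -/
noncomputable def esmDivFun (ϖ : A₀) (x : LaurentSeries A₀) : LaurentSeries A₀ where
  coeff n := if x.coeff n = 0 then 0 else if hn : ϖ ∣ x.coeff n then hn.choose else 0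
  isPWO_support' := x.isPWO_support.mono (by
    intro n hn
    simp only [Function.mem_support, ne_eq] at hn ⊢
    intro h0
    exact hn (by rw [if_pos h0]))

open Classical in
theorem esmDivFun_spec (ϖ : A₀) (x : LaurentSeries A₀) (hx : ∀ n, ϖ ∣ x.coeff n) :
    x = ϖ • esmDivFun ϖ x := by
  ext n
  rw [HahnSeries.coeff_smul]
  show x.coeff n = ϖ • (if x.coeff n = 0 then 0 else if hn : ϖ ∣ x.coeff n then hn.choose else 0)
  by_cases h0 : x.coeff n = 0
  · rw [if_pos h0, h0, smul_zero]
  · rw [if_neg h0, dif_pos (hx n), smul_eq_mul]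
    exact (hx n).choose_spec

/-- the kernel of the coefficientwise reduction is `ϖ • A₀((q))` -/
theorem esm_exists_smul_of_coeffMap_eq_zero {k : Type*} [CommRing k] (r : A₀ →+* k) {ϖ : A₀}
    (hker : ∀ a, r a = 0 → ϖ ∣ a) (x : LaurentSeries A₀) (hx : coeffMap r x = 0) :
    ∃ y : LaurentSeries A₀, x = ϖ • y :=
  ⟨esmDivFun ϖ x, esmDivFun_spec ϖ x fun n => hker _ (by
    have := congrArg (fun z : LaurentSeries k => z.coeff n) hx
    simpa using this)⟩

/-- the coefficient map, as a linear map -/
noncomputable def esmCoord (A₀ : Type*) [CommRing A₀] : LaurentSeries A₀ →ₗ[A₀] (ℤ → A₀) where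
  toFun x := x.coeff
  map_add' x y := by ext n; simp
  map_smul' c x := by ext n; simp

theorem esmCoord_injective : Function.Injective (esmCoord A₀) := by
  intro x y h
  ext n
  exact congrFun h n

/-- the coefficientwise scalar action on Laurent series is compatible with multiplication
(stated for the `HahnSeries` module instance, avoiding the instance diamond with
`HahnSeries.powerSeriesAlgebra`) -/
theorem esm_isScalarTower_laurent :
    IsScalarTower A₀ (LaurentSeries A₀) (LaurentSeries A₀) := by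
  let _ : Algebra A₀ (HahnSeries ℤ A₀) := HahnSeries.instAlgebra
  exact IsScalarTower.right

theorem esm_smulCommClass_laurent :
    SMulCommClass A₀ (LaurentSeries A₀) (LaurentSeries A₀) := by
  let _ : Algebra A₀ (HahnSeries ℤ A₀) := HahnSeries.instAlgebra
  exact Algebra.to_smulCommClass

end Sat

section Newton

variable {A₀ : Type*} [CommRing A₀] [IsDomain A₀] [IsDiscreteValuationRing A₀]
variable {k : Type*} [CommRing k]

/-- **Steps 3–4 of route 2** for Laurent series over a DVR. -/
theorem esm_newton (r : A₀ →+* k) {ϖ : A₀} (hϖ : Irreducible ϖ)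
    (hker : ∀ a, r a = 0 → ϖ ∣ a)
    (Λ : Submodule A₀ (LaurentSeries A₀)) (hΛ : Λ.FG)
    (h : LaurentSeries A₀) (hh : coeffMap r h = 1)
    (W₁ : Set (LaurentSeries k))
    (hsurj : ∀ w ∈ W₁, ∃ a ∈ Λ, coeffMap r a = w)
    (hstep : ∀ a ∈ Λ, ∀ (s : ℕ) (b : LaurentSeries A₀), a * h - 1 = ϖ ^ s • b →
      coeffMap r b ∈ W₁) :
    ∃ a ∈ Λ, a * h = 1 := by
  have := esm_isScalarTower_laurent (A₀ := A₀)
  have := esm_smulCommClass_laurent (A₀ := A₀)
  obtain ⟨h₁, hh₁⟩ := esm_exists_smul_of_coeffMap_eq_zero r hker (h - 1) (by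
    rw [map_sub, hh, map_one, sub_self])
  refine esm_exists_mul_eq_one (ι := ℤ) hϖ.not_isUnit (esmCoord A₀) esmCoord_injective Λ h h₁ hh₁
    ?_ ?_
  · refine artinRees_coord hϖ _ (Submodule.FG.map _ (Submodule.FG.sup (hΛ.map _) ?_))
    exact Submodule.fg_span_singleton _
  · intro a ha s b hab
    obtain ⟨a', ha', hra'⟩ := hsurj _ (hstep a ha s b hab)
    obtain ⟨b', hb'⟩ := esm_exists_smul_of_coeffMap_eq_zero r hker (b - a') (by
      rw [map_sub, hra', sub_self])
    exact ⟨a', ha', b', hb'⟩

end Newton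

end Fermat.Agent.ES.M
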