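import Mathlib

/-!
# Route 2 of (INJ): power-series lemmas (piece ES-PS)

* `esm_exists_root` : over a commutative ring in which `p` is invertible, a power series with
  constant coefficient `1` has a `p`-th root with constant coefficient `1`.
* `esm_root_unique` : over a domain in which `p ≠ 0`, such a root is unique.
* `esm_root_closed` : for a discrete valuation ring `A₀` (so that `A₀⟦X⟧` is integrally closed),
  `y₂ ∣ y₁` in `A₀⟦X⟧` as soon as `y₂ ^ p ∣ y₁ ^ p` (`p ≥ 1`).
-/

set_option autoImplicit false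

namespace Fermat.Agent.ES.M

open PowerSeries

section Root

variable {R : Type*} [CommRing R]

/-- binomial expansion modulo `b ^ 2` -/
theorem esm_add_pow_mod_sq (a b : R) (p : ℕ) :
    ∃ G : R, (a + b) ^ p = a ^ p + (p : R) * a ^ (p - 1) * b + b ^ 2 * G := by
  induction p with
  | zero => exact ⟨0, by simp⟩
  | succ p ih =>
    obtain ⟨G, hG⟩ := ih
    rcases Nat.eq_zero_or_pos p with rfl | hp
    · exact ⟨0, by simp⟩
    · refine ⟨a * G + (p : R) * a ^ (p - 1) + b * G, ?_⟩
      have h1 : a ^ p = a ^ (p - 1) * a := by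
        rw [← pow_succ, Nat.sub_add_cancel hp]
      rw [pow_succ, hG, Nat.add_sub_cancel, Nat.cast_succ]
      linear_combination (-(p : R) * b) * h1

/-- one step of the coefficientwise construction of a `p`-th root -/
theorem esm_root_step (p : ℕ) (f H : R⟦X⟧)
    (hH0 : constantCoeff H = 1) (n : ℕ) (hn : 1 ≤ n)
    (hH : ∀ m < n, coeff m (H ^ p) = coeff m f) (c : R)
    (hc : (p : R) * c = coeff n f - coeff n (H ^ p)) :
    ∀ m < n + 1, coeff m ((H + C c * X ^ n) ^ p) = coeff m f := by
  obtain ⟨G, hG⟩ := esm_add_pow_mod_sq H (C c * X ^ n) p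
  intro m hm
  rw [hG, map_add, map_add]
  have h3 : coeff m ((C c * X ^ n) ^ 2 * G) = 0 := by
    have : (C c * X ^ n : R⟦X⟧) ^ 2 * G = X ^ (2 * n) * (C c ^ 2 * G) := by
      rw [mul_pow, ← pow_mul, mul_comm n 2]; ring
    rw [this, coeff_X_pow_mul', if_neg (by omega)]
  have h2 : coeff m ((p : R⟦X⟧) * H ^ (p - 1) * (C c * X ^ n)) =
      if m = n then (p : R) * c else 0 := by
    have : ((p : R⟦X⟧) * H ^ (p - 1) * (C c * X ^ n)) =
        X ^ n * (C ((p : R) * c) * H ^ (p - 1)) := by
      rw [map_mul, map_natCast]; ring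
    rw [this, coeff_X_pow_mul']
    by_cases hmn : m = n
    · subst hmn
      rw [if_pos le_rfl, if_pos rfl, Nat.sub_self, coeff_C_mul, coeff_zero_eq_constantCoeff,
        map_pow, hH0, one_pow, mul_one]
    · rw [if_neg hmn, if_neg (by omega)]
  rw [h3, add_zero, h2]
  by_cases hmn : m = n
  · subst hmn
    rw [if_pos rfl, hc]
    ring
  · rw [if_neg hmn, add_zero]
    exact hH m (by omega)

/-- the sequence of approximate `p`-th roots -/
noncomputable def esmRootSeq (p : ℕ) (u : Rˣ) (f : R⟦X⟧) : ℕ → R⟦X⟧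
  | 0 => 1
  | n + 1 => esmRootSeq p u f n +
      C ((↑u⁻¹ : R) * (coeff (n + 1) f - coeff (n + 1) ((esmRootSeq p u f n) ^ p))) * X ^ (n + 1)

theorem esmRootSeq_constantCoeff (p : ℕ) (u : Rˣ) (f : R⟦X⟧) (n : ℕ) :
    constantCoeff (esmRootSeq p u f n) = 1 := by
  induction n with
  | zero => simp [esmRootSeq]
  | succ n ih =>
    have h0 : constantCoeff ((X : R⟦X⟧) ^ (n + 1)) = 0 := by
      rw [RingHom.map_pow, constantCoeff_X, zero_pow (Nat.succ_ne_zero n)]
    rw [esmRootSeq, RingHom.map_add, ih, RingHom.map_mul, h0, mul_zero, add_zero]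

theorem esmRootSeq_spec (p : ℕ) (u : Rˣ) (hu : (u : R) = p) (f : R⟦X⟧)
    (hf : constantCoeff f = 1) (n : ℕ) :
    ∀ m < n + 1, coeff m ((esmRootSeq p u f n) ^ p) = coeff m f := by
  induction n with
  | zero =>
    intro m hm
    have : m = 0 := by omega
    subst this
    simp [esmRootSeq, hf]
  | succ n ih =>
    rw [esmRootSeq]
    refine esm_root_step p f _ (esmRootSeq_constantCoeff p u f n) (n + 1) (by omega) ih _ ?_
    rw [← hu, ← mul_assoc, Units.mul_inv, one_mul]

theorem esmRootSeq_coeff_succ (p : ℕ) (u : Rˣ) (f : R⟦X⟧) (n m : ℕ) (hm : m ≤ n) :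
    coeff m (esmRootSeq p u f (n + 1)) = coeff m (esmRootSeq p u f n) := by
  rw [esmRootSeq, map_add, coeff_C_mul, coeff_X_pow, if_neg (by omega), mul_zero, add_zero]

theorem esmRootSeq_coeff_stable (p : ℕ) (u : Rˣ) (f : R⟦X⟧) (m n : ℕ) (hmn : m ≤ n) :
    coeff m (esmRootSeq p u f n) = coeff m (esmRootSeq p u f m) := by
  induction n with
  | zero =>
    have : m = 0 := by omega
    subst this; rfl
  | succ n ih =>
    rcases Nat.eq_or_lt_of_le hmn with h | h
    · subst h; rfl
    · rw [esmRootSeq_coeff_succ p u f n m (by omega), ih (by omega)]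

/-- **(PS a)**: a `p`-th root of a power series with constant coefficient `1`. -/
theorem esm_exists_root (p : ℕ) (hp : IsUnit (p : R)) (f : R⟦X⟧) (hf : constantCoeff f = 1) :
    ∃ h : R⟦X⟧, constantCoeff h = 1 ∧ h ^ p = f := by
  obtain ⟨u, hu⟩ := hp
  refine ⟨PowerSeries.mk fun m => coeff m (esmRootSeq p u f m), ?_, ?_⟩
  · rw [← coeff_zero_eq_constantCoeff_apply, coeff_mk, coeff_zero_eq_constantCoeff_apply,
      esmRootSeq_constantCoeff]
  · ext n
    have htr : trunc (n + 1) (PowerSeries.mk fun m => coeff m (esmRootSeq p u f m)) =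
        trunc (n + 1) (esmRootSeq p u f n) := by
      ext m
      rw [coeff_trunc, coeff_trunc]
      split_ifs with hm
      · rw [coeff_mk, esmRootSeq_coeff_stable p u f m n (by omega)]
      · rfl
    have h1 : ∀ g : R⟦X⟧, coeff n (g ^ p) = coeff n (((trunc (n + 1) g : R⟦X⟧)) ^ p) := by
      intro g
      rw [← coeff_coe_trunc_of_lt (Nat.lt_succ_self n) (f := g ^ p),
        ← coeff_coe_trunc_of_lt (Nat.lt_succ_self n) (f := ((trunc (n + 1) g : R⟦X⟧)) ^ p),
        trunc_trunc_pow]
    rw [h1, htr, ← h1]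
    exact esmRootSeq_spec p u hu f hf n n (Nat.lt_succ_self n)

end Root

section Unique

variable {S : Type*} [CommRing S] [IsDomain S]

/-- `p`-th roots with constant coefficient `1` are unique over a domain in which `p ≠ 0`. -/
theorem esm_root_unique (p : ℕ) (hp : (p : S) ≠ 0) (x y : S⟦X⟧)
    (hx : constantCoeff x = 1) (hy : constantCoeff y = 1) (hxy : x ^ p = y ^ p) : x = y := by
  have h1 : (x - y) * ∑ i ∈ Finset.range p, x ^ i * y ^ (p - 1 - i) = 0 := by
    rw [mul_comm, Commute.geom_sum₂_mul (Commute.all x y), hxy, sub_self]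
  rcases mul_eq_zero.1 h1 with h | h
  · exact sub_eq_zero.1 h
  · exfalso
    have h2 := congrArg constantCoeff h
    rw [map_sum, map_zero] at h2
    have h3 : ∀ i ∈ Finset.range p, constantCoeff (x ^ i * y ^ (p - 1 - i)) = (1 : S) := by
      intro i _
      rw [map_mul, map_pow, map_pow, hx, hy, one_pow, one_pow, one_mul]
    rw [Finset.sum_congr rfl h3, Finset.sum_const, Finset.card_range, nsmul_eq_mul, mul_one] at h2
    exact hp h2

end Unique

section Closed

variable {A₀ : Type*} [CommRing A₀] [IsDomain A₀] [IsDiscreteValuationRing A₀]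

/-- **(PS b)**: `A₀⟦X⟧` is integrally closed (a UFD), hence root closed. -/
theorem esm_root_closed (p : ℕ) (hp : p ≠ 0) (y₁ y₂ : A₀⟦X⟧) (h : y₂ ^ p ∣ y₁ ^ p) : y₂ ∣ y₁ :=
  (IsIntegrallyClosed.pow_dvd_pow_iff hp).1 h

end Closed

end Fermat.Agent.ES.M
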