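import Fermat.Agent.ES.M.GluePlan

/-!
# ES / M — Step C of the glue (`StmtRootOf`), sub-pieces

* `StmtRRInt` (RT0): for a normal `f`, every element of `L(div f / p + n ∞)` of Gauss norm `≤ 1`
  has an `A`-integral `q`-expansion (its `p`-th power times `f` is regular outside `∞`, hence
  integral by Lemma R; then `ES.LR.kronInt_of_monic`).
* `StmtDescent` (RT1): finitely many `A`-integral elements of `F_N` have their coefficients in
  `A ∩ K₀` for a number field `K₀`, and `A ∩ K₀` is a discrete valuation ring.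
-/

set_option autoImplicit false

noncomputable section

namespace Fermat.Agent.ES.M

open ModularCurve AlgebraicCurve Fermat.Agent.ES Fermat.Agent.S24

/-- piece RT0 -/
def StmtRRInt : Prop :=
  ∀ (N : ℕ) [NeZero N] (ℓ : ℕ), ℓ.Prime → ∀ A : ValuationSubring Kb, A.LiesOverPrime ℓ →
    GRApi N A → LWApi N A → StmtLRa N A →
      ∀ p : ℕ, 0 < p → ∀ f : FF N, IsNormal N A f → ∀ D : Divisor Kb (FF N),
        (∀ P : Place Kb (FF N), (p : ℤ) * D P = P.ord f) →
          ∀ Pinf : Place Kb (FF N), IsCuspInfty N Pinf → ∀ (n : ℕ) (b : FF N),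
            b ∈ riemannRochSpace (D + Finsupp.single Pinf (n : ℤ)) → GaussInt N A b →
              KronInt A (b : LaurentSeries Kb)

/-- piece RT1 -/
def StmtDescent : Prop :=
  ∀ (N : ℕ) [NeZero N] (ℓ : ℕ), ℓ.Prime → ∀ A : ValuationSubring Kb, A.LiesOverPrime ℓ →
    ∀ Y : Finset (LaurentSeries Kb), (∀ y ∈ Y, y ∈ modularFunctionFieldBar N) →
      (∀ y ∈ Y, KronInt A y) →
        ∃ K₀ : IntermediateField ℚ Kb,
          IsDiscreteValuationRing ↥(A.comap (algebraMap ↥K₀ Kb)) ∧
            ∀ y ∈ Y, ∃ S : LaurentSeries ↥(A.comap (algebraMap ↥K₀ Kb)),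
              coeffMap ((algebraMap ↥K₀ Kb).comp (A.comap (algebraMap ↥K₀ Kb)).subtype) S = y

end Fermat.Agent.ES.M
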