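import Fermat.Agent.ES.M.RootAux
import Fermat.Agent.ES.M.RootPlan
import Fermat.Agent.ES.M.Lattice
import Fermat.Agent.ES.M.PS

/-!
# ES / M — Step C of the glue: the concrete Newton iteration

`root_concrete` : the abstract core `esm_root_core` applied to `A₀ = A ∩ K₀`,
`Λ = {Y ∈ A₀((q)) : Y ∈ L(div f / p + n₁ ∞)}`, `Wf = Wn N A`.
-/

set_option autoImplicit false

noncomputable section

namespace Fermat.Agent.ES.M

open ModularCurve AlgebraicCurve HahnSeries Fermat.Agent.ES Fermat.Agent.S24 Module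

section Concrete

variable {N : ℕ} [NeZero N] {A : ValuationSubring Kb}

/-- `p ≠ ℓ` is invertible in the residue field -/
theorem root_natCast_ne_zero {ℓ : ℕ} (hℓ : ℓ.Prime) (hA : A.LiesOverPrime ℓ) {p : ℕ}
    (hp : p.Prime) (hpℓ : p ≠ ℓ) : ((p : ℕ) : kA A) ≠ 0 := by
  have := kron_charP_residueField (A := A) hℓ hA
  intro h
  rw [CharP.cast_eq_zero_iff (kA A) ℓ p] at h
  exact hpℓ ((Nat.prime_dvd_prime_iff_eq hℓ hp).1 h).symm

theorem root_natCast_isUnit {ℓ : ℕ} (hℓ : ℓ.Prime) (hA : A.LiesOverPrime ℓ) {p : ℕ}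
    (hp : p.Prime) (hpℓ : p ≠ ℓ) : IsUnit ((p : ℕ) : A) := by
  by_contra h
  have h1 : ((p : ℕ) : A) ∈ IsLocalRing.maximalIdeal A := h
  rw [← IsLocalRing.residue_eq_zero_iff, map_natCast] at h1
  exact root_natCast_ne_zero hℓ hA hp hpℓ h1

omit [NeZero N] in
/-- the elements of `W` with bounded pole order -/
theorem root_inW_mem_Wn {w : LaurentSeries (kA A)} (hw : InW N A w) :
    ∃ m : ℕ, w ∈ Wn N A m := by
  rcases eq_or_ne w 0 with rfl | hw0
  · exact ⟨0, zero_mem _⟩
  · refine ⟨(-w.order).toNat, hw, fun i hi => ?_⟩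
    apply HahnSeries.coeff_eq_zero_of_lt_order
    have := Int.self_le_toNat (-w.order)
    omega

omit [NeZero N] in
/-- reductions of integral functions regular outside `∞` lie in `W` -/
theorem root_inW_of_regOut (hRedF : StmtRedF N A) (Y : LaurentSeries A)
    (hY : kronIncl A Y ∈ modularFunctionFieldBar N) (hreg : RegOut N ⟨kronIncl A Y, hY⟩) :
    InW N A (kronRed A Y) := by
  refine ⟨hRedF Y hY, ?_⟩
  have hmem : kronRed A Y ∈ Algebra.adjoin (kA A) (redR N A) :=
    Algebra.subset_adjoin ⟨Y, hY, hreg, rfl⟩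
  exact isIntegral_algebraMap (R := Algebra.adjoin (kA A) (redR N A)) (x := ⟨_, hmem⟩)

/-- **Step C, concrete form**, after descent to a number field. -/
theorem root_concrete {ℓ : ℕ} (hℓ : ℓ.Prime) (hA : A.LiesOverPrime ℓ) (gr : GRApi N A)
    (lw : LWApi N A) (hRedF : StmtRedF N A) (hLRa : StmtLRa N A) {p : ℕ} (hp : p.Prime)
    (hpℓ : p ≠ ℓ) (f : FF N) (G : PowerSeries A) (hG0 : PowerSeries.constantCoeff G = 1)
    (hGf : kronIncl A (HahnSeries.ofPowerSeries ℤ A G) = (f : LaurentSeries Kb))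
    (hGred : kronRed A (HahnSeries.ofPowerSeries ℤ A G) = 1)
    (D : Divisor Kb (FF N)) (hD : ∀ P : Place Kb (FF N), (p : ℤ) * D P = P.ord f)
    (Pinf : Place Kb (FF N)) (hPinf : IsCuspInfty N Pinf) (n₁ : ℕ)
    [Module.Finite (kA A) ↥(Wn N A n₁)] (d : ℕ)
    (hrank : Module.finrank (kA A) ↥(Wn N A n₁) ≤ d)
    (K₀ : IntermediateField ℚ Kb) [IsDiscreteValuationRing ↥(descA A K₀)]
    (Sf : LaurentSeries ↥(descA A K₀))
    (hSf : coeffMap (descIncl A K₀) Sf = (f : LaurentSeries Kb))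
    (S : Fin d → LaurentSeries ↥(descA A K₀))
    (hS : ∀ i, coeffMap (descIncl A K₀) (S i) ∈ rrImage (D + Finsupp.single Pinf (n₁ : ℤ)))
    (hSind : LinearIndependent (kA A) (fun i => kronRed A (coeffMap (descHom A K₀) (S i)))) :
    ∃ h : FF N, h ^ p = f := by
  classical
  set E : Divisor Kb (FF N) := D + Finsupp.single Pinf (n₁ : ℤ) with hE
  have hρ := descRes_comp_residue A K₀
  obtain ⟨ϖ, hϖ⟩ := IsDiscreteValuationRing.exists_irreducible ↥(descA A K₀)
  have hker : ∀ a, IsLocalRing.residue ↥(descA A K₀) a = 0 → ϖ ∣ a := by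
    intro a ha
    rw [IsLocalRing.residue_eq_zero_iff, hϖ.maximalIdeal_eq, Ideal.mem_span_singleton] at ha
    exact ha
  have hϖr : IsLocalRing.residue ↥(descA A K₀) ϖ = 0 := by
    rw [IsLocalRing.residue_eq_zero_iff, hϖ.maximalIdeal_eq]
    exact Ideal.mem_span_singleton_self ϖ
  have hφϖ : descIncl A K₀ ϖ ≠ 0 := by
    intro h
    exact hϖ.ne_zero (descIncl_injective A K₀ (h.trans (map_zero _).symm))
  -- `p` is a unit
  have hpk : ((p : ℕ) : kA A) ≠ 0 := root_natCast_ne_zero hℓ hA hp hpℓ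
  have hpA₀ : IsUnit ((p : ℕ) : ↥(descA A K₀)) := by
    apply isUnit_of_map_unit (descHom A K₀)
    rw [map_natCast]
    exact root_natCast_isUnit hℓ hA hp hpℓ
  have hpk₀ : ((p : ℕ) : IsLocalRing.ResidueField ↥(descA A K₀)) ≠ 0 := by
    have h2 : IsUnit (IsLocalRing.residue ↥(descA A K₀) (p : ↥(descA A K₀))) := hpA₀.map _
    rw [map_natCast] at h2
    exact h2.ne_zero
  -- the power series `G₀`, `H₀`
  have hfA : coeffMap (descHom A K₀) Sf = HahnSeries.ofPowerSeries ℤ A G := by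
    apply kronIncl_injective (A := A)
    rw [kronIncl_coeffMap_descHom, hSf, hGf]
  set G₀ : PowerSeries ↥(descA A K₀) := PowerSeries.mk (fun n => Sf.coeff n) with hG₀
  have hSf' : Sf = HahnSeries.ofPowerSeries ℤ ↥(descA A K₀) G₀ := by
    refine HahnSeries.ext (funext fun n => ?_)
    by_cases hn : 0 ≤ n
    · obtain ⟨m, rfl⟩ := Int.eq_ofNat_of_zero_le hn
      rw [HahnSeries.ofPowerSeries_apply_coeff, PowerSeries.coeff_mk]
    · rw [esm_ofPowerSeries_coeff_neg _ n (by omega)]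
      apply descHom_injective A K₀
      rw [map_zero, ← coeffMap_coeff, hfA, esm_ofPowerSeries_coeff_neg _ n (by omega)]
  have hG₀map : PowerSeries.map (descHom A K₀) G₀ = G := by
    ext m
    rw [PowerSeries.coeff_map, PowerSeries.coeff_mk, ← coeffMap_coeff, hfA,
      HahnSeries.ofPowerSeries_apply_coeff]
  have hG₀0 : PowerSeries.constantCoeff G₀ = 1 := by
    apply descHom_injective A K₀
    rw [map_one, ← hG0, ← hG₀map, ← PowerSeries.coeff_zero_eq_constantCoeff_apply,
      ← PowerSeries.coeff_zero_eq_constantCoeff_apply, PowerSeries.coeff_map]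
  have hG₀f : coeffMap (descIncl A K₀) (HahnSeries.ofPowerSeries ℤ ↥(descA A K₀) G₀) =
      (f : LaurentSeries Kb) := by
    rw [← hSf', hSf]
  obtain ⟨H₀, hH0, hHG⟩ := esm_exists_root p hpA₀ G₀ hG₀0
  have hGres : PowerSeries.map (IsLocalRing.residue A) G = 1 := by
    have h1 := hGred
    rw [esm_coeffMap_ofPowerSeries] at h1
    have h2 : HahnSeries.ofPowerSeries ℤ (kA A) (PowerSeries.map (IsLocalRing.residue A) G) =
        HahnSeries.ofPowerSeries ℤ (kA A) 1 := by rw [h1, map_one]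
    exact HahnSeries.ofPowerSeries_injective h2
  have hG₀res : PowerSeries.map (IsLocalRing.residue ↥(descA A K₀)) G₀ = 1 := by
    have hinj : Function.Injective (PowerSeries.map (descRes A K₀)) := by
      intro x y hxy
      ext m
      have := congrArg (PowerSeries.coeff m) hxy
      rw [PowerSeries.coeff_map, PowerSeries.coeff_map] at this
      exact (descRes A K₀).injective this
    apply hinj
    rw [map_one]
    have : PowerSeries.map (descRes A K₀)
        (PowerSeries.map (IsLocalRing.residue ↥(descA A K₀)) G₀) =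
          PowerSeries.map (IsLocalRing.residue A) (PowerSeries.map (descHom A K₀) G₀) := by
      ext m
      simp only [PowerSeries.coeff_map]
      exact congrArg (fun g : ↥(descA A K₀) →+* kA A => g (PowerSeries.coeff m G₀)) hρ
    rw [this, hG₀map, hGres]
  have hHred : PowerSeries.map (IsLocalRing.residue ↥(descA A K₀)) H₀ = 1 := by
    apply esm_root_unique p hpk₀
    · rw [← PowerSeries.coeff_zero_eq_constantCoeff_apply, PowerSeries.coeff_map,
        PowerSeries.coeff_zero_eq_constantCoeff_apply, hH0, map_one]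
    · exact map_one _
    · rw [← map_pow, hHG, hG₀res, one_pow]
  -- `f ≡ 1`
  have hf0 : f ≠ 0 := by
    intro h
    have h1 := congrArg (fun z : LaurentSeries Kb => z.coeff 0) hGf
    simp only [h, ZeroMemClass.coe_zero, HahnSeries.coeff_zero, coeffMap_coeff] at h1
    have h2 : (HahnSeries.ofPowerSeries ℤ A G).coeff ((0 : ℕ) : ℤ) = 1 := by
      rw [HahnSeries.ofPowerSeries_apply_coeff, PowerSeries.coeff_zero_eq_constantCoeff_apply, hG0]
    rw [Nat.cast_zero] at h2
    rw [h2] at h1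
    simp at h1
  have hGR1 : GaussRed N A f 1 := by
    have h1 := gr.of_incl (HahnSeries.ofPowerSeries ℤ A G) (by rw [hGf]; exact f.2)
    have h2 : (⟨kronIncl A (HahnSeries.ofPowerSeries ℤ A G), by rw [hGf]; exact f.2⟩ : FF N) = f :=
      Subtype.ext hGf
    rw [h2, hGred] at h1
    exact h1
  have hordf : (f : LaurentSeries Kb).order = 0 := by
    have hf0' : (f : LaurentSeries Kb) ≠ 0 := fun h => hf0 (Subtype.ext h)
    apply le_antisymm
    · apply HahnSeries.order_le_of_coeff_ne_zero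
      rw [← hGf, coeffMap_coeff]
      have h2 : (HahnSeries.ofPowerSeries ℤ A G).coeff ((0 : ℕ) : ℤ) = 1 := by
        rw [HahnSeries.ofPowerSeries_apply_coeff, PowerSeries.coeff_zero_eq_constantCoeff_apply,
          hG0]
      rw [Nat.cast_zero] at h2
      rw [h2]
      simp
    · by_contra hlt
      rw [not_le] at hlt
      apply hf0'
      apply HahnSeries.coeff_order_eq_zero.1
      rw [← hGf, coeffMap_coeff, esm_ofPowerSeries_coeff_neg _ _ (by rw [hGf]; exact hlt), map_zero]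
  have hDinf : D Pinf = 0 := by
    have h1 := hD Pinf
    rw [hPinf f hf0, hordf] at h1
    rcases mul_eq_zero.1 h1 with h | h
    · exact absurd (by exact_mod_cast h) hp.ne_zero
    · exact h
  -- the lattice
  let Λ : Submodule ↥(descA A K₀) (LaurentSeries ↥(descA A K₀)) :=
    { carrier := {Y | coeffMap (descIncl A K₀) Y ∈ rrImage E}
      zero_mem' := by
        show coeffMap (descIncl A K₀) 0 ∈ rrImage E
        rw [map_zero]
        exact zero_mem _
      add_mem' := by
        intro x y hx hy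
        show coeffMap (descIncl A K₀) (x + y) ∈ rrImage E
        rw [map_add]
        exact add_mem hx hy
      smul_mem' := by
        intro c Y hY
        show coeffMap (descIncl A K₀) (c • Y) ∈ rrImage E
        rw [esm_coeffMap_smul]
        exact (rrImage E).smul_mem _ hY }
  have hΛmem : ∀ Y, Y ∈ Λ ↔ coeffMap (descIncl A K₀) Y ∈ rrImage E := fun Y => Iff.rfl
  have hΛ : Λ.FG := by
    have : Module.Finite Kb ↥(riemannRochSpace E) := lw.rr_finite E
    have : FiniteDimensional Kb ↥(rrImage E) := Module.Finite.range (rrLin E)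
    exact esm_fg_of_forall_mem (descIncl A K₀) (descIncl_injective A K₀) (rrImage E) Λ
      (fun Y hY => hY)
  have hsat : ∀ Y : LaurentSeries ↥(descA A K₀), ϖ • Y ∈ Λ → Y ∈ Λ := by
    intro Y hY
    rw [hΛmem, esm_coeffMap_smul] at hY
    rw [hΛmem]
    have := (rrImage E).smul_mem (descIncl A K₀ ϖ)⁻¹ hY
    rwa [smul_smul, inv_mul_cancel₀ hφϖ, one_smul] at this
  have hΛord : ∀ Y ∈ Λ, ∀ m : ℤ, m < -(n₁ : ℤ) → Y.coeff m = 0 := by
    intro Y hY m hm
    obtain ⟨b, hbE, hb⟩ := mem_rrImage.1 ((hΛmem Y).1 hY)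
    apply descIncl_injective A K₀
    rw [map_zero, ← coeffMap_coeff, ← hb]
    rcases eq_or_ne b 0 with rfl | hb0
    · simp
    · have h1 := (mem_riemannRochSpace_iff.1 hbE Pinf).resolve_left hb0
      rw [hE, Finsupp.add_apply, Finsupp.single_eq_same, hDinf, zero_add, hPinf b hb0] at h1
      exact HahnSeries.coeff_eq_zero_of_lt_order (lt_of_lt_of_le hm h1)
  have hΛW : ∀ Y ∈ Λ,
      coeffMap ((descRes A K₀).comp (IsLocalRing.residue ↥(descA A K₀))) Y ∈ Wn N A n₁ := by
    intro Y hY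
    obtain ⟨b, hbE, hb⟩ := mem_rrImage.1 ((hΛmem Y).1 hY)
    rw [← kronRed_coeffMap_descHom]
    have hmemF : kronIncl A (coeffMap (descHom A K₀) Y) ∈ modularFunctionFieldBar N := by
      rw [kronIncl_coeffMap_descHom, ← hb]
      exact b.2
    have h1 := gr.of_incl (coeffMap (descHom A K₀) Y) hmemF
    have h2 : (⟨kronIncl A (coeffMap (descHom A K₀) Y), hmemF⟩ : FF N) = b :=
      Subtype.ext ((kronIncl_coeffMap_descHom A K₀ Y).trans hb.symm)
    rw [h2] at h1
    exact lw.mem_Wn hRedF hLRa p hp.pos f hf0 hGR1 D hD Pinf hPinf n₁ b hbE _ h1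
  have hWf : ∀ (m : ℕ) (w : LaurentSeries (kA A)), w ∈ Wn N A m →
      (∀ i : ℤ, i < -(n₁ : ℤ) → w.coeff i = 0) → w ∈ Wn N A n₁ :=
    fun m w hw hord => ⟨hw.1, hord⟩
  have h1W : (1 : LaurentSeries (kA A)) ∈ Wn N A n₁ := by
    refine ⟨⟨one_mem _, isIntegral_one⟩, fun m hm => ?_⟩
    rw [HahnSeries.coeff_one, if_neg (by omega)]
  have hBΛ : ∀ i, S i ∈ Λ := fun i => (hΛmem _).2 (hS i)
  have hBind : LinearIndependent ↥(descA A K₀) S := by
    refine esm_linearIndependent_of_coeffMap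
      ((descRes A K₀).comp (IsLocalRing.residue ↥(descA A K₀))) hϖ.not_isUnit hϖ.ne_zero ?_ S ?_
    · intro a ha
      apply hker
      exact (descRes A K₀).injective (ha.trans (map_zero _).symm)
    · simpa only [kronRed_coeffMap_descHom] using hSind
  have hstep : ∀ a ∈ Λ, ∀ s : ℕ, 1 ≤ s → ∀ c : LaurentSeries ↥(descA A K₀),
      a ^ p * HahnSeries.ofPowerSeries ℤ ↥(descA A K₀) G₀ - 1 = ϖ ^ s • c →
        ∃ m : ℕ,
          coeffMap ((descRes A K₀).comp (IsLocalRing.residue ↥(descA A K₀))) c ∈ Wn N A m := by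
    intro a ha s _ c hc
    obtain ⟨b, hbE, hb⟩ := mem_rrImage.1 ((hΛmem a).1 ha)
    rw [← kronRed_coeffMap_descHom]
    apply root_inW_mem_Wn
    have hc' : HahnSeries.C (descIncl A K₀ (ϖ ^ s)) * coeffMap (descIncl A K₀) c =
        (((b ^ p * f - 1 : FF N)) : LaurentSeries Kb) := by
      rw [HahnSeries.C_mul_eq_smul, ← esm_coeffMap_smul, ← hc, map_sub, map_mul, map_pow, ← hb,
        hG₀f, map_one]
      rfl
    have hϖs : descIncl A K₀ (ϖ ^ s) ≠ 0 := by
      rw [map_pow]
      exact pow_ne_zero s hφϖ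
    set y : FF N := algebraMap Kb (FF N) (descIncl A K₀ (ϖ ^ s))⁻¹ * (b ^ p * f - 1) with hy
    have hyc : (y : LaurentSeries Kb) = coeffMap (descIncl A K₀) c := by
      rw [hy]
      show ((algebraMap Kb (FF N) (descIncl A K₀ (ϖ ^ s))⁻¹ : FF N) : LaurentSeries Kb) *
        (((b ^ p * f - 1 : FF N)) : LaurentSeries Kb) = _
      rw [coe_algebraMap_FF, ← hc', ← mul_assoc, ← map_mul, inv_mul_cancel₀ hϖs, map_one, one_mul]
    have hmemF : kronIncl A (coeffMap (descHom A K₀) c) ∈ modularFunctionFieldBar N := by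
      rw [kronIncl_coeffMap_descHom, ← hyc]
      exact y.2
    have hyeq : (⟨kronIncl A (coeffMap (descHom A K₀) c), hmemF⟩ : FF N) = y :=
      Subtype.ext ((kronIncl_coeffMap_descHom A K₀ c).trans hyc.symm)
    refine root_inW_of_regOut hRedF _ hmemF ?_
    rw [hyeq, hy]
    exact (regOut_algebraMap _).mul
      (((lw.regOut p hp.pos f D hD Pinf hPinf n₁ b hbE).1).sub regOut_one)
  obtain ⟨a, haΛ, hah⟩ := esm_root_core (IsLocalRing.residue ↥(descA A K₀))
    IsLocalRing.residue_surjective hϖ hker hϖr (descRes A K₀) p hpA₀ G₀ H₀ hHG hHred Λ hΛ hsat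
    n₁ hΛord (Wn N A) hWf d hrank h1W hΛW S hBΛ hBind hstep
  obtain ⟨b, hbE, hb⟩ := mem_rrImage.1 ((hΛmem a).1 haΛ)
  have h2 : (b : LaurentSeries Kb) *
      coeffMap (descIncl A K₀) (HahnSeries.ofPowerSeries ℤ ↥(descA A K₀) H₀) = 1 := by
    rw [hb, ← map_mul, hah, map_one]
  have hb0 : b ≠ 0 := by
    rintro rfl
    rw [ZeroMemClass.coe_zero, zero_mul] at h2
    exact zero_ne_one h2
  refine ⟨b⁻¹, ?_⟩
  apply Subtype.ext
  have h3 : ((b⁻¹ : FF N) : LaurentSeries Kb) =
      coeffMap (descIncl A K₀) (HahnSeries.ofPowerSeries ℤ ↥(descA A K₀) H₀) := by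
    have h4 : ((b⁻¹ : FF N) : LaurentSeries Kb) * (b : LaurentSeries Kb) = 1 := by
      have := congrArg (fun z : FF N => (z : LaurentSeries Kb)) (inv_mul_cancel₀ hb0)
      exact this
    calc ((b⁻¹ : FF N) : LaurentSeries Kb)
        = ((b⁻¹ : FF N) : LaurentSeries Kb) * ((b : LaurentSeries Kb) *
            coeffMap (descIncl A K₀) (HahnSeries.ofPowerSeries ℤ ↥(descA A K₀) H₀)) := by
          rw [h2, mul_one]
      _ = coeffMap (descIncl A K₀) (HahnSeries.ofPowerSeries ℤ ↥(descA A K₀) H₀) := by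
          rw [← mul_assoc, h4, one_mul]
  show (((b⁻¹ : FF N) ^ p : FF N) : LaurentSeries Kb) = (f : LaurentSeries Kb)
  rw [← hG₀f, ← hHG, map_pow, map_pow, ← h3]
  rfl

end Concrete

end Fermat.Agent.ES.M

namespace Fermat.Agent.ES.M

open ModularCurve AlgebraicCurve HahnSeries Fermat.Agent.ES Fermat.Agent.S24 Module

/-- **Step C** from the sub-pieces RT0, RT1 -/
theorem stmtRootOf_of (hRRInt : StmtRRInt) (hDesc : StmtDescent) : StmtRootOf := by
  intro N _ ℓ hℓ _ A hA gr lw hRedF hLRa hQ2 hR hI2 p hp hpℓ f hf hdiv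
  classical
  have hf' := hf
  obtain ⟨G, hG0, hGf, hGred⟩ := hf
  have hf0 : f ≠ 0 := by
    intro h
    have h1 := congrArg (fun z : LaurentSeries Kb => z.coeff 0) hGf
    simp only [h, ZeroMemClass.coe_zero, HahnSeries.coeff_zero, coeffMap_coeff] at h1
    have h2 : (HahnSeries.ofPowerSeries ℤ A G).coeff ((0 : ℕ) : ℤ) = 1 := by
      rw [HahnSeries.ofPowerSeries_apply_coeff, PowerSeries.coeff_zero_eq_constantCoeff_apply, hG0]
    rw [Nat.cast_zero] at h2
    rw [h2] at h1
    simp at h1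
  obtain ⟨Pinf, hPinf, hPdeg⟩ := exists_isCuspInfty N
  obtain ⟨D, hD, hDdeg⟩ := lw.exists_div p hp.pos f hf0 hdiv
  obtain ⟨n₀, hn₀⟩ := hI2
  obtain ⟨hfin, hrank⟩ := hn₀ (max n₀ (gN N)) (le_max_left _ _)
  set n₁ := max n₀ (gN N) with hn₁
  have hg : gN N ≤ n₁ := le_max_right _ _
  set E : Divisor Kb (FF N) := D + Finsupp.single Pinf (n₁ : ℤ) with hE
  have hEdeg : Divisor.degree E = n₁ := by
    rw [hE, map_add, hDdeg, Divisor.degree_single, hPdeg]
    simp
  obtain ⟨a, ha_ind, ha_mem⟩ := lw.exists_indep hR E (n₁ + 1 - gN N) (by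
    rw [hEdeg]
    push_cast [Nat.cast_sub (by omega : gN N ≤ n₁ + 1)]
    omega)
  obtain ⟨b, w, hb_span, hbw, hw_ind⟩ := hQ2 (n₁ + 1 - gN N) a ha_ind
  have hbE : ∀ i, b i ∈ riemannRochSpace E := fun i =>
    (Submodule.span_le.2 (by rintro _ ⟨j, rfl⟩; exact ha_mem j)) (hb_span i)
  have hbInt : ∀ i, KronInt A ((b i : FF N) : LaurentSeries Kb) := fun i =>
    hRRInt N ℓ hℓ A hA gr lw hLRa p hp.pos f hf' D hD Pinf hPinf n₁ (b i) (hbE i) ⟨w i, hbw i⟩
  have hfInt : KronInt A (f : LaurentSeries Kb) := by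
    rw [← hGf]
    exact kronInt_kronIncl _
  obtain ⟨K₀, hDVR, hlift⟩ := hDesc N ℓ hℓ A hA
    (insert (f : LaurentSeries Kb)
      (Finset.univ.image fun i => ((b i : FF N) : LaurentSeries Kb)))
    (by
      intro y hy
      rcases Finset.mem_insert.1 hy with rfl | hy
      · exact f.2
      · obtain ⟨i, -, rfl⟩ := Finset.mem_image.1 hy
        exact (b i).2)
    (by
      intro y hy
      rcases Finset.mem_insert.1 hy with rfl | hy
      · exact hfInt
      · obtain ⟨i, -, rfl⟩ := Finset.mem_image.1 hy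
        exact hbInt i)
  have : IsDiscreteValuationRing ↥(descA A K₀) := hDVR
  obtain ⟨Sf, hSf⟩ := hlift _ (Finset.mem_insert_self _ _)
  choose S hS using fun i => hlift _
    (Finset.mem_insert_of_mem (Finset.mem_image_of_mem
      (fun i => ((b i : FF N) : LaurentSeries Kb)) (Finset.mem_univ i)))
  have := hfin
  refine root_concrete hℓ hA gr lw hRedF hLRa hp hpℓ f G hG0 hGf hGred D hD Pinf hPinf n₁
    (n₁ + 1 - gN N) (by omega) K₀ Sf hSf S ?_ ?_
  · intro i
    exact mem_rrImage.2 ⟨b i, hbE i, (hS i).symm⟩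
  · have hred : (fun i => kronRed A (coeffMap (descHom A K₀) (S i))) = w := by
      funext i
      have hmemF : kronIncl A (coeffMap (descHom A K₀) (S i)) ∈ modularFunctionFieldBar N := by
        rw [kronIncl_coeffMap_descHom]
        exact (hS i).symm ▸ (b i).2
      have h1 := gr.of_incl (coeffMap (descHom A K₀) (S i)) hmemF
      have h2 : (⟨kronIncl A (coeffMap (descHom A K₀) (S i)), hmemF⟩ : FF N) = b i :=
        Subtype.ext ((kronIncl_coeffMap_descHom A K₀ (S i)).trans (hS i))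
      rw [h2] at h1
      exact gr.unique _ _ _ h1 (hbw i)
    rw [hred]
    exact hw_ind

end Fermat.Agent.ES.M
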