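import Mathlib
import Fermat.Prelude.Def_ModularCurve_LaurentCoeff
import Fermat.Agent.ES.M.Lattice
import Fermat.Agent.ES.M.Newton

/-!
# Route 2 of (INJ): Step 2 (surjectivity of the reduction `Λ → W`), pure linear algebra

`A₀` a DVR with uniformiser `ϖ`, residue field `k₀` (`r : A₀ → k₀`), `k₀ → k` a field extension.
`Λ ⊆ A₀((q))` a finitely generated saturated submodule containing `d` linearly independent
elements, `W ⊆ k((q))` a `k`-subspace of dimension `≤ d` containing the reductions of `Λ`.
Then every `w ∈ k₀((q))` whose image lies in `W` is the reduction of an element of `Λ`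
(`esm_surj`).
-/

set_option autoImplicit false

namespace Fermat.Agent.ES.M

open ModularCurve Module

section CoeffMapLinear

variable {R S : Type*} [CommRing R] [CommRing S]

theorem esm_coeffMap_smul (f : R →+* S) (c : R) (Y : LaurentSeries R) :
    coeffMap f (c • Y) = f c • coeffMap f Y := by
  ext n
  simp

theorem esm_coeffMap_sum (f : R →+* S) {ι : Type*} (s : Finset ι) (c : ι → R)
    (Y : ι → LaurentSeries R) :
    coeffMap f (∑ i ∈ s, c i • Y i) = ∑ i ∈ s, f (c i) • coeffMap f (Y i) := by
  rw [map_sum]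
  exact Finset.sum_congr rfl fun i _ => esm_coeffMap_smul f _ _

end CoeffMapLinear

section BaseChangeLaurent

variable {k₀ k : Type*} [Field k₀] [Field k]

/-- the coefficient function, as a linear map -/
noncomputable def esmCoeffLin (K : Type*) [Field K] : LaurentSeries K →ₗ[K] (ℤ → K) where
  toFun x := x.coeff
  map_add' x y := by ext n; simp
  map_smul' c x := by ext n; simp

theorem esmCoeffLin_injective (K : Type*) [Field K] : Function.Injective (esmCoeffLin K) :=
  fun x y h => by ext n; exact congrFun h n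

/-- (LA1) for Laurent series -/
theorem esm_linearIndependent_coeffMap (f : k₀ →+* k) {n : ℕ} (v : Fin n → LaurentSeries k₀)
    (hv : LinearIndependent k₀ v) :
    LinearIndependent k (fun i => coeffMap f (v i)) := by
  have h1 : LinearIndependent k₀ (fun i => esmCoeffLin k₀ (v i)) :=
    hv.map' (esmCoeffLin k₀) (LinearMap.ker_eq_bot.2 (esmCoeffLin_injective k₀))
  have h2 := esm_linearIndependent_map f _ h1
  have h3 : (fun i => (fun x => f (esmCoeffLin k₀ (v i) x) : ℤ → k)) =
      (esmCoeffLin k) ∘ (fun i => coeffMap f (v i)) := by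
    funext i x
    rfl
  rw [h3] at h2
  exact LinearIndependent.of_comp _ h2

end BaseChangeLaurent

section Surj

variable {A₀ : Type*} [CommRing A₀] [IsDomain A₀] [IsDiscreteValuationRing A₀]
variable {k₀ k : Type*} [Field k₀] [Field k]

omit [IsDiscreteValuationRing A₀] in
theorem esm_noZeroSMulDivisors_laurent : NoZeroSMulDivisors A₀ (LaurentSeries A₀) where
  eq_zero_or_eq_zero_of_smul_eq_zero := by
    intro c x h
    by_cases hc : c = 0
    · exact Or.inl hc
    · right
      ext n
      have := congrArg (fun z : LaurentSeries A₀ => z.coeff n) h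
      simp only [HahnSeries.coeff_smul, HahnSeries.coeff_zero, smul_eq_mul, mul_eq_zero] at this
      exact this.resolve_left hc

/-- **Step 2** (surjectivity of the reduction on the lattice). -/
theorem esm_surj (r : A₀ →+* k₀) (hr : Function.Surjective r) {ϖ : A₀}
    (hker : ∀ a, r a = 0 → ϖ ∣ a) (hϖr : r ϖ = 0) (ι₀ : k₀ →+* k)
    (Λ : Submodule A₀ (LaurentSeries A₀)) (hΛ : Λ.FG)
    (hsat : ∀ Y : LaurentSeries A₀, ϖ • Y ∈ Λ → Y ∈ Λ)
    (W : Submodule k (LaurentSeries k)) [Module.Finite k W] (d : ℕ)
    (hW : Module.finrank k W ≤ d)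
    (hΛW : ∀ Y ∈ Λ, coeffMap (ι₀.comp r) Y ∈ W)
    (B : Fin d → LaurentSeries A₀) (hB : ∀ i, B i ∈ Λ) (hBind : LinearIndependent A₀ B) :
    ∀ w : LaurentSeries k₀, coeffMap ι₀ w ∈ W → ∃ a ∈ Λ, coeffMap r a = w := by
  classical
  have hϖ0 : ϖ ≠ 0 := by
    rintro rfl
    -- then `r` is injective, hence `A₀` is a field: contradiction with DVR
    have hinj : Function.Injective r := by
      rw [injective_iff_map_eq_zero]
      intro a ha
      exact zero_dvd_iff.1 (hker a ha)
    have hfield : IsField A₀ := by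
      refine ⟨⟨0, 1, zero_ne_one⟩, mul_comm, fun {a} ha => ?_⟩
      obtain ⟨b, hb⟩ := hr ((r a)⁻¹)
      refine ⟨b, hinj ?_⟩
      rw [map_mul, hb, map_one, mul_inv_cancel₀]
      exact fun h0 => ha (hinj (h0.trans (map_zero r).symm))
    exact IsDiscreteValuationRing.not_isField A₀ hfield
  have : Module.Finite A₀ Λ := Module.Finite.iff_fg.2 hΛ
  have := esm_noZeroSMulDivisors_laurent (A₀ := A₀)
  have : Module.Free A₀ Λ := Module.free_of_finite_type_torsion_free'
  let e := Module.finBasis A₀ Λ
  set m := Module.finrank A₀ Λ with hm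
  -- `d ≤ m`
  have hdm : d ≤ m := by
    have hB' : LinearIndependent A₀ (fun i => (⟨B i, hB i⟩ : Λ)) := by
      refine LinearIndependent.of_comp Λ.subtype ?_
      exact hBind
    simpa using hB'.fintype_card_le_finrank
  -- the reductions of the basis are `k₀`-independent
  have hred : LinearIndependent k₀ (fun i => coeffMap r (e i : LaurentSeries A₀)) := by
    rw [Fintype.linearIndependent_iff]
    intro c hc
    choose c' hc' using fun i => hr (c i)
    have h1 : coeffMap r (∑ i, c' i • (e i : LaurentSeries A₀)) = 0 := by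
      rw [esm_coeffMap_sum, ← hc]
      exact Finset.sum_congr rfl fun i _ => by rw [hc']
    obtain ⟨Y, hY⟩ := esm_exists_smul_of_coeffMap_eq_zero r hker _ h1
    have hYΛ : Y ∈ Λ := hsat Y (hY ▸ Λ.sum_mem fun i _ => Λ.smul_mem _ (e i).2)
    -- coordinates
    have h2 : (∑ i, c' i • e i : Λ) = ϖ • (⟨Y, hYΛ⟩ : Λ) := by
      apply Subtype.ext
      rw [Submodule.coe_sum, Submodule.coe_smul]
      simpa using hY
    intro i
    have h3 : c' i = ϖ * e.repr ⟨Y, hYΛ⟩ i := by
      have hl : e.repr (∑ i, c' i • e i) i = c' i :=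
        congrFun (e.repr_sum_self c') i
      have hrr : e.repr (ϖ • (⟨Y, hYΛ⟩ : Λ)) = ϖ • e.repr ⟨Y, hYΛ⟩ := map_smul _ _ _
      rw [← hl, h2, hrr]
      simp
    rw [← hc' i, h3, map_mul, hϖr, zero_mul]
  -- images in `k((q))`
  have hredk : LinearIndependent k
      (fun i => coeffMap ι₀ (coeffMap r (e i : LaurentSeries A₀))) :=
    esm_linearIndependent_coeffMap ι₀ _ hred
  have hmemW : ∀ i, coeffMap ι₀ (coeffMap r (e i : LaurentSeries A₀)) ∈ W := fun i => by
    rw [coeffMap_coeffMap]
    exact hΛW _ (e i).2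
  have hmd : m ≤ d := by
    have h1 : LinearIndependent k (fun i => (⟨_, hmemW i⟩ : W)) :=
      LinearIndependent.of_comp W.subtype hredk
    have h2 := h1.fintype_card_le_finrank
    simp only [Fintype.card_fin] at h2
    omega
  intro w hw
  have hdep : ¬ LinearIndependent k₀
      (Fin.snoc (fun i => coeffMap r (e i : LaurentSeries A₀)) w :
        Fin (m + 1) → LaurentSeries k₀) := by
    intro hli
    have h5 := esm_linearIndependent_coeffMap ι₀ _ hli
    have h6 : ∀ i, coeffMap ι₀ ((Fin.snoc (fun i => coeffMap r (e i : LaurentSeries A₀)) w :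
        Fin (m + 1) → LaurentSeries k₀) i) ∈ W := by
      intro i
      refine Fin.lastCases ?_ (fun j => ?_) i
      · simpa using hw
      · simpa using hmemW j
    have h7 : LinearIndependent k (fun i => (⟨_, h6 i⟩ : W)) :=
      LinearIndependent.of_comp W.subtype h5
    have h8 := h7.fintype_card_le_finrank
    simp only [Fintype.card_fin] at h8
    omega
  rw [linearIndependent_finSnoc] at hdep
  have hwspan : w ∈ Submodule.span k₀
      (Set.range fun i => coeffMap r (e i : LaurentSeries A₀)) := by
    by_contra h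
    exact hdep ⟨hred, h⟩
  obtain ⟨c, hc⟩ := (Submodule.mem_span_range_iff_exists_fun k₀).1 hwspan
  choose c' hc' using fun i => hr (c i)
  refine ⟨∑ i, c' i • (e i : LaurentSeries A₀),
    Λ.sum_mem fun i _ => Λ.smul_mem _ (e i).2, ?_⟩
  rw [esm_coeffMap_sum, ← hc]
  exact Finset.sum_congr rfl fun i _ => by rw [hc']

end Surj

end Fermat.Agent.ES.M
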