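import Mathlib
import Fermat.Prelude.Def_ModularCurve_LaurentCoeff
import Fermat.Agent.ES.M.Newton
import Fermat.Agent.ES.M.Surj
import Fermat.Agent.ES.M.PS

/-!
# Route 2 of (INJ): Step C (the `π`-adic Newton iteration), abstract form

`A₀` a DVR with uniformiser `ϖ` and residue map `r : A₀ → k₀`, `k₀ → k` a field extension,
`H ∈ A₀⟦q⟧` with constant coefficient `1` and `H ≡ 1 mod ϖ`, `G = H ^ p`, `p ∈ A₀ˣ`.
`Λ ⊆ A₀((q))` a finitely generated saturated lattice with pole orders `≤ n₁`, containing `d`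
independent elements; `Wf m ⊆ k((q))` an increasing family of subspaces (`Wf m` = pole order
`≤ m`) with `dim Wf n₁ ≤ d`, containing the reductions of `Λ`, and such that for every `a ∈ Λ`
with `a ^ p * G ≡ 1 mod ϖ ^ s`, `s ≥ 1`, the reduction of `(a ^ p * G - 1) / ϖ ^ s` lies in some
`Wf m`.  Then `H` has an inverse in `Λ`  (`esm_root_core`).
-/

set_option autoImplicit false

namespace Fermat.Agent.ES.M

open ModularCurve Module

section Aux

variable {R S : Type*} [CommRing R] [CommRing S]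

theorem esm_ofPowerSeries_coeff_neg (P : PowerSeries R) (n : ℤ) (hn : n < 0) :
    (HahnSeries.ofPowerSeries ℤ R P).coeff n = 0 := by
  rw [HahnSeries.ofPowerSeries_apply]
  apply HahnSeries.embDomain_of_notMem_range
  rintro ⟨m, hm⟩
  rw [← hm] at hn
  simp only [Nat.castOrderEmbedding_apply] at hn
  omega

theorem esm_coeffMap_ofPowerSeries (f : R →+* S) (G : PowerSeries R) :
    coeffMap f (HahnSeries.ofPowerSeries ℤ R G) =
      HahnSeries.ofPowerSeries ℤ S (PowerSeries.map f G) := by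
  ext n
  rw [coeffMap_coeff]
  by_cases hn : 0 ≤ n
  · obtain ⟨m, rfl⟩ := Int.eq_ofNat_of_zero_le hn
    rw [HahnSeries.ofPowerSeries_apply_coeff, HahnSeries.ofPowerSeries_apply_coeff,
      PowerSeries.coeff_map]
  · rw [esm_ofPowerSeries_coeff_neg _ n (by omega), esm_ofPowerSeries_coeff_neg _ n (by omega),
      map_zero]

/-- pole order `≤ n` is preserved by multiplication with a power series -/
theorem esm_coeff_mul_ofPowerSeries_eq_zero (n : ℕ) (a : LaurentSeries R)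
    (ha : ∀ m : ℤ, m < -(n : ℤ) → a.coeff m = 0) (H : PowerSeries R) :
    ∀ m : ℤ, m < -(n : ℤ) → (a * HahnSeries.ofPowerSeries ℤ R H).coeff m = 0 := by
  intro m hm
  rw [HahnSeries.coeff_mul]
  apply Finset.sum_eq_zero
  rintro ⟨i, j⟩ hij
  rw [Finset.mem_antidiagonal] at hij
  obtain ⟨hi, hj, hsum⟩ := hij
  simp only at hsum hi hj ⊢
  by_cases hj0 : 0 ≤ j
  · rw [ha i (by omega), zero_mul]
  · rw [esm_ofPowerSeries_coeff_neg _ j (by omega), mul_zero]

end Aux

section Core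

variable {A₀ : Type*} [CommRing A₀] [IsDomain A₀] [IsDiscreteValuationRing A₀]
variable {k₀ k : Type*} [Field k₀] [Field k]

omit [IsDiscreteValuationRing A₀] in
/-- a family of Laurent series whose reductions are linearly independent is linearly
independent -/
theorem esm_linearIndependent_of_coeffMap [WfDvdMonoid A₀] (ρ : A₀ →+* k) {ϖ : A₀}
    (hϖ : ¬ IsUnit ϖ) (hϖ0 : ϖ ≠ 0) (hker : ∀ a, ρ a = 0 → ϖ ∣ a) {d : ℕ}
    (S : Fin d → LaurentSeries A₀)
    (hS : LinearIndependent k (fun i => coeffMap ρ (S i))) : LinearIndependent A₀ S := by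
  have := esm_noZeroSMulDivisors_laurent (A₀ := A₀)
  rw [Fintype.linearIndependent_iff] at hS ⊢
  intro c hc
  have key : ∀ n : ℕ, ∀ i, ϖ ^ n ∣ c i := by
    intro n
    induction n with
    | zero => intro i; simp
    | succ n ih =>
      choose c' hc' using ih
      have h1 : ϖ ^ n • ∑ i, c' i • S i = 0 := by
        rw [Finset.smul_sum, ← hc]
        exact Finset.sum_congr rfl fun i _ => by rw [smul_smul, ← hc' i]
      have h2 : ∑ i, c' i • S i = 0 :=
        (smul_eq_zero.1 h1).resolve_left (pow_ne_zero n hϖ0)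
      have h3 : ∑ i, ρ (c' i) • coeffMap ρ (S i) = 0 := by
        rw [← esm_coeffMap_sum, h2, map_zero]
      intro i
      obtain ⟨e, he⟩ := hker _ (hS _ h3 i)
      exact ⟨e, by rw [hc' i, he, pow_succ, mul_assoc]⟩
  intro i
  by_contra hci
  obtain ⟨n, hn⟩ := FiniteMultiplicity.of_not_isUnit hϖ hci
  exact hn (key (n + 1) i)

/-- **Step C, abstract form.** -/
theorem esm_root_core (r : A₀ →+* k₀) (hr : Function.Surjective r) {ϖ : A₀}
    (hϖ : Irreducible ϖ) (hker : ∀ a, r a = 0 → ϖ ∣ a) (hϖr : r ϖ = 0) (ι₀ : k₀ →+* k)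
    (p : ℕ) (hp : IsUnit (p : A₀))
    (G H : PowerSeries A₀) (hHG : H ^ p = G) (hHred : PowerSeries.map r H = 1)
    (Λ : Submodule A₀ (LaurentSeries A₀)) (hΛ : Λ.FG)
    (hsat : ∀ Y : LaurentSeries A₀, ϖ • Y ∈ Λ → Y ∈ Λ)
    (n₁ : ℕ) (hΛord : ∀ Y ∈ Λ, ∀ m : ℤ, m < -(n₁ : ℤ) → Y.coeff m = 0)
    (Wf : ℕ → Submodule k (LaurentSeries k)) [Module.Finite k (Wf n₁)]
    (hWf : ∀ (m : ℕ) (w : LaurentSeries k), w ∈ Wf m →
      (∀ i : ℤ, i < -(n₁ : ℤ) → w.coeff i = 0) → w ∈ Wf n₁)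
    (d : ℕ) (hWd : Module.finrank k (Wf n₁) ≤ d)
    (h1 : (1 : LaurentSeries k) ∈ Wf n₁)
    (hΛW : ∀ Y ∈ Λ, coeffMap (ι₀.comp r) Y ∈ Wf n₁)
    (B : Fin d → LaurentSeries A₀) (hB : ∀ i, B i ∈ Λ) (hBind : LinearIndependent A₀ B)
    (hstep : ∀ a ∈ Λ, ∀ s : ℕ, 1 ≤ s → ∀ c : LaurentSeries A₀,
      a ^ p * HahnSeries.ofPowerSeries ℤ A₀ G - 1 = ϖ ^ s • c →
        ∃ m : ℕ, coeffMap (ι₀.comp r) c ∈ Wf m) :
    ∃ a ∈ Λ, a * HahnSeries.ofPowerSeries ℤ A₀ H = 1 := by
  have := esm_isScalarTower_laurent (A₀ := A₀)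
  have := esm_smulCommClass_laurent (A₀ := A₀)
  set h : LaurentSeries A₀ := HahnSeries.ofPowerSeries ℤ A₀ H with hh
  have hhred : coeffMap r h = 1 := by
    rw [hh, esm_coeffMap_ofPowerSeries, hHred, map_one]
  have hhp : h ^ p = HahnSeries.ofPowerSeries ℤ A₀ G := by
    rw [hh, ← map_pow, hHG]
  have hpk : ((p : ℕ) : k) ≠ 0 := by
    have h2 : IsUnit ((ι₀.comp r) (p : A₀)) := hp.map _
    rw [map_natCast] at h2
    exact h2.ne_zero
  have hϖ0 : ϖ ≠ 0 := hϖ.ne_zero
  have hϖk : (ι₀.comp r) ϖ = 0 := by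
    rw [RingHom.comp_apply, hϖr, map_zero]
  refine esm_newton r hϖ hker Λ hΛ h hhred {w | coeffMap ι₀ w ∈ Wf n₁} ?_ ?_
  · intro w hw
    exact esm_surj r hr hker hϖr ι₀ Λ hΛ hsat (Wf n₁) d hWd hΛW B hB hBind w hw
  · intro a ha s b hab
    show coeffMap ι₀ (coeffMap r b) ∈ Wf n₁
    rw [coeffMap_coeffMap]
    -- pole order of `b`
    have hbord : ∀ m : ℤ, m < -(n₁ : ℤ) → b.coeff m = 0 := by
      intro m hm
      have h3 := congrArg (fun z : LaurentSeries A₀ => z.coeff m) hab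
      simp only [HahnSeries.coeff_sub, HahnSeries.coeff_smul, smul_eq_mul] at h3
      rw [esm_coeff_mul_ofPowerSeries_eq_zero n₁ a (hΛord a ha) H m hm] at h3
      have h4 : (1 : LaurentSeries A₀).coeff m = 0 := by
        rw [HahnSeries.coeff_one, if_neg (by omega)]
      rw [h4, sub_zero] at h3
      rcases mul_eq_zero.1 h3.symm with h5 | h5
      · exact absurd h5 (pow_ne_zero s hϖ0)
      · exact h5
    have hbord' : ∀ m : ℤ, m < -(n₁ : ℤ) → (coeffMap (ι₀.comp r) b).coeff m = 0 := by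
      intro m hm
      rw [coeffMap_coeff, hbord m hm, map_zero]
    rcases Nat.eq_zero_or_pos s with hs | hs
    · -- `s = 0`
      subst hs
      rw [pow_zero, one_smul] at hab
      rw [← hab, map_sub, map_mul, map_one]
      have h5 : coeffMap (ι₀.comp r) h = 1 := by
        rw [← coeffMap_coeffMap, hhred, map_one]
      rw [h5, mul_one]
      exact sub_mem (hΛW a ha) h1
    · -- `s ≥ 1`
      obtain ⟨G₂, hG₂⟩ := esm_add_pow_mod_sq (1 : LaurentSeries A₀) (ϖ ^ s • b) p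
      have hah : a * h = 1 + ϖ ^ s • b := by rw [← hab]; ring
      have hc : a ^ p * HahnSeries.ofPowerSeries ℤ A₀ G - 1 =
          ϖ ^ s • ((p : A₀) • b + ϖ ^ s • (b ^ 2 * G₂)) := by
        rw [← hhp, ← mul_pow, hah, hG₂]
        simp only [← HahnSeries.C_mul_eq_smul, one_pow, mul_one, map_natCast]
        ring
      obtain ⟨m, hm⟩ := hstep a ha s hs _ hc
      have hred : coeffMap (ι₀.comp r) ((p : A₀) • b + ϖ ^ s • (b ^ 2 * G₂)) =
          ((p : ℕ) : k) • coeffMap (ι₀.comp r) b := by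
        rw [map_add, esm_coeffMap_smul, esm_coeffMap_smul, map_pow, hϖk,
          zero_pow (by omega : s ≠ 0), zero_smul, add_zero, map_natCast]
      rw [hred] at hm
      have h6 : coeffMap (ι₀.comp r) b ∈ Wf m := by
        have := (Wf m).smul_mem ((p : k)⁻¹) hm
        rwa [smul_smul, inv_mul_cancel₀ hpk, one_smul] at this
      exact hWf m _ h6 hbord'

end Core

end Fermat.Agent.ES.M
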