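import Fermat.Agent.ES.M.GluePlan
import Fermat.Agent.ES.M.CuspInfty
import Fermat.Agent.ES.M.RootCore

/-!
# ES / M — Step C of the glue: auxiliary lemmas

* `regOut_one`, `RegOut.sub`, `RegOut.mul`, `regOut_algebraMap` : the functions regular outside `∞`
  form a `ℚ̄`-subalgebra.
* `descHom A K₀ : A ∩ K₀ →+* A`, injective and local; compatibility of `kronIncl`, `kronRed` with
  the coefficient maps of `A ∩ K₀`.
* `rrLin`, `rrImage` : `L(E)` as a finite-dimensional subspace of `ℚ̄((q))` (for the `HahnSeries`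
  module structure).
-/

set_option autoImplicit false

noncomputable section

namespace Fermat.Agent.ES.M

open ModularCurve AlgebraicCurve HahnSeries Fermat.Agent.ES Fermat.Agent.S24

section RegOutAPI

variable {N : ℕ} [NeZero N]

omit [NeZero N] in
theorem regOut_iff_mem (x : FF N) :
    RegOut N x ↔ ∀ P : Place Kb (FF N), ¬ IsCuspInfty N P → x ∈ P.toValuationSubring := by
  constructor
  · intro h P hP
    exact PlaceAux.mem_of_ord_nonneg P (h P hP)
  · intro h P hP
    rcases eq_or_ne x 0 with rfl | hx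
    · simp
    · exact (PlaceAux.ord_nonneg_iff P hx).2 (h P hP)

omit [NeZero N] in
theorem regOut_one : RegOut N (1 : FF N) := by
  rw [regOut_iff_mem]
  exact fun P _ => one_mem _

omit [NeZero N] in
theorem RegOut.sub {x y : FF N} (hx : RegOut N x) (hy : RegOut N y) : RegOut N (x - y) := by
  rw [regOut_iff_mem] at hx hy ⊢
  exact fun P hP => sub_mem (hx P hP) (hy P hP)

omit [NeZero N] in
theorem RegOut.mul {x y : FF N} (hx : RegOut N x) (hy : RegOut N y) : RegOut N (x * y) := by
  rw [regOut_iff_mem] at hx hy ⊢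
  exact fun P hP => mul_mem (hx P hP) (hy P hP)

omit [NeZero N] in
theorem regOut_algebraMap (c : Kb) : RegOut N (algebraMap Kb (FF N) c) := by
  intro P _
  rw [PlaceAux.ord_algebraMap]

end RegOutAPI

section Desc

variable (A : ValuationSubring Kb) (K₀ : IntermediateField ℚ Kb)

/-- `A ∩ K₀` -/
abbrev descA : ValuationSubring ↥K₀ := A.comap (algebraMap ↥K₀ Kb)

/-- `A ∩ K₀ → ℚ̄` -/
abbrev descIncl : ↥(descA A K₀) →+* Kb := (algebraMap ↥K₀ Kb).comp (descA A K₀).subtype

/-- `A ∩ K₀ → A` -/
def descHom : ↥(descA A K₀) →+* A :=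
  (descIncl A K₀).codRestrict A.toSubring (fun a => a.2)

theorem descHom_coe (a : ↥(descA A K₀)) :
    ((descHom A K₀ a : A) : Kb) = algebraMap ↥K₀ Kb (a : ↥K₀) := rfl

theorem descIncl_injective : Function.Injective (descIncl A K₀) := by
  intro a b h
  exact Subtype.ext ((algebraMap ↥K₀ Kb).injective h)

theorem descHom_injective : Function.Injective (descHom A K₀) := by
  intro a b h
  apply descIncl_injective A K₀
  exact congrArg (Subtype.val : A → Kb) h

theorem subtype_comp_descHom : A.subtype.comp (descHom A K₀) = descIncl A K₀ := rfl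

instance descHom_isLocalHom : IsLocalHom (descHom A K₀) where
  map_nonunit := by
    intro a ha
    have ha0 : (a : ↥K₀) ≠ 0 := by
      intro h0
      have : a = 0 := Subtype.ext h0
      rw [this, map_zero] at ha
      exact not_isUnit_zero ha
    obtain ⟨u, hu⟩ := ha
    have hinv : algebraMap ↥K₀ Kb ((a : ↥K₀)⁻¹) ∈ A := by
      have h1 : ((u⁻¹ : Aˣ) : A) * descHom A K₀ a = 1 := by rw [← hu]; exact u.inv_mul
      have h2 : (((u⁻¹ : Aˣ) : A) : Kb) * algebraMap ↥K₀ Kb (a : ↥K₀) = 1 := by
        have := congrArg (Subtype.val : A → Kb) h1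
        exact this
      have h3 : algebraMap ↥K₀ Kb (a : ↥K₀) ≠ 0 := by
        intro h
        exact ha0 ((map_eq_zero (algebraMap ↥K₀ Kb)).1 h)
      rw [map_inv₀, ← eq_inv_of_mul_eq_one_left h2]
      exact (u⁻¹ : Aˣ).1.2
    refine IsUnit.of_mul_eq_one (⟨(a : ↥K₀)⁻¹, hinv⟩ : ↥(descA A K₀)) ?_
    exact Subtype.ext (mul_inv_cancel₀ ha0)

theorem kronIncl_coeffMap_descHom (Y : LaurentSeries ↥(descA A K₀)) :
    kronIncl A (coeffMap (descHom A K₀) Y) = coeffMap (descIncl A K₀) Y := by
  rw [coeffMap_coeffMap]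
  rfl

/-- the map of residue fields -/
def descRes : IsLocalRing.ResidueField ↥(descA A K₀) →+* kA A :=
  IsLocalRing.ResidueField.map (descHom A K₀)

theorem descRes_comp_residue :
    (descRes A K₀).comp (IsLocalRing.residue ↥(descA A K₀)) =
      (IsLocalRing.residue A).comp (descHom A K₀) := by
  ext a
  rfl

theorem kronRed_coeffMap_descHom (Y : LaurentSeries ↥(descA A K₀)) :
    kronRed A (coeffMap (descHom A K₀) Y) =
      coeffMap ((descRes A K₀).comp (IsLocalRing.residue ↥(descA A K₀))) Y := by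
  rw [coeffMap_coeffMap, descRes_comp_residue]

end Desc

section RRImage

variable {N : ℕ} [NeZero N]

omit [NeZero N] in
theorem coe_algebraMap_FF (c : Kb) :
    ((algebraMap Kb (FF N) c : FF N) : LaurentSeries Kb) = HahnSeries.C c := by
  rw [← algebraMap_eq_hahnC]
  rfl

/-- the inclusion `L(E) → ℚ̄((q))`, linear for the `HahnSeries` module structure -/
def rrLin (E : Divisor Kb (FF N)) : ↥(riemannRochSpace E) →ₗ[Kb] LaurentSeries Kb where
  toFun b := ((b : FF N) : LaurentSeries Kb)
  map_add' _ _ := rfl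
  map_smul' c b := by
    show (((c • (b : FF N) : FF N)) : LaurentSeries Kb) = c • ((b : FF N) : LaurentSeries Kb)
    rw [Algebra.smul_def, ← HahnSeries.C_mul_eq_smul, ← coe_algebraMap_FF (N := N)]
    rfl

/-- `L(E)` as a subspace of `ℚ̄((q))` -/
def rrImage (E : Divisor Kb (FF N)) : Submodule Kb (LaurentSeries Kb) :=
  LinearMap.range (rrLin E)

omit [NeZero N] in
theorem mem_rrImage {E : Divisor Kb (FF N)} {x : LaurentSeries Kb} :
    x ∈ rrImage E ↔ ∃ b : FF N, b ∈ riemannRochSpace E ∧ (b : LaurentSeries Kb) = x := by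
  constructor
  · rintro ⟨b, rfl⟩
    exact ⟨b.1, b.2, rfl⟩
  · rintro ⟨b, hb, rfl⟩
    exact ⟨⟨b, hb⟩, rfl⟩

end RRImage

end Fermat.Agent.ES.M
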