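import Fermat.Agent.ES.M.Final2
import Fermat.Agent.ES.I2.Final
import Fermat.Agent.ES.I2aux.Glue

/-!
# ES / M (route 2, `π`-adic INJ): the closed theorem

All pieces of route 2 are proved: `(I2)` for `ℓ ≥ 5` (`ES/I2/Final.lean`), `(I2)` for
`ℓ ∈ {2, 3}` at the auxiliary levels (`ES/I2aux/Glue.lean`), Step C, the Fricke involution and
the glue (`ES/M/Final2.lean`).  This gives a second, independent proof of (INJ)
(the first one is `Fermat.Agent.INJ.injAll_stmtINJAll`, the Čech route).
-/

set_option autoImplicit false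

noncomputable section

namespace Fermat.Agent.ES.M

/-- **(INJ)**, by route 2. -/
theorem stmtINJAll_route2 : Fermat.Agent.INJ.StmtINJAll :=
  stmtINJAll_of_I2 Fermat.Agent.ES.I2.stmtI2All Fermat.Agent.ES.I2aux.stmtI2AuxAll

/-- **(INJ)** for prime exponents in the form of `ES/G2/Plan.lean`, by route 2. -/
theorem stmtInjPrime_route2 : G2.StmtInjPrime :=
  stmtInjPrime_of_I2 Fermat.Agent.ES.I2.stmtI2All Fermat.Agent.ES.I2aux.stmtI2AuxAll

end Fermat.Agent.ES.M
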